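/-
P10 / G7 (helper2): the flat local condition at `p` — base data.

A place `𝔓` of `ℚ̄` over a prime `p`; its `ℚ`-valued valuation `𝔓.v` (`v(p) = 1`), inertia group
`𝔓.I`, inertia field `𝔓.K0 = ℚ̄^I` and the base ring `𝔓.W = P ∩ K0` over which all "finite flat
group schemes" (function-model orders, `Lib/TW/Flat/Model.lean`) live.
`𝔓.Unr` is the statement that `K0` is unramified (`v(K0ˣ) = ℤ`); under it `W` is a PID.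
-/
import Mathlib
import Fermat.Agent.Lib.S05.QValQbar
import Fermat.Agent.Lib.TW.Local.TameInertia

set_option autoImplicit false

namespace Fermat.Agent.TW

open ValuationSubring Polynomial
open Fermat.Agent.S05Lib

local notation "Qb" => AlgebraicClosure ℚ
local notation "GQ" => (AlgebraicClosure ℚ ≃ₐ[ℚ] AlgebraicClosure ℚ)

/-- a valuation subring of `ℚ̄` over a prime number `p` -/
structure FFPlace where
  /-- the valuation subring -/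
  P : ValuationSubring Qb
  /-- the residue characteristic -/
  p : ℕ
  hp : p.Prime
  hP : P.LiesOverPrime p

namespace FFPlace

noncomputable section

variable (𝔓 : FFPlace)

/-- the `ℚ`-valued valuation with `v(p) = 1` -/
def v : QVal Qb := qvalOf 𝔓.P 𝔓.hp 𝔓.hP qv_isAlgebraic_int_qbar

/-- the inertia group -/
def I : Subgroup GQ := 𝔓.P.inertiaSubgroupIn ℚ

/-- the decomposition group -/
def D : Subgroup GQ := 𝔓.P.decompositionSubgroup ℚ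

/-- the inertia field -/
def K0 : IntermediateField ℚ Qb := IntermediateField.fixedField 𝔓.I

/-- the base ring `W = P ∩ K0` -/
def W : Subring Qb := 𝔓.P.toSubring ⊓ 𝔓.K0.toSubring

/-- the inertia field is unramified -/
def Unr : Prop := ∀ x ∈ 𝔓.K0, x ≠ 0 → ∃ n : ℤ, 𝔓.v.ord x = n

lemma ord_def (x : Qb) : 𝔓.v.ord x = qvOrd 𝔓.P 𝔓.p x := rfl

lemma p_ne_zero : (𝔓.p : Qb) ≠ 0 := by exact_mod_cast 𝔓.hp.ne_zero

lemma is_p : 𝔓.v.Is (𝔓.p : Qb) 1 := ⟨𝔓.p_ne_zero, qvOrd_q 𝔓.P 𝔓.hp 𝔓.hP⟩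

lemma mem_P_iff (x : Qb) : x ∈ 𝔓.P ↔ 𝔓.v.Ge x 0 :=
  qv_mem_iff 𝔓.P 𝔓.hp 𝔓.hP qv_isAlgebraic_int_qbar x

lemma I_le_D : 𝔓.I ≤ 𝔓.D := fun _ hσ => (qv_mem_inertiaSubgroupIn 𝔓.P hσ).1

lemma mem_K0_iff (x : Qb) : x ∈ 𝔓.K0 ↔ ∀ σ ∈ 𝔓.I, σ x = x := by
  unfold K0
  rw [IntermediateField.mem_fixedField_iff]

lemma mem_W_iff (x : Qb) : x ∈ 𝔓.W ↔ 𝔓.v.Ge x 0 ∧ ∀ σ ∈ 𝔓.I, σ x = x := by
  unfold W
  rw [Subring.mem_inf, ← 𝔓.mem_P_iff, ← 𝔓.mem_K0_iff]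
  rfl

/-- the decomposition group preserves the valuation -/
lemma ord_D {σ : GQ} (hσ : σ ∈ 𝔓.D) (x : Qb) : 𝔓.v.ord (σ x) = 𝔓.v.ord x := by
  by_cases hx : x = 0
  · subst hx; simp
  obtain ⟨hπ0, -⟩ := qv_pi_pos 𝔓.P 𝔓.hp 𝔓.hP
  obtain ⟨m, hm, s, hs⟩ := qv_exists_pow_eq 𝔓.P 𝔓.hp 𝔓.hP (qv_isAlgebraic_int_qbar x) hx
  rw [ord_def, ord_def, qvOrd_eq 𝔓.P 𝔓.hp 𝔓.hP hm hs]
  set u : Qb := x ^ m / (𝔓.p : Qb) ^ s with hu
  have hwu : 𝔓.P.valuation u = 1 := by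
    rw [hu, map_div₀, map_pow, map_zpow₀, hs]
    exact div_self (zpow_ne_zero _ hπ0.ne')
  have hσu := qv_decomp_valuation_eq_one 𝔓.P hσ hwu
  have hσu' : σ u = (σ x) ^ m / (𝔓.p : Qb) ^ s := by
    rw [hu, map_div₀, map_pow, map_zpow₀, map_natCast]
  rw [hσu', map_div₀, map_pow, map_zpow₀, div_eq_one_iff_eq (zpow_ne_zero _ hπ0.ne')] at hσu
  exact qvOrd_eq 𝔓.P 𝔓.hp 𝔓.hP hm hσu

lemma ge_D {σ : GQ} (hσ : σ ∈ 𝔓.D) {x : Qb} {c : ℚ} (h : 𝔓.v.Ge x c) : 𝔓.v.Ge (σ x) c := by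
  rcases h with rfl | h
  · left; simp
  · right; rwa [𝔓.ord_D hσ]

lemma gt_D {σ : GQ} (hσ : σ ∈ 𝔓.D) {x : Qb} {c : ℚ} (h : 𝔓.v.Gt x c) : 𝔓.v.Gt (σ x) c := by
  rcases h with rfl | h
  · left; simp
  · right; rwa [𝔓.ord_D hσ]

lemma is_D {σ : GQ} (hσ : σ ∈ 𝔓.D) {x : Qb} {c : ℚ} (h : 𝔓.v.Is x c) : 𝔓.v.Is (σ x) c :=
  ⟨(map_ne_zero_iff σ σ.injective).mpr h.1, by rw [𝔓.ord_D hσ]; exact h.2⟩

/-- inertia acts trivially on residues -/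
lemma gt_I_sub {σ : GQ} (hσ : σ ∈ 𝔓.I) {x : Qb} (hx : 𝔓.v.Ge x 0) : 𝔓.v.Gt (σ x - x) 0 := by
  have hxP : x ∈ 𝔓.P := (𝔓.mem_P_iff x).mpr hx
  rcases qv_inertia_sub 𝔓.P 𝔓.hp 𝔓.hP qv_isAlgebraic_int_qbar hσ hxP with h | h
  · left; rw [h, sub_self]
  · right; exact h

end

end FFPlace

end Fermat.Agent.TW
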