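/-
P10 / G7 (helper2): the base ring `W = P ∩ ℚ̄^I`: residue field (= that of `P`, algebraic over
`𝔽_p`, perfect), and under `𝔓.Unr` it is a principal ideal domain with uniformiser `p`.
-/
import Fermat.Agent.Lib.TW.Flat.Base

set_option autoImplicit false

namespace Fermat.Agent.TW

open ValuationSubring Polynomial
open Fermat.Agent.S05Lib
open scoped IntermediateField

set_option linter.style.haveILetI false

local notation "Qb" => AlgebraicClosure ℚ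
local notation "GQ" => (AlgebraicClosure ℚ ≃ₐ[ℚ] AlgebraicClosure ℚ)

namespace FFPlace

variable (𝔓 : FFPlace)

/-- the residue of a unit has finite order prime to `p` -/
theorem exists_pow_sub_one_gt {x : Qb} (hx : 𝔓.v.Is x 0) :
    ∃ d : ℕ, 0 < d ∧ d.Coprime 𝔓.p ∧ 𝔓.v.Gt (x ^ d - 1) 0 := by
  classical
  haveI : Fact 𝔓.p.Prime := ⟨𝔓.hp⟩
  have hxP : x ∈ 𝔓.P := (𝔓.mem_P_iff x).mpr hx.ge
  set κ := IsLocalRing.ResidueField 𝔓.P with hκ
  set res : 𝔓.P →+* κ := IsLocalRing.residue 𝔓.P with hres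
  -- characteristic p
  have hpκ : ((𝔓.p : ℕ) : κ) = 0 := by
    have h1 : ((𝔓.p : ℕ) : 𝔓.P) ∈ IsLocalRing.maximalIdeal 𝔓.P := by
      rw [𝔓.P.valuation_lt_one_iff]
      have h : ((𝔓.p : ℕ) : Qb) ∈ 𝔓.P.nonunits := 𝔓.hP
      rw [𝔓.P.mem_nonunits_iff] at h
      simpa using h
    have h2 : res ((𝔓.p : ℕ) : 𝔓.P) = 0 := by
      rw [hres, IsLocalRing.residue_eq_zero_iff]; exact h1
    simpa using h2
  haveI : CharP κ 𝔓.p := (CharP.charP_iff_prime_eq_zero 𝔓.hp).mpr hpκ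
  letI : Algebra (ZMod 𝔓.p) κ := ZMod.algebra κ 𝔓.p
  set xP : 𝔓.P := ⟨x, hxP⟩ with hxPdef
  set xb : κ := res xP with hxb
  -- xb ≠ 0
  have hxb0 : xb ≠ 0 := by
    rw [hxb, hres, Ne, IsLocalRing.residue_eq_zero_iff, 𝔓.P.valuation_lt_one_iff]
    have : 𝔓.P.valuation x = 1 := by
      have h1 := (qv_le_iff 𝔓.P 𝔓.hp 𝔓.hP qv_isAlgebraic_int_qbar hx.1 one_ne_zero)
      have h2 := (qv_le_iff 𝔓.P 𝔓.hp 𝔓.hP qv_isAlgebraic_int_qbar one_ne_zero hx.1)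
      rw [qvOrd_one 𝔓.P 𝔓.hp 𝔓.hP] at h1 h2
      have h3 : qvOrd 𝔓.P 𝔓.p x = 0 := hx.2
      rw [h3] at h1 h2
      have := le_antisymm (h1.mpr le_rfl) (h2.mpr le_rfl)
      rwa [map_one] at this
    change ¬ 𝔓.P.valuation ((xP : 𝔓.P) : Qb) < 1
    rw [this]; exact lt_irrefl _
  -- a primitive integral relation
  obtain ⟨g, hg0, hg⟩ := qv_isAlgebraic_int_qbar x
  set g' := g.primPart with hg'
  have hg'x : aeval x g' = 0 := aeval_primPart_eq_zero hg0 hg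
  have hprim : g'.IsPrimitive := isPrimitive_primPart g
  set gb : (ZMod 𝔓.p)[X] := g'.map (Int.castRingHom (ZMod 𝔓.p)) with hgb
  have hgb0 : gb ≠ 0 := by
    intro h0
    have hdvd : C (𝔓.p : ℤ) ∣ g' := by
      rw [C_dvd_iff_dvd_coeff]
      intro i
      have : gb.coeff i = 0 := by rw [h0]; simp
      rw [hgb, coeff_map] at this
      exact (ZMod.intCast_zmod_eq_zero_iff_dvd _ _).mp this
    have hu := hprim _ hdvd
    have : (𝔓.p : ℤ) ∣ 1 := hu.dvd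
    have h2 : 𝔓.p ∣ 1 := by exact_mod_cast this
    exact 𝔓.hp.one_lt.ne' (Nat.dvd_one.mp h2)
  have hroot : aeval xb gb = 0 := by
    have h1 : eval₂ (Int.castRingHom 𝔓.P) xP g' = 0 := by
      apply Subtype.ext
      have := hom_eval₂ g' (Int.castRingHom 𝔓.P) 𝔓.P.subtype xP
      rw [show (𝔓.P.subtype (eval₂ (Int.castRingHom 𝔓.P) xP g')) =
        ((eval₂ (Int.castRingHom 𝔓.P) xP g' : 𝔓.P) : Qb) from rfl] at this
      rw [this]
      have hc : (𝔓.P.subtype.comp (Int.castRingHom 𝔓.P)) = algebraMap ℤ Qb := RingHom.ext_int _ _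
      rw [hc]
      change eval₂ (algebraMap ℤ Qb) x g' = ((0 : 𝔓.P) : Qb)
      rw [← aeval_def, hg'x]; rfl
    have h2 := hom_eval₂ g' (Int.castRingHom 𝔓.P) res xP
    rw [h1, map_zero] at h2
    rw [aeval_def, hgb, eval₂_map]
    have hc : (algebraMap (ZMod 𝔓.p) κ).comp (Int.castRingHom (ZMod 𝔓.p)) =
        res.comp (Int.castRingHom 𝔓.P) := RingHom.ext_int _ _
    rw [hc, ← h2]
  have hint : IsIntegral (ZMod 𝔓.p) xb := (IsAlgebraic.isIntegral ⟨gb, hgb0, hroot⟩)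
  haveI : FiniteDimensional (ZMod 𝔓.p) (ZMod 𝔓.p)⟮xb⟯ :=
    IntermediateField.adjoin.finiteDimensional hint
  haveI : Finite (ZMod 𝔓.p)⟮xb⟯ := Module.finite_of_finite (ZMod 𝔓.p)
  letI : Fintype (ZMod 𝔓.p)⟮xb⟯ := Fintype.ofFinite _
  set F := (ZMod 𝔓.p)⟮xb⟯ with hF
  set xF : F := ⟨xb, IntermediateField.mem_adjoin_simple_self _ _⟩ with hxF
  have hxF0 : xF ≠ 0 := by
    intro h
    apply hxb0
    have := congrArg (fun z : F => (z : κ)) h
    exact this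
  have hpow := FiniteField.pow_card_sub_one_eq_one xF hxF0
  obtain ⟨n, -, hcard⟩ := FiniteField.card F 𝔓.p
  set d := Fintype.card F - 1 with hd
  have hd1 : 𝔓.p ^ (n : ℕ) = d + 1 := by
    rw [hd, ← hcard]
    have : 0 < Fintype.card F := Fintype.card_pos
    omega
  have hn : 0 < (n : ℕ) := n.pos
  have hdpos : 0 < d := by
    have : 2 ≤ 𝔓.p ^ (n : ℕ) :=
      le_trans 𝔓.hp.two_le (Nat.le_self_pow hn.ne' _)
    omega
  have hcop : d.Coprime 𝔓.p := by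
    rw [Nat.coprime_comm, Nat.Prime.coprime_iff_not_dvd 𝔓.hp]
    intro hdvd
    have h1 : 𝔓.p ∣ 𝔓.p ^ (n : ℕ) := dvd_pow_self _ hn.ne'
    rw [hd1] at h1
    have : 𝔓.p ∣ 1 := (Nat.dvd_add_right hdvd).mp h1
    exact 𝔓.hp.one_lt.ne' (Nat.dvd_one.mp this)
  refine ⟨d, hdpos, hcop, ?_⟩
  -- back to valuations
  have hxbd : xb ^ d = 1 := by
    have := congrArg (fun z : F => (z : κ)) hpow
    simpa using this
  have hmem : xP ^ d - 1 ∈ IsLocalRing.maximalIdeal 𝔓.P := by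
    rw [← IsLocalRing.residue_eq_zero_iff, map_sub, map_pow, map_one]
    change xb ^ d - 1 = 0
    rw [hxbd, sub_self]
  rw [𝔓.P.valuation_lt_one_iff] at hmem
  have hval : 𝔓.P.valuation (x ^ d - 1) < 1 := by simpa using hmem
  by_cases h0 : x ^ d - 1 = 0
  · left; exact h0
  · right
    rw [← map_one 𝔓.P.valuation, qv_lt_iff 𝔓.P 𝔓.hp 𝔓.hP qv_isAlgebraic_int_qbar h0 one_ne_zero,
      qvOrd_one 𝔓.P 𝔓.hp 𝔓.hP] at hval
    exact hval

end FFPlace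

end Fermat.Agent.TW

namespace Fermat.Agent.TW

open ValuationSubring Polynomial
open Fermat.Agent.S05Lib

local notation "Qb" => AlgebraicClosure ℚ
local notation "GQ" => (AlgebraicClosure ℚ ≃ₐ[ℚ] AlgebraicClosure ℚ)

namespace FFPlace

variable (𝔓 : FFPlace)

lemma is_zero_prod {ι : Type*} (s : Finset ι) (f : ι → Qb) (h : ∀ i ∈ s, 𝔓.v.Is (f i) 0) :
    𝔓.v.Is (∏ i ∈ s, f i) 0 := by
  classical
  induction s using Finset.induction_on with
  | empty => simpa using QVal.is_one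
  | insert a s ha ih =>
    rw [Finset.prod_insert ha]
    have h1 := h a (Finset.mem_insert_self a s)
    have h2 := ih (fun i hi => h i (Finset.mem_insert_of_mem hi))
    simpa using h1.mul h2

/-- a root of unity is a unit -/
lemma is_zero_of_pow_eq_one {η : Qb} {d : ℕ} (hd : 0 < d) (hη : η ^ d = 1) : 𝔓.v.Is η 0 := by
  have hη0 : η ≠ 0 := by
    rintro rfl
    rw [zero_pow hd.ne'] at hη
    exact zero_ne_one hη
  refine ⟨hη0, ?_⟩
  have h := 𝔓.v.ord_pow hη0 d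
  rw [hη, 𝔓.v.ord_one] at h
  have hdq : (d : ℚ) ≠ 0 := by exact_mod_cast hd.ne'
  rcases mul_eq_zero.mp h.symm with h | h
  · exact absurd h hdq
  · exact h

/-- the residue field of `W` is the residue field of `P` -/
theorem exists_W_sub_gt {x : Qb} (hx : 𝔓.v.Ge x 0) : ∃ w ∈ 𝔓.W, 𝔓.v.Gt (x - w) 0 := by
  classical
  rcases 𝔓.v.le_or_gt x 0 with hle | hgt
  · have hx0 : 𝔓.v.Is x 0 := by
      refine ⟨hle.1, le_antisymm hle.2 ?_⟩
      rcases hx with h | h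
      · exact absurd h hle.1
      · exact h
    obtain ⟨d, hd, hcop, hgt⟩ := 𝔓.exists_pow_sub_one_gt hx0
    have : NeZero (d : Qb) := ⟨by exact_mod_cast hd.ne'⟩
    obtain ⟨ζ, hζ⟩ := HasEnoughRootsOfUnity.exists_primitiveRoot Qb d
    have hfac := X_pow_sub_one_eq_prod hd hζ
    have hev : x ^ d - 1 = ∏ η ∈ nthRootsFinset d (1 : Qb), (x - η) := by
      have := congrArg (eval x) hfac
      simpa [eval_prod] using this
    by_contra hno
    push Not at hno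
    have hall : ∀ η ∈ nthRootsFinset d (1 : Qb), 𝔓.v.Is (x - η) 0 := by
      intro η hη
      rw [mem_nthRootsFinset hd] at hη
      have hηu := 𝔓.is_zero_of_pow_eq_one hd hη
      have hηW : η ∈ 𝔓.W := by
        rw [mem_W_iff]
        refine ⟨hηu.ge, fun σ hσ => ?_⟩
        exact tame_inertia_fixes_rootOfUnity 𝔓.hp 𝔓.hP hσ hcop hη
      have hge : 𝔓.v.Ge (x - η) 0 := hx.sub hηu.ge
      rcases 𝔓.v.le_or_gt (x - η) 0 with h1 | h1
      · refine ⟨h1.1, le_antisymm h1.2 ?_⟩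
        rcases hge with h | h
        · exact absurd h h1.1
        · exact h
      · exact absurd h1 (hno η hηW)
    have := 𝔓.is_zero_prod _ _ hall
    rw [← hev] at this
    exact this.not_gt hgt le_rfl
  · exact ⟨0, Subring.zero_mem _, by simpa using hgt⟩

section Unr

variable {𝔓}

/-- elements of `K0` of positive valuation have valuation at least `1` -/
lemma Unr.ge_one (hU : 𝔓.Unr) {x : Qb} (hx : x ∈ 𝔓.K0) (h : 𝔓.v.Gt x 0) : 𝔓.v.Ge x 1 := by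
  rcases h with rfl | h
  · left; rfl
  · by_cases hx0 : x = 0
    · left; exact hx0
    · right
      obtain ⟨n, hn⟩ := hU x hx hx0
      rw [hn] at h ⊢
      have : (0 : ℤ) < n := by exact_mod_cast h
      have : (1 : ℤ) ≤ n := this
      exact_mod_cast this

lemma natCast_mem_W (n : ℕ) : (n : Qb) ∈ 𝔓.W := natCast_mem _ n

lemma K0_of_W {x : Qb} (hx : x ∈ 𝔓.W) : x ∈ 𝔓.K0 := by
  rw [mem_W_iff] at hx
  rw [mem_K0_iff]
  exact hx.2

/-- division by `p` in `W` -/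
lemma div_p_mem_W {x : Qb} (hx : x ∈ 𝔓.W) (h : 𝔓.v.Ge x 1) : x / (𝔓.p : Qb) ∈ 𝔓.W := by
  rw [mem_W_iff] at hx ⊢
  refine ⟨?_, fun σ hσ => ?_⟩
  · have := h.div_is 𝔓.is_p
    simpa using this
  · rw [map_div₀, hx.2 σ hσ, map_natCast]

lemma ge_zero_sum {ι : Type*} (s : Finset ι) (f : ι → Qb) {c : ℚ} (h : ∀ i ∈ s, 𝔓.v.Ge (f i) c) :
    𝔓.v.Ge (∑ i ∈ s, f i) c := by
  classical
  induction s using Finset.induction_on with
  | empty => simpa using QVal.ge_zero'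
  | insert a s ha ih =>
    rw [Finset.sum_insert ha]
    exact (h a (Finset.mem_insert_self a s)).add (ih (fun i hi => h i (Finset.mem_insert_of_mem hi)))

lemma ge_zero_pow {x : Qb} (h : 𝔓.v.Ge x 0) (n : ℕ) : 𝔓.v.Ge (x ^ n) 0 := by
  simpa using h.pow n

/-- the residue field of `W` is perfect: every element of `W` is a `p`-th power modulo `p` -/
theorem Unr.exists_pth_root (hU : 𝔓.Unr) {w : Qb} (hw : w ∈ 𝔓.W) :
    ∃ u ∈ 𝔓.W, ∃ t ∈ 𝔓.W, w = u ^ 𝔓.p + (𝔓.p : Qb) * t := by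
  have hwge : 𝔓.v.Ge w 0 := ((𝔓.mem_W_iff w).mp hw).1
  have hp0 := 𝔓.p_ne_zero
  -- it suffices to find `u` with `v(u^p - w) > 0`
  suffices h : ∃ u ∈ 𝔓.W, 𝔓.v.Gt (u ^ 𝔓.p - w) 0 by
    obtain ⟨u, huW, hgt⟩ := h
    have hdW : u ^ 𝔓.p - w ∈ 𝔓.W := Subring.sub_mem _ (Subring.pow_mem _ huW _) hw
    have hge1 := hU.ge_one (K0_of_W hdW) hgt
    refine ⟨u, huW, -((u ^ 𝔓.p - w) / (𝔓.p : Qb)), Subring.neg_mem _ (div_p_mem_W hdW hge1), ?_⟩
    field_simp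
    ring
  rcases 𝔓.v.le_or_gt w 0 with hle | hgt
  · have hw0 : 𝔓.v.Is w 0 := by
      refine ⟨hle.1, le_antisymm hle.2 ?_⟩
      rcases hwge with h | h
      · exact absurd h hle.1
      · exact h
    obtain ⟨d, hd, hcop, hgt⟩ := 𝔓.exists_pow_sub_one_gt hw0
    -- p * m = 1 + k * d
    obtain ⟨m, k, hmk⟩ : ∃ m k : ℕ, 𝔓.p * m = 1 + k * d := by
      rcases Nat.lt_or_ge 1 d with h1 | h1
      · obtain ⟨m, -, hm⟩ := Nat.exists_mul_mod_eq_one_of_coprime hcop.symm h1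
        refine ⟨m, 𝔓.p * m / d, ?_⟩
        have := Nat.div_add_mod (𝔓.p * m) d
        rw [hm] at this
        rw [mul_comm (𝔓.p * m / d) d]; omega
      · have hd1 : d = 1 := by omega
        subst hd1
        refine ⟨1, 𝔓.p - 1, ?_⟩
        have := 𝔓.hp.one_lt
        omega
    refine ⟨w ^ m, Subring.pow_mem _ hw m, ?_⟩
    have h1 : (w ^ m) ^ 𝔓.p - w = w * ((∑ i ∈ Finset.range k, (w ^ d) ^ i) * (w ^ d - 1)) := by
      rw [geom_sum_mul, ← pow_mul, mul_comm m, hmk, pow_add, pow_one, ← pow_mul, mul_comm k d]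
      ring
    rw [h1]
    have h2 : 𝔓.v.Ge (∑ i ∈ Finset.range k, (w ^ d) ^ i) 0 :=
      𝔓.ge_zero_sum _ _ (fun i _ => 𝔓.ge_zero_pow (𝔓.ge_zero_pow hwge d) i)
    have h3 := hwge.mul_gt (h2.mul_gt hgt)
    simpa using h3
  · refine ⟨0, Subring.zero_mem _, ?_⟩
    rw [zero_pow 𝔓.hp.ne_zero, zero_sub]
    exact hgt.neg

/-- valuation of a nonzero element of `W` is a natural number -/
lemma Unr.exists_nat (hU : 𝔓.Unr) {x : Qb} (hx : x ∈ 𝔓.W) (hx0 : x ≠ 0) :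
    ∃ n : ℕ, 𝔓.v.Is x n := by
  obtain ⟨n, hn⟩ := hU x (K0_of_W hx) hx0
  have hge : 𝔓.v.Ge x 0 := ((𝔓.mem_W_iff x).mp hx).1
  have h0 : (0 : ℚ) ≤ n := by
    rcases hge with h | h
    · exact absurd h hx0
    · rwa [hn] at h
  have h0' : (0 : ℤ) ≤ n := by exact_mod_cast h0
  refine ⟨n.toNat, hx0, ?_⟩
  rw [hn]
  have : ((n.toNat : ℤ) : ℚ) = (n : ℚ) := by rw [Int.toNat_of_nonneg h0']
  exact_mod_cast this.symm

lemma is_p_pow (n : ℕ) : 𝔓.v.Is ((𝔓.p : Qb) ^ n) n := by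
  simpa using 𝔓.is_p.pow n

/-- quotient of elements of `K0` with valuation `≥ 0` -/
lemma div_mem_W {x y : Qb} (hx : x ∈ 𝔓.K0) (hy : y ∈ 𝔓.K0) {a b : ℚ} (hxa : 𝔓.v.Ge x a)
    (hyb : 𝔓.v.Is y b) (hab : b ≤ a) : x / y ∈ 𝔓.W := by
  rw [mem_W_iff]
  refine ⟨(hxa.div_is hyb).mono (by linarith), fun σ hσ => ?_⟩
  rw [mem_K0_iff] at hx hy
  rw [map_div₀, hx σ hσ, hy σ hσ]

/-- `W` is a principal ideal domain (a discrete valuation ring with uniformiser `p`) -/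
theorem Unr.isPrincipalIdealRing (hU : 𝔓.Unr) : IsPrincipalIdealRing 𝔓.W := by
  classical
  refine ⟨fun J => ?_⟩
  by_cases hJ : J = ⊥
  · rw [hJ]; exact bot_isPrincipal
  have hex : ∃ n : ℕ, ∃ x : 𝔓.W, x ∈ J ∧ 𝔓.v.Is (x : Qb) n := by
    obtain ⟨x, hxJ, hx0⟩ := Submodule.exists_mem_ne_zero_of_ne_bot hJ
    have hx0' : (x : Qb) ≠ 0 := fun h => hx0 (Subtype.ext h)
    obtain ⟨n, hn⟩ := hU.exists_nat x.2 hx0'
    exact ⟨n, x, hxJ, hn⟩
  set n₀ := Nat.find hex with hn₀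
  obtain ⟨x₀, hx₀J, hx₀⟩ := Nat.find_spec hex
  have hpK : ((𝔓.p : Qb) ^ n₀) ∈ 𝔓.K0 := K0_of_W (Subring.pow_mem _ (natCast_mem_W _) _)
  have hpW : ((𝔓.p : Qb) ^ n₀) ∈ 𝔓.W := Subring.pow_mem _ (natCast_mem_W _) _
  set π : 𝔓.W := ⟨(𝔓.p : Qb) ^ n₀, hpW⟩ with hπ
  refine ⟨⟨π, ?_⟩⟩
  apply le_antisymm
  · intro y hyJ
    rw [Submodule.mem_span_singleton]
    by_cases hy0 : (y : Qb) = 0
    · refine ⟨0, ?_⟩
      rw [zero_smul]
      exact (Subtype.ext hy0).symm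
    obtain ⟨m, hm⟩ := hU.exists_nat y.2 hy0
    have hle : n₀ ≤ m := Nat.find_min' hex ⟨y, hyJ, hm⟩
    have hq : (y : Qb) / (𝔓.p : Qb) ^ n₀ ∈ 𝔓.W :=
      div_mem_W (K0_of_W y.2) hpK hm.ge (is_p_pow n₀) (by exact_mod_cast hle)
    refine ⟨⟨_, hq⟩, ?_⟩
    apply Subtype.ext
    change (y : Qb) / (𝔓.p : Qb) ^ n₀ * (𝔓.p : Qb) ^ n₀ = y
    rw [div_mul_cancel₀]
    exact pow_ne_zero _ 𝔓.p_ne_zero
  · rw [Submodule.span_singleton_le_iff_mem]
    have hq : (𝔓.p : Qb) ^ n₀ / (x₀ : Qb) ∈ 𝔓.W :=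
      div_mem_W hpK (K0_of_W x₀.2) (is_p_pow n₀).ge hx₀ le_rfl
    have : π = (⟨_, hq⟩ : 𝔓.W) * x₀ := by
      apply Subtype.ext
      change (𝔓.p : Qb) ^ n₀ = (𝔓.p : Qb) ^ n₀ / (x₀ : Qb) * x₀
      rw [div_mul_cancel₀]
      exact hx₀.1
    rw [this]
    exact J.mul_mem_left _ hx₀J

end Unr

end FFPlace

end Fermat.Agent.TW
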