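/-
P10 / G7 (helper2): the `[p]`-expansion in a function-model order (T2r):
for `f` in the augmentation ideal there are `b ∈ aug`, `Q ∈ aug²` with
`f (p • y) = p f(y) + p Q(y) + b(y)^p` for all points `y`.
(Proof: `p`-fold comultiplication in coordinates, uniqueness of the coordinates ⇒ invariance under
cyclic shifts, orbits of `ℤ/p` on multi-indices have size `p` or `1`, and `p`-th roots modulo `p`
in `W`.)  This replaces "`[p] = F ∘ V`" / Oort–Tate / Raynaud.
-/
import Fermat.Agent.Lib.TW.Flat.ModelQuot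

set_option autoImplicit false

open Function in
/-- a permutation of prime order: sums of invariant functions -/
theorem ff_sum_eq_fixed_add_prime_smul {S : Type*} [Fintype S] [DecidableEq S] {A : Type*}
    [AddCommMonoid A] {p : ℕ} (hp : p.Prime) (ρ : Equiv.Perm S) (hρ : ρ ^ p = 1) :
    ∃ T : Finset S, (∀ s ∈ T, ρ s ≠ s) ∧ ∀ g : S → A, (∀ s, g (ρ s) = g s) →
      ∑ s, g s = ∑ s with ρ s = s, g s + p • ∑ s ∈ T, g s := by
  classical
  -- strong induction over `ρ`-stable sets of non-fixed points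
  have key : ∀ n : ℕ, ∀ U : Finset S, U.card = n → (∀ s ∈ U, ρ s ≠ s) → (∀ s ∈ U, ρ s ∈ U) →
      ∃ T : Finset S, T ⊆ U ∧ ∀ g : S → A, (∀ s, g (ρ s) = g s) →
        ∑ s ∈ U, g s = p • ∑ s ∈ T, g s := by
    intro n
    induction n using Nat.strong_induction_on with
    | _ n IH =>
    intro U hU hnf hstab
    rcases U.eq_empty_or_nonempty with rfl | ⟨s₀, hs₀⟩
    · exact ⟨∅, subset_rfl, fun g _ => by simp⟩
    have hper : IsPeriodicPt ρ p s₀ := by
      change ρ^[p] s₀ = s₀
      rw [Equiv.Perm.iterate_eq_pow, hρ]; rfl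
    have hmin : minimalPeriod ρ s₀ = p := by
      rcases (Nat.dvd_prime hp).mp hper.minimalPeriod_dvd with h1 | h1
      · exact absurd (minimalPeriod_eq_one_iff_isFixedPt.mp h1) (hnf s₀ hs₀)
      · exact h1
    have hiterU : ∀ i : ℕ, ρ^[i] s₀ ∈ U := by
      intro i
      induction i with
      | zero => exact hs₀
      | succ i ih => rw [iterate_succ_apply']; exact hstab _ ih
    set O : Finset S := (Finset.range p).image (fun i => ρ^[i] s₀) with hO
    have hOU : O ⊆ U := by
      intro s hs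
      obtain ⟨i, -, rfl⟩ := Finset.mem_image.mp hs
      exact hiterU i
    have hinj : Set.InjOn (fun i => ρ^[i] s₀) (Finset.range p : Set ℕ) := by
      have := iterate_injOn_Iio_minimalPeriod (f := ρ) (x := s₀)
      rw [hmin] at this
      intro i hi j hj hij
      exact this (by simpa using hi) (by simpa using hj) hij
    have hOstab : ∀ s ∈ O, ρ s ∈ O := by
      intro s hs
      obtain ⟨i, hi, rfl⟩ := Finset.mem_image.mp hs
      rw [← iterate_succ_apply' ρ i s₀]
      by_cases hip : i + 1 < p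
      · exact Finset.mem_image.mpr ⟨i + 1, Finset.mem_range.mpr hip, rfl⟩
      · have : i.succ = p := by have := Finset.mem_range.mp hi; omega
        rw [this, hper]
        exact Finset.mem_image.mpr ⟨0, Finset.mem_range.mpr hp.pos, rfl⟩
    have hOstab' : ∀ s ∈ U \ O, ρ s ∈ U \ O := by
      intro s hs
      rw [Finset.mem_sdiff] at hs ⊢
      refine ⟨hstab s hs.1, fun h => hs.2 ?_⟩
      -- `s = ρ^(p-1) (ρ s)`
      have h1 : ∀ i : ℕ, ρ^[i] (ρ s) ∈ O := by
        intro i
        induction i with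
        | zero => exact h
        | succ i ih => rw [iterate_succ_apply']; exact hOstab _ ih
      have h2 : ρ^[p - 1] (ρ s) = s := by
        rw [← iterate_succ_apply]
        have : (p - 1).succ = p := by have := hp.pos; omega
        rw [this, Equiv.Perm.iterate_eq_pow, hρ]; rfl
      rw [← h2]; exact h1 _
    have hcard : (U \ O).card < n := by
      rw [← hU]
      refine Finset.card_lt_card ⟨Finset.sdiff_subset, fun h => ?_⟩
      have : s₀ ∈ O := Finset.mem_image.mpr ⟨0, Finset.mem_range.mpr hp.pos, rfl⟩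
      exact (Finset.mem_sdiff.mp (h hs₀)).2 this
    obtain ⟨T', hT', hsum'⟩ := IH _ hcard (U \ O) rfl
      (fun s hs => hnf s (Finset.mem_sdiff.mp hs).1) hOstab'
    refine ⟨insert s₀ T', ?_, fun g hg => ?_⟩
    · intro s hs
      rcases Finset.mem_insert.mp hs with rfl | hs
      · exact hs₀
      · exact (Finset.mem_sdiff.mp (hT' hs)).1
    · have hs₀T : s₀ ∉ T' := fun h =>
        (Finset.mem_sdiff.mp (hT' h)).2 (Finset.mem_image.mpr ⟨0, Finset.mem_range.mpr hp.pos, rfl⟩)
      rw [Finset.sum_insert hs₀T, smul_add, ← hsum' g hg, ← Finset.sum_sdiff hOU, add_comm]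
      congr 1
      rw [hO, Finset.sum_image hinj]
      have hconst : ∀ i : ℕ, g (ρ^[i] s₀) = g s₀ := by
        intro i
        induction i with
        | zero => rfl
        | succ i ih => rw [iterate_succ_apply', hg, ih]
      rw [Finset.sum_congr rfl (fun i _ => hconst i), Finset.sum_const, Finset.card_range]
  obtain ⟨T, hT, hsum⟩ := key _ (Finset.univ.filter (fun s => ρ s ≠ s)) rfl
    (fun s hs => (Finset.mem_filter.mp hs).2) (fun s hs => by
      rw [Finset.mem_filter] at hs ⊢
      exact ⟨Finset.mem_univ _, fun h => hs.2 (ρ.injective h)⟩)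
  refine ⟨T, fun s hs => (Finset.mem_filter.mp (hT hs)).2, fun g hg => ?_⟩
  rw [← hsum g hg, ← Finset.sum_filter_add_sum_filter_not Finset.univ (fun s => ρ s = s)]

open Equiv Equiv.Perm in
/-- rotation of `Fin m` has order `m` -/
lemma ff_finRotate_pow {m : ℕ} (hm : 2 ≤ m) : (finRotate m) ^ m = 1 := by
  have h1 := (isCycle_finRotate_of_le hm).orderOf
  rw [support_finRotate_of_le hm, Finset.card_univ, Fintype.card_fin] at h1
  have h2 := pow_orderOf_eq_one (finRotate m)
  rwa [h1] at h2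

open Equiv Equiv.Perm in
/-- a function invariant under rotation is constant -/
lemma ff_const_of_comp_finRotate {m : ℕ} (hm : 2 ≤ m) {O : Type*} (J : Fin m → O)
    (hJ : J ∘ (finRotate m) = J) (k k' : Fin m) : J k = J k' := by
  have hcyc := isCycle_finRotate_of_le hm
  have hsupp := support_finRotate_of_le hm
  have hk : finRotate m k ≠ k := by
    rw [← Equiv.Perm.mem_support, hsupp]; exact Finset.mem_univ _
  have hk' : finRotate m k' ≠ k' := by
    rw [← Equiv.Perm.mem_support, hsupp]; exact Finset.mem_univ _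
  obtain ⟨i, hi⟩ := hcyc.sameCycle hk hk'
  have hpow : ∀ n : ℕ, J ∘ ((finRotate m) ^ n) = J := by
    intro n
    induction n with
    | zero => rfl
    | succ n ih =>
      funext x
      rw [pow_succ]
      change J (((finRotate m) ^ n) ((finRotate m) x)) = J x
      have := congrFun ih ((finRotate m) x)
      rw [Function.comp_apply] at this
      rw [this]
      exact congrFun hJ x
  have hzpow : ∀ n : ℤ, J ∘ ((finRotate m) ^ n) = J := by
    intro n
    induction n using Int.induction_on with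
    | zero => rfl
    | succ n _ => exact_mod_cast hpow (n + 1)
    | pred n _ =>
      have h1 : ((finRotate m) ^ (-(n : ℤ) - 1)) = ((finRotate m) ^ (n + 1))⁻¹ := by
        rw [← zpow_natCast, ← zpow_neg]; congr 1; push_cast; ring
      rw [h1]
      funext x
      have := congrFun (hpow (n + 1)) (((finRotate m) ^ (n + 1))⁻¹ x)
      rw [Function.comp_apply, ← Equiv.Perm.mul_apply, mul_inv_cancel, Equiv.Perm.one_apply] at this
      exact this.symm
  have := congrFun (hzpow i) k
  rw [Function.comp_apply, hi] at this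
  exact this.symm

namespace Fermat.Agent.TW

open ValuationSubring Polynomial
open Fermat.Agent.S05Lib

local notation "Qb" => AlgebraicClosure ℚ
local notation "GQ" => (AlgebraicClosure ℚ ≃ₐ[ℚ] AlgebraicClosure ℚ)

/-- the number of non-trivial entries of a multi-index -/
def ffNN {m r : ℕ} (J : Fin m → Option (Fin r)) : ℕ := ∑ k, if J k = none then 0 else 1

lemma ffNN_cons {m r : ℕ} (j : Option (Fin r)) (J : Fin m → Option (Fin r)) :
    ffNN (Fin.cons j J : Fin (m + 1) → Option (Fin r)) = (if j = none then 0 else 1) + ffNN J := by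
  unfold ffNN
  rw [Fin.sum_univ_succ]
  simp only [Fin.cons_zero, Fin.cons_succ]

lemma ffNN_eq_zero {m r : ℕ} {J : Fin m → Option (Fin r)} (h : ffNN J = 0) (k : Fin m) :
    J k = none := by
  unfold ffNN at h
  have := Finset.sum_eq_zero_iff.mp h k (Finset.mem_univ k)
  by_contra hne
  rw [if_neg hne] at this
  exact one_ne_zero this

lemma ffNN_two_le {m r : ℕ} {J : Fin m → Option (Fin r)} (h : 2 ≤ ffNN J) :
    ∃ k₁ k₂ : Fin m, k₁ ≠ k₂ ∧ J k₁ ≠ none ∧ J k₂ ≠ none := by
  classical
  unfold ffNN at h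
  have h1 : (Finset.univ.filter (fun k => ¬ J k = none)).card = ∑ k, if J k = none then 0 else 1 := by
    rw [Finset.card_filter]
    refine Finset.sum_congr rfl (fun k _ => ?_)
    by_cases hk : J k = none <;> simp [hk]
  rw [← h1] at h
  obtain ⟨k₁, hk₁, k₂, hk₂, hne⟩ := Finset.one_lt_card.mp h
  exact ⟨k₁, k₂, hne, (Finset.mem_filter.mp hk₁).2, (Finset.mem_filter.mp hk₂).2⟩

namespace FFModel

variable {𝔓 : FFPlace} {X : Type*} [AddCommGroup X] {act : GQ → X →+ X} (M : FFModel 𝔓 X act)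

/-- the square of the augmentation ideal -/
noncomputable def augSq : Submodule 𝔓.W (X → Qb) :=
  Submodule.span 𝔓.W {q | ∃ a ∈ M.aug, ∃ c ∈ M.aug, q = a * c}

lemma mul_mem_augSq {a c : X → Qb} (ha : a ∈ M.aug) (hc : c ∈ M.aug) : a * c ∈ M.augSq :=
  Submodule.subset_span ⟨a, ha, c, hc, rfl⟩

lemma aug_mul_mem {a h : X → Qb} (ha : a ∈ M.aug) (hh : h ∈ M.carrier) : a * h ∈ M.aug :=
  ⟨M.carrier.mul_mem ha.1 hh, by simp [ha.2]⟩

lemma augSq_mul_mem {Q h : X → Qb} (hQ : Q ∈ M.augSq) (hh : h ∈ M.carrier) :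
    Q * h ∈ M.augSq := by
  induction hQ using Submodule.span_induction with
  | mem q hq =>
    obtain ⟨a, ha, c, hc, rfl⟩ := hq
    rw [mul_assoc]
    exact M.mul_mem_augSq ha (M.aug_mul_mem hc hh)
  | zero => rw [zero_mul]; exact M.augSq.zero_mem
  | add q q' _ _ ih ih' => rw [add_mul]; exact M.augSq.add_mem ih ih'
  | smul w q _ ih => rw [smul_mul_assoc]; exact M.augSq.smul_mem w ih

lemma augSq_le_aug : M.augSq ≤ M.aug := by
  refine Submodule.span_le.mpr ?_
  rintro _ ⟨a, ha, c, hc, rfl⟩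
  exact M.aug_mul_mem ha hc.1

variable {M}

lemma OrdGE.augSq_ge {y : X} {s : ℚ} (hy : M.OrdGE y s) {Q : X → Qb}
    (hQ : Q ∈ M.augSq) : 𝔓.v.Ge (Q y) (2 * s) := by
  induction hQ using Submodule.span_induction with
  | mem q hq =>
    obtain ⟨a, ha, c, hc, rfl⟩ := hq
    have := (hy a ha.1 ha.2).mul (hy c hc.1 hc.2)
    rw [← two_mul] at this
    exact this
  | zero => exact QVal.ge_zero'
  | add q q' _ _ ih ih' => exact ih.add ih'
  | smul w q _ ih =>
    have hw : 𝔓.v.Ge (w : Qb) 0 := ((𝔓.mem_W_iff _).mp w.2).1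
    have := hw.mul ih
    rw [zero_add] at this
    exact this

lemma AugBasis.fam_mem {r : ℕ} {u : Fin r → X → Qb} (B : M.AugBasis r u)
    (j : Option (Fin r)) : ffAugFam u j ∈ M.carrier := by
  rcases j with _ | i
  · exact M.carrier.one_mem
  · exact B.mem i

lemma AugBasis.fam_zero {r : ℕ} {u : Fin r → X → Qb} (B : M.AugBasis r u)
    (j : Option (Fin r)) : ffAugFam u j 0 = if j = none then 1 else 0 := by
  rcases j with _ | i
  · simp
  · simp [B.zero i]

/-- coordinates of an element of the augmentation ideal -/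
lemma AugBasis.span_aug {r : ℕ} {u : Fin r → X → Qb} (B : M.AugBasis r u) {f : X → Qb}
    (hf : f ∈ M.aug) : ∃ a : Option (Fin r) → Qb, (∀ j, a j ∈ 𝔓.W) ∧ a none = 0 ∧
      f = ∑ j, a j • ffAugFam u j := by
  classical
  obtain ⟨a, ha, hfa⟩ := B.span f hf.1
  refine ⟨a, ha, ?_, hfa⟩
  have h0 := congrFun hfa 0
  rw [hf.2] at h0
  simp only [Finset.sum_apply, Pi.smul_apply, smul_eq_mul, B.fam_zero, mul_ite, mul_one,
    mul_zero, Finset.sum_ite_eq', Finset.mem_univ, if_true] at h0
  exact h0.symm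

/-- products along a multi-index with at least two non-trivial entries lie in the square of the
augmentation ideal -/
lemma AugBasis.prod_mem_augSq {r : ℕ} {u : Fin r → X → Qb} (B : M.AugBasis r u) {m : ℕ}
    {J : Fin m → Option (Fin r)} (hJ : 2 ≤ ffNN J) :
    (∏ k, ffAugFam u (J k)) ∈ M.augSq := by
  classical
  obtain ⟨k₁, k₂, hne, h1, h2⟩ := ffNN_two_le hJ
  have hk₂ : k₂ ∈ Finset.univ.erase k₁ := Finset.mem_erase.mpr ⟨hne.symm, Finset.mem_univ _⟩
  rw [← Finset.mul_prod_erase Finset.univ _ (Finset.mem_univ k₁),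
    ← Finset.mul_prod_erase _ _ hk₂, ← mul_assoc]
  refine M.augSq_mul_mem (M.mul_mem_augSq ?_ ?_) (M.carrier.prod_mem (fun k _ => B.fam_mem _))
  · obtain ⟨i, hi⟩ := Option.ne_none_iff_exists'.mp h1
    rw [hi]
    exact ⟨B.mem i, B.zero i⟩
  · obtain ⟨i, hi⟩ := Option.ne_none_iff_exists'.mp h2
    rw [hi]
    exact ⟨B.mem i, B.zero i⟩

/-- the refined `m`-fold comultiplication: `f(x₁ + ⋯ + x_m) = Σ f(x_k) + (terms of order ≥ 2)` -/
theorem AugBasis.exists_expansion₂ {r : ℕ} {u : Fin r → X → Qb} (B : M.AugBasis r u) :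
    ∀ (m : ℕ), ∀ f ∈ M.aug, ∃ c : (Fin m → Option (Fin r)) → Qb, (∀ J, c J ∈ 𝔓.W) ∧
      (∀ J, ffNN J < 2 → c J = 0) ∧
      ∀ x : Fin m → X, f (∑ k, x k) = ∑ k, f (x k) +
        ∑ J, c J * ∏ k, ffAugFam u (J k) (x k) := by
  classical
  intro m
  induction m with
  | zero =>
    intro f hf
    refine ⟨fun _ => 0, fun _ => 𝔓.W.zero_mem, fun _ _ => rfl, fun x => ?_⟩
    simp [hf.2]
  | succ m ih =>
    intro f hf
    obtain ⟨n, g, h, hg, hh, hgh⟩ := M.comul_aug hf.1 hf.2
    choose a ha ha0 hga using fun i => B.span_aug (hg i)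
    obtain ⟨c₀, hc₀, hc₀' , hfc₀⟩ := ih f hf
    choose c hc hhc using fun i => M.exists_expansion (ffAugFam u) B.span m (h i) (hh i).1
    -- the coefficient of the trivial multi-index vanishes
    have hc0 : ∀ i, ∀ J' : Fin m → Option (Fin r), ffNN J' = 0 → c i J' = 0 := by
      intro i J' hJ'
      have h1 := hhc i (fun _ => 0)
      simp only [Finset.sum_const_zero, (hh i).2, B.fam_zero] at h1
      have h2 : ∀ J : Fin m → Option (Fin r),
          (∏ k, if J k = none then (1 : Qb) else 0) = if J = J' then 1 else 0 := by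
        intro J
        by_cases hJ : J = J'
        · rw [if_pos hJ]
          refine Finset.prod_eq_one (fun k _ => ?_)
          rw [hJ, if_pos (ffNN_eq_zero hJ' k)]
        · rw [if_neg hJ]
          have : ∃ k, J k ≠ none := by
            by_contra hcon
            push Not at hcon
            exact hJ (funext fun k => by rw [hcon k, ffNN_eq_zero hJ' k])
          obtain ⟨k, hk⟩ := this
          exact Finset.prod_eq_zero (Finset.mem_univ k) (by rw [if_neg hk])
      simp only [h2, mul_ite, mul_one, mul_zero, Finset.sum_ite_eq', Finset.mem_univ,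
        if_true] at h1
      exact h1.symm
    refine ⟨fun J => (if J 0 = none then c₀ (Fin.tail J) else 0) +
      ∑ i, a i (J 0) * c i (Fin.tail J), fun J => ?_, fun J hJ => ?_, fun x => ?_⟩
    · refine 𝔓.W.add_mem ?_ (𝔓.W.sum_mem (fun i _ => 𝔓.W.mul_mem (ha i _) (hc i _)))
      split_ifs
      · exact hc₀ _
      · exact 𝔓.W.zero_mem
    · have hJc : J = Fin.cons (J 0) (Fin.tail J) := (Fin.cons_self_tail J).symm
      rw [hJc, ffNN_cons] at hJ
      change (if J 0 = none then c₀ (Fin.tail J) else 0) +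
        ∑ i, a i (J 0) * c i (Fin.tail J) = 0
      by_cases hJ0 : J 0 = none
      · rw [if_pos hJ0, zero_add] at hJ
        rw [if_pos hJ0, hc₀' _ hJ, zero_add]
        refine Finset.sum_eq_zero (fun i _ => ?_)
        rw [hJ0, ha0, zero_mul]
      · rw [if_neg hJ0] at hJ
        rw [if_neg hJ0, zero_add]
        refine Finset.sum_eq_zero (fun i _ => ?_)
        rw [hc0 i _ (by omega), mul_zero]
    · rw [Fin.sum_univ_succ, hgh, hfc₀, Fin.sum_univ_succ (fun k => f (x k))]
      rw [← (Fin.consEquiv (fun _ => Option (Fin r))).sum_comp, Fintype.sum_prod_type]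
      have hce : ∀ (j : Option (Fin r)) (J' : Fin m → Option (Fin r)),
          (Fin.consEquiv fun _ => Option (Fin r)) (j, J') = Fin.cons j J' := by
        intro j J'; funext i; rw [Fin.consEquiv_apply]
      have h1 : ∀ i, g i (x 0) = ∑ j, a i j * ffAugFam u j (x 0) := by
        intro i
        have := congrFun (hga i) (x 0)
        simpa using this
      -- the new terms
      have hnew : ∑ i, g i (x 0) * h i (∑ k : Fin m, x k.succ) =
          ∑ j, ∑ J' : Fin m → Option (Fin r), (∑ i, a i j * c i J') *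
            (ffAugFam u j (x 0) * ∏ k, ffAugFam u (J' k) (x k.succ)) := by
        simp_rw [h1, hhc, Finset.sum_mul, Finset.mul_sum]
        rw [Finset.sum_comm]
        refine Finset.sum_congr rfl (fun j _ => ?_)
        rw [Finset.sum_comm]
        refine Finset.sum_congr rfl (fun J' _ => ?_)
        refine Finset.sum_congr rfl (fun i _ => ?_)
        ring
      have hold : ∑ J' : Fin m → Option (Fin r), c₀ J' * ∏ k, ffAugFam u (J' k) (x k.succ) =
          ∑ j, ∑ J' : Fin m → Option (Fin r), (if j = none then c₀ J' else 0) *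
            (ffAugFam u j (x 0) * ∏ k, ffAugFam u (J' k) (x k.succ)) := by
        rw [Fintype.sum_option]
        simp
      have hrhs : ∀ (j : Option (Fin r)) (J' : Fin m → Option (Fin r)),
          ((if (Fin.cons j J' : Fin (m + 1) → Option (Fin r)) 0 = none then
              c₀ (Fin.tail (Fin.cons j J' : Fin (m + 1) → Option (Fin r))) else 0) +
            ∑ i, a i ((Fin.cons j J' : Fin (m + 1) → Option (Fin r)) 0) *
              c i (Fin.tail (Fin.cons j J' : Fin (m + 1) → Option (Fin r)))) *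
            ∏ k, ffAugFam u ((Fin.cons j J' : Fin (m + 1) → Option (Fin r)) k) (x k) =
          (if j = none then c₀ J' else 0) *
            (ffAugFam u j (x 0) * ∏ k, ffAugFam u (J' k) (x k.succ)) +
          (∑ i, a i j * c i J') *
            (ffAugFam u j (x 0) * ∏ k, ffAugFam u (J' k) (x k.succ)) := by
        intro j J'
        rw [Fin.prod_univ_succ]
        simp only [Fin.cons_zero, Fin.cons_succ, Fin.tail_cons]
        ring
      simp_rw [hce, hrhs, Finset.sum_add_distrib]
      rw [← hold, ← hnew]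
      ring

/-- the coordinates of a symmetric function are symmetric -/
lemma AugBasis.coeff_comp_perm {r : ℕ} {u : Fin r → X → Qb} (B : M.AugBasis r u) {m : ℕ}
    (F : (Fin m → X) → Qb) (c : (Fin m → Option (Fin r)) → Qb)
    (hF : ∀ x, F x = ∑ J, c J * ∏ k, ffAugFam u (J k) (x k)) (ρ : Equiv.Perm (Fin m))
    (hρ : ∀ x, F (x ∘ ρ) = F x) (J : Fin m → Option (Fin r)) : c (J ∘ ρ) = c J := by
  classical
  have key := ff_indep_pi (ffAugFam u) B.indep m (fun J => c (J ∘ ρ) - c J) ?_ J
  · exact sub_eq_zero.mp key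
  intro x
  simp only [sub_mul, Finset.sum_sub_distrib]
  rw [← hF x, sub_eq_zero, ← hρ x, hF (x ∘ ρ)]
  have h1 : ∀ J : Fin m → Option (Fin r),
      ∏ k, ffAugFam u (J k) (x k) = ∏ k, ffAugFam u ((J ∘ ρ) k) ((x ∘ ρ) k) := by
    intro J
    exact (Equiv.prod_comp ρ (fun k => ffAugFam u (J k) (x k))).symm
  simp_rw [h1]
  exact Fintype.sum_equiv (ρ.symm.arrowCongr (Equiv.refl _))
    (fun J => c (J ∘ ρ) * ∏ k, ffAugFam u ((J ∘ ρ) k) ((x ∘ ρ) k))
    (fun J' => c J' * ∏ k, ffAugFam u (J' k) ((x ∘ ρ) k)) (fun J => rfl)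

/-- `(Σ zᵢ)^p ≡ Σ zᵢ^p` modulo `p · aug²` -/
lemma sum_pow_prime_aug {p : ℕ} (hp : p.Prime) {ι : Type*} (s : Finset ι) (z : ι → X → Qb)
    (hz : ∀ i ∈ s, z i ∈ M.aug) :
    ∃ R ∈ M.augSq, (∑ i ∈ s, z i) ^ p = ∑ i ∈ s, z i ^ p + (p : Qb) • R := by
  classical
  induction s using Finset.induction_on with
  | empty =>
    refine ⟨0, M.augSq.zero_mem, ?_⟩
    simp [hp.ne_zero]
  | insert a s ha ih =>
    obtain ⟨R, hR, hRe⟩ := ih (fun i hi => hz i (Finset.mem_insert_of_mem hi))
    have hza : z a ∈ M.aug := hz a (Finset.mem_insert_self a s)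
    have hZ : ∑ i ∈ s, z i ∈ M.aug :=
      M.aug.sum_mem (fun i hi => hz i (Finset.mem_insert_of_mem hi))
    obtain ⟨r, hr⟩ := exists_add_pow_prime_eq hp (⟨z a, hza.1⟩ : M.carrier)
      (⟨∑ i ∈ s, z i, hZ.1⟩ : M.carrier)
    have hr' : (z a + ∑ i ∈ s, z i) ^ p =
        z a ^ p + (∑ i ∈ s, z i) ^ p + (p : X → Qb) * z a * (∑ i ∈ s, z i) * (r : X → Qb) := by
      have := congrArg (Subtype.val : M.carrier → X → Qb) hr
      simpa using this
    refine ⟨R + z a * (∑ i ∈ s, z i) * (r : X → Qb),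
      M.augSq.add_mem hR (M.augSq_mul_mem (M.mul_mem_augSq hza hZ) r.2), ?_⟩
    rw [Finset.sum_insert ha, Finset.sum_insert ha, hr', hRe]
    funext x
    simp only [Pi.add_apply, Pi.mul_apply, Pi.smul_apply, Pi.pow_apply, smul_eq_mul,
      Pi.natCast_apply]
    ring

/-- **the `[p]`-expansion** (T2r) -/
theorem exists_pExpansion (hU : 𝔓.Unr) {f : X → Qb} (hf : f ∈ M.aug) :
    ∃ b ∈ M.aug, ∃ Q ∈ M.augSq, ∀ y : X,
      f (𝔓.p • y) = (𝔓.p : Qb) * f y + (𝔓.p : Qb) * Q y + b y ^ 𝔓.p := by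
  classical
  obtain ⟨r, u, B⟩ := M.exists_augBasis hU
  have hp : 𝔓.p.Prime := 𝔓.hp
  have hp2 : 2 ≤ 𝔓.p := hp.two_le
  obtain ⟨c, hcW, hc2, hexp⟩ := B.exists_expansion₂ 𝔓.p f hf
  -- symmetry of the coefficients
  have hsymm : ∀ J : Fin 𝔓.p → Option (Fin r), c (J ∘ finRotate 𝔓.p) = c J :=
    B.coeff_comp_perm (fun x => f (∑ k, x k) - ∑ k, f (x k)) c
      (fun x => by rw [hexp x]; ring) (finRotate 𝔓.p) (fun x => by
        simp only [Function.comp]
        rw [Equiv.sum_comp (finRotate 𝔓.p) x, Equiv.sum_comp (finRotate 𝔓.p) (fun k => f (x k))])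
  -- the permutation of the multi-indices
  let R : Equiv.Perm (Fin 𝔓.p → Option (Fin r)) :=
    (finRotate 𝔓.p).symm.arrowCongr (Equiv.refl _)
  have hR : ∀ J, R J = J ∘ finRotate 𝔓.p := fun J => rfl
  have hRpow : R ^ 𝔓.p = 1 := by
    have h1 : ∀ n : ℕ, ∀ J, (R ^ n) J = J ∘ ((finRotate 𝔓.p) ^ n) := by
      intro n
      induction n with
      | zero => intro J; rfl
      | succ n ih =>
        intro J
        rw [pow_succ', Equiv.Perm.mul_apply, ih, hR, pow_succ]
        rfl
    ext J : 1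
    rw [h1, ff_finRotate_pow hp2]
    rfl
  obtain ⟨T, hT, hsum⟩ := ff_sum_eq_fixed_add_prime_smul (A := X → Qb) hp R hRpow
  set g : (Fin 𝔓.p → Option (Fin r)) → X → Qb := fun J => c J • ∏ k, ffAugFam u (J k) with hg
  have hgR : ∀ J, g (R J) = g J := by
    intro J
    simp only [hg, hR, hsymm]
    congr 1
    exact Equiv.prod_comp (finRotate 𝔓.p) (fun k => ffAugFam u (J k))
  have hS := hsum g hgR
  -- the fixed points are the constant multi-indices
  have hne : Nonempty (Fin 𝔓.p) := ⟨⟨0, hp.pos⟩⟩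
  have hfixset : Finset.univ.filter (fun J => R J = J) =
      Finset.univ.image (fun j : Option (Fin r) => (fun _ : Fin 𝔓.p => j)) := by
    ext J
    simp only [Finset.mem_filter, Finset.mem_univ, true_and, Finset.mem_image]
    constructor
    · intro hJ
      refine ⟨J ⟨0, hp.pos⟩, ?_⟩
      funext k
      exact ff_const_of_comp_finRotate hp2 J hJ _ _
    · rintro ⟨j, rfl⟩
      rfl
  have hfix : ∑ J with R J = J, g J = ∑ i : Fin r, c (fun _ => some i) • (u i) ^ 𝔓.p := by
    rw [hfixset, Finset.sum_image (fun j _ j' _ h => congrFun h ⟨0, hp.pos⟩), Fintype.sum_option]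
    have h0 : c (fun _ : Fin 𝔓.p => (none : Option (Fin r))) = 0 := by
      refine hc2 _ ?_
      have : ffNN (fun _ : Fin 𝔓.p => (none : Option (Fin r))) = 0 := by
        unfold ffNN; simp
      omega
    simp only [hg, h0, zero_smul, zero_add, ffAugFam_some, Finset.prod_const, Finset.card_univ,
      Fintype.card_fin]
  -- `p`-th roots modulo `p`
  choose w hw t ht hwt using fun i : Fin r => hU.exists_pth_root (hcW (fun _ => some i))
  set b : X → Qb := ∑ i, w i • u i with hb
  have hbaug : b ∈ M.aug :=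
    M.aug.sum_mem (fun i _ => M.aug.smul_mem (⟨w i, hw i⟩ : 𝔓.W) ⟨B.mem i, B.zero i⟩)
  obtain ⟨R₁, hR₁, hR₁e⟩ := sum_pow_prime_aug (M := M) hp Finset.univ (fun i => w i • u i)
    (fun i _ => M.aug.smul_mem (⟨w i, hw i⟩ : 𝔓.W) ⟨B.mem i, B.zero i⟩)
  -- the quadratic part
  have hTmem : ∀ J ∈ T, g J ∈ M.augSq := by
    intro J _
    by_cases hJ : ffNN J < 2
    · simp only [hg, hc2 J hJ, zero_smul]
      exact M.augSq.zero_mem
    · exact M.augSq.smul_mem (⟨c J, hcW J⟩ : 𝔓.W) (B.prod_mem_augSq (by omega))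
  have hupow : ∀ i, (u i) ^ 𝔓.p ∈ M.augSq := by
    intro i
    have : (u i) ^ 𝔓.p = u i * (u i) ^ (𝔓.p - 1) := by
      rw [← pow_succ', Nat.sub_add_cancel hp.pos]
    rw [this]
    have hui : u i ∈ M.aug := ⟨B.mem i, B.zero i⟩
    refine M.mul_mem_augSq hui ⟨M.carrier.pow_mem (B.mem i) _, ?_⟩
    rw [Pi.pow_apply, B.zero i, zero_pow (by omega)]
  refine ⟨b, hbaug, ∑ J ∈ T, g J + ∑ i, t i • (u i) ^ 𝔓.p - R₁,
    M.augSq.sub_mem (M.augSq.add_mem (M.augSq.sum_mem hTmem)
      (M.augSq.sum_mem (fun i _ => M.augSq.smul_mem (⟨t i, ht i⟩ : 𝔓.W) (hupow i)))) hR₁,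
    fun y => ?_⟩
  have h1 : f (𝔓.p • y) = (𝔓.p : Qb) * f y + (∑ J, g J) y := by
    have := hexp (fun _ => y)
    rw [Finset.sum_const, Finset.card_univ, Fintype.card_fin, Finset.sum_const, Finset.card_univ,
      Fintype.card_fin, nsmul_eq_mul] at this
    rw [this]
    congr 1
    simp only [hg, Finset.sum_apply, Pi.smul_apply, Finset.prod_apply, smul_eq_mul]
  rw [h1, hS, hfix]
  have h2 := congrFun hR₁e y
  simp only [Pi.pow_apply, Pi.add_apply, Finset.sum_apply, Pi.smul_apply, smul_eq_mul] at h2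
  simp only [Pi.add_apply, Pi.sub_apply, Finset.sum_apply, Pi.smul_apply, Pi.pow_apply,
    smul_eq_mul, nsmul_eq_mul, Pi.mul_apply, Pi.natCast_apply]
  have h3 : b y = ∑ i, w i * u i y := by
    simp only [hb, Finset.sum_apply, Pi.smul_apply, smul_eq_mul]
  rw [h3, h2]
  have h4 : ∑ i, c (fun _ => some i) * u i y ^ 𝔓.p =
      ∑ i, (w i * u i y) ^ 𝔓.p + (𝔓.p : Qb) * ∑ i, t i * u i y ^ 𝔓.p := by
    rw [Finset.mul_sum, ← Finset.sum_add_distrib]
    refine Finset.sum_congr rfl (fun i _ => ?_)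
    rw [hwt i]; ring
  rw [h4]
  ring

end FFModel

end Fermat.Agent.TW
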