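/-
P10 / G7 (helper2): orders of points in a function-model order.

* `exists_ord`: every non-zero point has an order `s` (`OrdGE y s` and some coordinate of exact
  valuation `s`);
* (L1) `ord_mul_le`: a non-zero connected point of order `p` has `ord ≤ 1/(p-1)`;
* (α) `eq_zero_of_fixed`: an inertia-fixed connected point of order `p` is `0` (`p` odd);
* `index_mul_ord_int`: elements fixed by a subgroup of index `d` of inertia have valuation in
  `(1/d)ℤ`;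
* (CHAR) `char_arith`: `s = m/d`, `p ∣ d + m`, `m (p-1) ≤ d`;
* jets: `jet_sum`, `jet_nsmul`, and the character of inertia on the jets (`sum_act_eq_zero_of_jet`,
  `jet_of_sum_act_eq_zero`).
-/
import Fermat.Agent.Lib.TW.Flat.PExp

set_option autoImplicit false

namespace Fermat.Agent.TW

open ValuationSubring Polynomial
open Fermat.Agent.S05Lib

local notation "Qb" => AlgebraicClosure ℚ
local notation "GQ" => (AlgebraicClosure ℚ ≃ₐ[ℚ] AlgebraicClosure ℚ)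

namespace FFPlace

variable (𝔓 : FFPlace)

lemma is_prod {ι : Type*} (s : Finset ι) (f : ι → Qb) (c : ι → ℚ)
    (h : ∀ i ∈ s, 𝔓.v.Is (f i) (c i)) : 𝔓.v.Is (∏ i ∈ s, f i) (∑ i ∈ s, c i) := by
  classical
  induction s using Finset.induction_on with
  | empty => simpa using QVal.is_one
  | insert a s ha ih =>
    rw [Finset.prod_insert ha, Finset.sum_insert ha]
    exact (h a (Finset.mem_insert_self a s)).mul
      (ih (fun i hi => h i (Finset.mem_insert_of_mem hi)))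

/-- an element fixed by a subgroup of index `d` of the inertia group has valuation in `(1/d)ℤ` -/
theorem Unr.index_mul_ord_int (hU : 𝔓.Unr) (H : Subgroup 𝔓.I) [H.FiniteIndex] {z : Qb}
    (hz0 : z ≠ 0) (hz : ∀ σ ∈ H, (σ : GQ) z = z) : ∃ n : ℤ, (H.index : ℚ) * 𝔓.v.ord z = n := by
  classical
  have : Fintype (𝔓.I ⧸ H) := Subgroup.fintypeQuotientOfFiniteIndex
  set N : Qb := ∏ q : 𝔓.I ⧸ H, ((q.out : 𝔓.I) : GQ) z with hN
  have hNis : 𝔓.v.Is N ((H.index : ℚ) * 𝔓.v.ord z) := by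
    have h1 := 𝔓.is_prod Finset.univ (fun q : 𝔓.I ⧸ H => ((q.out : 𝔓.I) : GQ) z)
      (fun _ => 𝔓.v.ord z) (fun q _ => 𝔓.is_D (𝔓.I_le_D (q.out : 𝔓.I).2) (QVal.is_ord hz0))
    rw [Finset.sum_const, Finset.card_univ, nsmul_eq_mul] at h1
    have h2 : Fintype.card (𝔓.I ⧸ H) = H.index := by
      rw [Subgroup.index, Nat.card_eq_fintype_card]
    rw [h2] at h1
    exact h1
  have hNK : N ∈ 𝔓.K0 := by
    rw [mem_K0_iff]
    intro τ hτ
    rw [hN, map_prod]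
    let τ' : 𝔓.I := ⟨τ, hτ⟩
    have h1 : ∀ q : 𝔓.I ⧸ H, τ (((q.out : 𝔓.I) : GQ) z) = (((τ' • q).out : 𝔓.I) : GQ) z := by
      intro q
      have hq : τ' • q = QuotientGroup.mk (τ' * q.out) := by
        conv_lhs => rw [← QuotientGroup.out_eq' q]
        rfl
      obtain ⟨h, hh⟩ := QuotientGroup.mk_out_eq_mul H (τ' * q.out)
      rw [hq, hh]
      change τ (((q.out : 𝔓.I) : GQ) z) = τ (((q.out : 𝔓.I) : GQ) (((h : 𝔓.I) : GQ) z))
      rw [hz h h.2]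
    rw [Finset.prod_congr rfl (fun q _ => h1 q)]
    exact Equiv.prod_comp (MulAction.toPerm τ' : Equiv.Perm (𝔓.I ⧸ H))
      (fun q => ((q.out : 𝔓.I) : GQ) z)
  obtain ⟨n, hn⟩ := hU N hNK hNis.1
  exact ⟨n, by rw [← hNis.2, hn]⟩

end FFPlace

namespace FFModel

variable {𝔓 : FFPlace} {X : Type*} [AddCommGroup X] {act : GQ → X →+ X} {M : FFModel 𝔓 X act}

/-- `OrdGE` can be checked on generators of the augmentation ideal -/
lemma ordGE_of_span {S : Set (X → Qb)} (hS : Submodule.span 𝔓.W S = M.aug) {y : X} {s : ℚ}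
    (h : ∀ g ∈ S, 𝔓.v.Ge (g y) s) : M.OrdGE y s := by
  have key : ∀ f ∈ Submodule.span 𝔓.W S, 𝔓.v.Ge (f y) s := by
    intro f hfa
    induction hfa using Submodule.span_induction with
    | mem g hg => exact h g hg
    | zero => exact QVal.ge_zero'
    | add q q' _ _ ih ih' => exact ih.add ih'
    | smul w q _ ih =>
      have hw : 𝔓.v.Ge (w : Qb) 0 := ((𝔓.mem_W_iff _).mp w.2).1
      have := hw.mul ih
      rw [zero_add] at this
      exact this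
  intro f hf hf0
  exact key f (hS ▸ (⟨hf, hf0⟩ : f ∈ M.aug))

/-- every non-zero point has an order -/
theorem exists_ord {y : X} (hy : y ≠ 0) :
    ∃ s : ℚ, 0 ≤ s ∧ M.OrdGE y s ∧ ∃ f ∈ M.aug, 𝔓.v.Is (f y) s := by
  classical
  obtain ⟨S, hS⟩ := M.aug_fg
  have hSaug : ∀ g ∈ S, g ∈ M.aug := fun g hg => hS ▸ Submodule.subset_span hg
  set S' := S.filter (fun g => g y ≠ 0) with hS'
  have hne : S'.Nonempty := by
    by_contra hemp
    rw [Finset.not_nonempty_iff_eq_empty] at hemp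
    apply hy
    have hall : ∀ g ∈ S, g y = 0 := by
      intro g hg
      by_contra hgy
      have : g ∈ S' := Finset.mem_filter.mpr ⟨hg, hgy⟩
      rw [hemp] at this
      exact absurd this (Finset.notMem_empty g)
    have hge : ∀ t : ℚ, M.OrdGE y t := fun t =>
      ordGE_of_span hS (fun g hg => Or.inl (hall g hg))
    refine M.eq_zero_of_forall (fun f hf hf0 => ?_)
    by_contra hfy
    have h1 := hge (𝔓.v.ord (f y) + 1) f hf hf0
    rcases h1 with h1 | h1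
    · exact hfy h1
    · linarith
  obtain ⟨g₀, hg₀, hmin⟩ := Finset.exists_min_image S' (fun g => 𝔓.v.ord (g y)) hne
  have hg₀S : g₀ ∈ S := (Finset.mem_filter.mp hg₀).1
  have hg₀y : g₀ y ≠ 0 := (Finset.mem_filter.mp hg₀).2
  refine ⟨𝔓.v.ord (g₀ y), ?_, ?_, g₀, hSaug g₀ hg₀S, hg₀y, rfl⟩
  · rcases M.ge_zero (hSaug g₀ hg₀S).1 y with h | h
    · exact absurd h hg₀y
    · exact h
  · refine ordGE_of_span hS (fun g hg => ?_)
    by_cases hgy : g y = 0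
    · exact Or.inl hgy
    · exact Or.inr (hmin g (Finset.mem_filter.mpr ⟨hg, hgy⟩))

/-- (L1), refined: for a connected point `y` of order `p` and a coordinate `f` of minimal
valuation `s` there is a coordinate `b` with `v (b y ^ p) = 1 + s`. -/
theorem exists_pow_is (hU : 𝔓.Unr) {y : X} (hpy : 𝔓.p • y = 0) {s : ℚ} (hs : 0 < s)
    (hge : M.OrdGE y s) {f : X → Qb} (hf : f ∈ M.aug) (hfy : 𝔓.v.Is (f y) s) :
    ∃ b ∈ M.aug, 𝔓.v.Is (b y ^ 𝔓.p) (1 + s) := by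
  obtain ⟨b, hb, Q, hQ, hexp⟩ := exists_pExpansion hU hf
  refine ⟨b, hb, ?_⟩
  have h1 := hexp y
  rw [hpy, hf.2] at h1
  have h2 : b y ^ 𝔓.p = -((𝔓.p : Qb) * f y + (𝔓.p : Qb) * Q y) := by
    linear_combination -h1
  rw [h2]
  refine QVal.Is.neg ?_
  refine (𝔓.is_p.mul hfy).add_gt ?_
  have h3 := 𝔓.is_p.ge.mul (hge.augSq_ge hQ)
  exact h3.gt (by linarith)

/-- (L1): a connected point of order `p` has order `≤ 1/(p-1)` -/
theorem ord_mul_le (hU : 𝔓.Unr) {y : X} (hpy : 𝔓.p • y = 0) {s : ℚ} (hs : 0 < s)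
    (hge : M.OrdGE y s) {f : X → Qb} (hf : f ∈ M.aug) (hfy : 𝔓.v.Is (f y) s) :
    s * ((𝔓.p : ℚ) - 1) ≤ 1 := by
  obtain ⟨b, hb, hbp⟩ := exists_pow_is hU hpy hs hge hf hfy
  have h1 := (hge b hb.1 hb.2).pow 𝔓.p
  rcases h1 with h1 | h1
  · exact absurd h1 hbp.1
  · rw [hbp.2] at h1
    linarith

/-- (α): a connected point of order `p` (`p` odd) fixed by inertia is `0`. -/
theorem eq_zero_of_fixed (hU : 𝔓.Unr) (hp2 : 2 < 𝔓.p) {y : X} (hpy : 𝔓.p • y = 0)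
    (hgt : M.OrdGT y 0) (hfix : ∀ σ ∈ 𝔓.I, act σ y = y) : y = 0 := by
  by_contra hy
  obtain ⟨s, hs0, hge, f, hf, hfy⟩ := exists_ord (M := M) hy
  have hs : 0 < s := by
    rcases hgt f hf.1 hf.2 with h | h
    · exact absurd h hfy.1
    · rw [hfy.2] at h; exact h
  -- `f y ∈ K0`, so `s ≥ 1`
  have hK0 : f y ∈ 𝔓.K0 := by
    rw [FFPlace.mem_K0_iff]
    intro σ hσ
    rw [← M.equivariant f hf.1 σ hσ, hfix σ hσ]
  have h1 := hU.ge_one hK0 (hfy.gt hs)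
  have hs1 : 1 ≤ s := by
    rcases h1 with h1 | h1
    · exact absurd h1 hfy.1
    · rwa [hfy.2] at h1
  have h2 := ord_mul_le hU hpy hs hge hf hfy
  have hp : (3 : ℚ) ≤ 𝔓.p := by exact_mod_cast hp2
  nlinarith

/-- (CHAR), arithmetic part: if a subgroup `H` of index `d` of the inertia group acts trivially,
then the order `s` of a connected point of order `p` satisfies `s = m/d` with `p ∣ d + m` and
`m (p - 1) ≤ d`. -/
theorem char_arith (hU : 𝔓.Unr) (H : Subgroup 𝔓.I) [H.FiniteIndex]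
    (hH : ∀ σ ∈ H, ∀ x, act (σ : GQ) x = x) {y : X} (hpy : 𝔓.p • y = 0) {s : ℚ} (hs : 0 < s)
    (hge : M.OrdGE y s) {f : X → Qb} (hf : f ∈ M.aug) (hfy : 𝔓.v.Is (f y) s) :
    ∃ m : ℤ, 0 < m ∧ s * H.index = m ∧ (𝔓.p : ℤ) ∣ H.index + m ∧
      m * ((𝔓.p : ℤ) - 1) ≤ H.index := by
  have hfixed : ∀ g ∈ M.carrier, ∀ σ ∈ H, (σ : GQ) (g y) = g y := by
    intro g hg σ hσ
    rw [← M.equivariant g hg σ σ.2, hH σ hσ]
  have hd0 : (0 : ℚ) < H.index := by
    have : H.index ≠ 0 := Subgroup.FiniteIndex.index_ne_zero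
    exact_mod_cast Nat.pos_of_ne_zero this
  obtain ⟨m, hm⟩ := FFPlace.Unr.index_mul_ord_int 𝔓 hU H hfy.1 (hfixed f hf.1)
  rw [hfy.2] at hm
  obtain ⟨b, hb, hbp⟩ := exists_pow_is hU hpy hs hge hf hfy
  have hby0 : b y ≠ 0 := fun h => hbp.1 (by rw [h, zero_pow 𝔓.hp.ne_zero])
  obtain ⟨n, hn⟩ := FFPlace.Unr.index_mul_ord_int 𝔓 hU H hby0 (hfixed b hb.1)
  have hpv : (𝔓.p : ℚ) * 𝔓.v.ord (b y) = 1 + s :=
    ((QVal.is_ord hby0).pow 𝔓.p).unique hbp
  have hle := ord_mul_le hU hpy hs hge hf hfy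
  have hm' : s * H.index = m := by rw [mul_comm]; exact hm
  refine ⟨m, ?_, hm', ⟨n, ?_⟩, ?_⟩
  · have : (0 : ℚ) < m := by rw [← hm']; positivity
    exact_mod_cast this
  · have : ((H.index : ℤ) + m : ℚ) = (𝔓.p : ℤ) * n := by
      push_cast
      rw [← hn, ← hm]
      have : (𝔓.p : ℚ) * (H.index * 𝔓.v.ord (b y)) = H.index * ((𝔓.p : ℚ) * 𝔓.v.ord (b y)) := by
        ring
      rw [this, hpv]; ring
    exact_mod_cast this
  · have : (m : ℚ) * ((𝔓.p : ℚ) - 1) ≤ H.index := by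
      rw [← hm']
      nlinarith
    exact_mod_cast this

lemma OrdGE.nsmul {y : X} {s : ℚ} (hs : 0 ≤ s) (hy : M.OrdGE y s) (n : ℕ) :
    M.OrdGE (n • y) s := by
  induction n with
  | zero => rw [zero_smul]; exact ordGE_zero s
  | succ n ih => rw [succ_nsmul]; exact ih.add hs hy

lemma OrdGT.nsmul {y : X} {s : ℚ} (hy : M.OrdGT y s) (n : ℕ) : M.OrdGT (n • y) s := by
  induction n with
  | zero => rw [zero_smul]; exact ordGT_zero s
  | succ n ih => rw [succ_nsmul]; exact ih.add hy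

lemma ff_neg_eq_nsmul [Finite X] (y : X) : -y = (Nat.card X - 1) • y := by
  have h1 : Nat.card X • y = 0 := card_nsmul_eq_zero'
  have h2 : 0 < Nat.card X := Nat.card_pos
  have h3 : (Nat.card X - 1) • y + y = 0 := by
    rw [← succ_nsmul, Nat.sub_add_cancel h2, h1]
  exact (eq_neg_of_add_eq_zero_left h3).symm

lemma OrdGE.neg [Finite X] {y : X} {s : ℚ} (hs : 0 ≤ s) (hy : M.OrdGE y s) : M.OrdGE (-y) s := by
  rw [ff_neg_eq_nsmul]; exact hy.nsmul hs _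

lemma OrdGT.neg [Finite X] {y : X} {s : ℚ} (hy : M.OrdGT y s) : M.OrdGT (-y) s := by
  rw [ff_neg_eq_nsmul]; exact hy.nsmul _

lemma OrdGE.sub [Finite X] {y y' : X} {s : ℚ} (hs : 0 ≤ s) (hy : M.OrdGE y s)
    (hy' : M.OrdGE y' s) : M.OrdGE (y - y') s := by
  rw [sub_eq_add_neg]; exact hy.add hs (hy'.neg hs)

lemma OrdGT.sub [Finite X] {y y' : X} {s : ℚ} (hy : M.OrdGT y s)
    (hy' : M.OrdGT y' s) : M.OrdGT (y - y') s := by
  rw [sub_eq_add_neg]; exact hy.add hy'.neg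

lemma OrdGE.zsmul [Finite X] {y : X} {s : ℚ} (hs : 0 ≤ s) (hy : M.OrdGE y s) (n : ℤ) :
    M.OrdGE (n • y) s := by
  rcases Int.eq_nat_or_neg n with ⟨k, rfl | rfl⟩
  · rw [natCast_zsmul]; exact hy.nsmul hs k
  · rw [neg_smul, natCast_zsmul]; exact (hy.nsmul hs k).neg hs

lemma OrdGE.sum {ι : Type*} {s : ℚ} (hs : 0 ≤ s) (t : Finset ι) (y : ι → X)
    (hy : ∀ i ∈ t, M.OrdGE (y i) s) : M.OrdGE (∑ i ∈ t, y i) s := by
  classical
  induction t using Finset.induction_on with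
  | empty => rw [Finset.sum_empty]; exact ordGE_zero s
  | insert a t ha ih =>
    rw [Finset.sum_insert ha]
    exact (hy a (Finset.mem_insert_self a t)).add hs
      (ih (fun i hi => hy i (Finset.mem_insert_of_mem hi)))

variable (M) in
/-- the subgroup of points of order `≥ s` -/
def geSub [Finite X] (s : ℚ) (hs : 0 ≤ s) : AddSubgroup X where
  carrier := {y | M.OrdGE y s}
  add_mem' := fun hy hy' => OrdGE.add hs hy hy'
  zero_mem' := ordGE_zero s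
  neg_mem' := fun hy => OrdGE.neg hs hy

variable (M) in
/-- the subgroup of points of order `> s` -/
def gtSub [Finite X] (s : ℚ) : AddSubgroup X where
  carrier := {y | M.OrdGT y s}
  add_mem' := fun hy hy' => OrdGT.add hy hy'
  zero_mem' := ordGT_zero s
  neg_mem' := fun hy => OrdGT.neg hy

@[simp] lemma mem_geSub [Finite X] {s : ℚ} {hs : 0 ≤ s} {y : X} :
    y ∈ M.geSub s hs ↔ M.OrdGE y s := Iff.rfl

@[simp] lemma mem_gtSub [Finite X] {s : ℚ} {y : X} : y ∈ M.gtSub s ↔ M.OrdGT y s := Iff.rfl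

/-- additivity of jets for finite sums -/
lemma jet_sum {ι : Type*} {s : ℚ} (hs : 0 ≤ s) (t : Finset ι) (y : ι → X)
    (hy : ∀ i ∈ t, M.OrdGE (y i) s) {f : X → Qb} (hf : f ∈ M.aug) :
    𝔓.v.Ge (f (∑ i ∈ t, y i) - ∑ i ∈ t, f (y i)) (2 * s) := by
  classical
  induction t using Finset.induction_on with
  | empty => simp [hf.2, QVal.ge_zero']
  | insert a t ha ih =>
    rw [Finset.sum_insert ha, Finset.sum_insert ha]
    have hya := hy a (Finset.mem_insert_self a t)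
    have hyt : ∀ i ∈ t, M.OrdGE (y i) s := fun i hi => hy i (Finset.mem_insert_of_mem hi)
    have h1 := jet_add hya (OrdGE.sum hs t y hyt) hf.1 hf.2
    have h2 := ih hyt
    have : f (y a + ∑ i ∈ t, y i) - (f (y a) + ∑ i ∈ t, f (y i)) =
        (f (y a + ∑ i ∈ t, y i) - f (y a) - f (∑ i ∈ t, y i)) +
        (f (∑ i ∈ t, y i) - ∑ i ∈ t, f (y i)) := by ring
    rw [this]
    exact h1.add h2

lemma jet_nsmul {y : X} {s : ℚ} (hs : 0 ≤ s) (hy : M.OrdGE y s) {f : X → Qb} (hf : f ∈ M.aug)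
    (n : ℕ) : 𝔓.v.Ge (f (n • y) - n * f y) (2 * s) := by
  have := jet_sum hs (Finset.range n) (fun _ => y) (fun _ _ => hy) hf
  simpa using this

lemma jet_neg [Finite X] {y : X} {s : ℚ} (hs : 0 ≤ s) (hy : M.OrdGE y s) {f : X → Qb}
    (hf : f ∈ M.aug) : 𝔓.v.Ge (f (-y) + f y) (2 * s) := by
  have h1 := jet_add hy (hy.neg hs) hf.1 hf.2
  rw [add_neg_cancel, hf.2] at h1
  have : f (-y) + f y = -(0 - f y - f (-y)) := by ring
  rw [this]
  exact h1.neg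

lemma jet_zsmul [Finite X] {y : X} {s : ℚ} (hs : 0 ≤ s) (hy : M.OrdGE y s) {f : X → Qb}
    (hf : f ∈ M.aug) (n : ℤ) : 𝔓.v.Ge (f (n • y) - n * f y) (2 * s) := by
  rcases Int.eq_nat_or_neg n with ⟨k, rfl | rfl⟩
  · rw [natCast_zsmul]
    simpa using jet_nsmul hs hy hf k
  · rw [neg_smul, natCast_zsmul]
    have h1 := jet_neg hs (hy.nsmul hs k) hf
    have h2 := jet_nsmul hs hy hf k
    have : f (-(k • y)) - ((-(k : ℤ) : ℤ) : Qb) * f y =
        (f (-(k • y)) + f (k • y)) - (f (k • y) - k * f y) := by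
      push_cast; ring
    rw [this]
    exact h1.sub h2

end FFModel

namespace FFPlace

variable (𝔓 : FFPlace)

lemma intCast_ge_zero (n : ℤ) : 𝔓.v.Ge ((n : ℤ) : Qb) 0 :=
  ((𝔓.mem_W_iff _).mp (intCast_mem 𝔓.W n)).1

/-- the tame character: for `σ ∈ I` and `v(ϖ) = s`, `σ x ≡ (σ ϖ / ϖ) x` modulo `{v > s}` for all
`x` with `v(x) ≥ s`. -/
lemma gt_I_sub_mul {σ : GQ} (hσ : σ ∈ 𝔓.I) {ϖ : Qb} {s : ℚ} (hϖ : 𝔓.v.Is ϖ s) {x : Qb}
    (hx : 𝔓.v.Ge x s) : 𝔓.v.Gt (σ x - (σ ϖ / ϖ) * x) s := by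
  have hϖ0 := hϖ.1
  have ha : 𝔓.v.Ge (x / ϖ) 0 := by
    have := hx.div_is hϖ
    rwa [sub_self] at this
  have h1 := 𝔓.gt_I_sub hσ ha
  have h2 : σ x - (σ ϖ / ϖ) * x = σ ϖ * (σ (x / ϖ) - x / ϖ) := by
    rw [map_div₀]
    have hσϖ : σ ϖ ≠ 0 := (map_ne_zero_iff σ σ.injective).mpr hϖ0
    field_simp
  rw [h2]
  have h3 := (𝔓.is_D (𝔓.I_le_D hσ) hϖ).ge.mul_gt h1
  rwa [add_zero] at h3

end FFPlace

namespace FFModel

variable {𝔓 : FFPlace} {X : Type*} [AddCommGroup X] {act : GQ → X →+ X} {M : FFModel 𝔓 X act}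

variable (M) in
/-- all non-zero points have order exactly `s` -/
def UniformOrd (s : ℚ) : Prop :=
  ∀ y : X, y ≠ 0 → M.OrdGE y s ∧ ∃ f ∈ M.aug, 𝔓.v.Is (f y) s

lemma UniformOrd.eq_zero {s : ℚ} (hu : M.UniformOrd s) {z : X} (hz : M.OrdGT z s) : z = 0 := by
  by_contra hne
  obtain ⟨-, f, hf, hfz⟩ := hu z hne
  exact hfz.not_gt (hz f hf.1 hf.2) le_rfl

/-- on a module which is simple (with respect to inertia and a set `Φ` of endomorphisms
preserving the model) and not étale, all non-zero points have the same order -/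
theorem exists_uniformOrd [Finite X] (Φ : Set (X →+ X))
    (hΦ : ∀ φ ∈ Φ, ∀ f ∈ M.carrier, (fun x => f (φ x)) ∈ M.carrier)
    (hsimple : ∀ A : AddSubgroup X, (∀ σ ∈ 𝔓.I, ∀ x ∈ A, act σ x ∈ A) →
      (∀ φ ∈ Φ, ∀ x ∈ A, φ x ∈ A) → A = ⊥ ∨ A = ⊤)
    {y₀ : X} (hy₀ : y₀ ≠ 0) (hgt : M.OrdGT y₀ 0) : ∃ s : ℚ, 0 < s ∧ M.UniformOrd s := by
  obtain ⟨s, hs0, hge, f₀, hf₀, hf₀y⟩ := exists_ord (M := M) hy₀
  have hs : 0 < s := by
    rcases hgt f₀ hf₀.1 hf₀.2 with h | h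
    · exact absurd h hf₀y.1
    · rw [hf₀y.2] at h; exact h
  have hΦge : ∀ φ ∈ Φ, ∀ (t : ℚ) (x : X), M.OrdGE x t → M.OrdGE (φ x) t := by
    intro φ hφ t x hx f hf hf0
    exact hx _ (hΦ φ hφ f hf) (by simpa using hf0)
  have hΦgt : ∀ φ ∈ Φ, ∀ (t : ℚ) (x : X), M.OrdGT x t → M.OrdGT (φ x) t := by
    intro φ hφ t x hx f hf hf0
    exact hx _ (hΦ φ hφ f hf) (by simpa using hf0)
  have h1 : M.geSub s hs.le = ⊤ := by
    rcases hsimple (M.geSub s hs.le) (fun σ hσ x hx => OrdGE.act_mem hx hσ)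
      (fun φ hφ x hx => hΦge φ hφ s x hx) with h | h
    · have : y₀ ∈ M.geSub s hs.le := hge
      rw [h, AddSubgroup.mem_bot] at this
      exact absurd this hy₀
    · exact h
  have h2 : M.gtSub s = ⊥ := by
    rcases hsimple (M.gtSub s) (fun σ hσ x hx => OrdGT.act_mem hx hσ)
      (fun φ hφ x hx => hΦgt φ hφ s x hx) with h | h
    · exact h
    · have : y₀ ∈ M.gtSub s := by rw [h]; exact AddSubgroup.mem_top _
      exact absurd (this f₀ hf₀.1 hf₀.2) (fun hh => hf₀y.not_gt hh le_rfl)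
  refine ⟨s, hs, fun y hy => ?_⟩
  have hyge : M.OrdGE y s := by
    have : y ∈ M.geSub s hs.le := by rw [h1]; exact AddSubgroup.mem_top _
    exact this
  refine ⟨hyge, ?_⟩
  have hynot : ¬ M.OrdGT y s := by
    intro hh
    have : y ∈ M.gtSub s := hh
    rw [h2, AddSubgroup.mem_bot] at this
    exact hy this
  unfold OrdGT at hynot
  push Not at hynot
  obtain ⟨f, hf, hf0, hfy⟩ := hynot
  refine ⟨f, ⟨hf, hf0⟩, ?_⟩
  rcases hyge f hf hf0 with h | h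
  · exact absurd (Or.inl h) hfy
  · have hne : f y ≠ 0 := fun h0 => hfy (Or.inl h0)
    refine ⟨hne, le_antisymm ?_ h⟩
    by_contra hlt
    push Not at hlt
    exact hfy (Or.inr hlt)

/-- the fundamental congruence for jets: inertia acts on the jets of order `s` through the tame
character `σ ↦ σ ϖ / ϖ`, `v(ϖ) = s` -/
theorem jet_congr [Finite X] {s : ℚ} (hs : 0 < s) {ϖ : Qb} (hϖ : 𝔓.v.Is ϖ s) {ι : Type*}
    (t : Finset ι) (σ : ι → GQ) (hσ : ∀ i ∈ t, σ i ∈ 𝔓.I) (n : ι → ℤ) {y : X}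
    (hy : M.OrdGE y s) {f : X → Qb} (hf : f ∈ M.aug) :
    𝔓.v.Gt (f (∑ i ∈ t, n i • act (σ i) y) - (∑ i ∈ t, (n i : Qb) * (σ i ϖ / ϖ)) * f y) s := by
  classical
  have h2s : s < 2 * s := by linarith
  have hyi : ∀ i ∈ t, M.OrdGE (n i • act (σ i) y) s := fun i hi =>
    (OrdGE.act_mem hy (hσ i hi)).zsmul hs.le _
  have hA := (jet_sum hs.le t (fun i => n i • act (σ i) y) hyi hf).gt h2s
  have hB : 𝔓.v.Gt (∑ i ∈ t, (f (n i • act (σ i) y) - (n i : Qb) * f (act (σ i) y))) s :=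
    𝔓.gt_sum _ _ (fun i hi => (jet_zsmul hs.le (OrdGE.act_mem hy (hσ i hi)) hf (n i)).gt h2s)
  have hC : 𝔓.v.Gt (∑ i ∈ t, (n i : Qb) * (f (act (σ i) y) - (σ i ϖ / ϖ) * f y)) s := by
    refine 𝔓.gt_sum _ _ (fun i hi => ?_)
    rw [M.equivariant f hf.1 (σ i) (hσ i hi)]
    have := (𝔓.intCast_ge_zero (n i)).mul_gt
      (𝔓.gt_I_sub_mul (hσ i hi) hϖ (hy f hf.1 hf.2))
    rwa [zero_add] at this
  have : f (∑ i ∈ t, n i • act (σ i) y) - (∑ i ∈ t, (n i : Qb) * (σ i ϖ / ϖ)) * f y =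
      (f (∑ i ∈ t, n i • act (σ i) y) - ∑ i ∈ t, f (n i • act (σ i) y)) +
      ∑ i ∈ t, (f (n i • act (σ i) y) - (n i : Qb) * f (act (σ i) y)) +
      ∑ i ∈ t, (n i : Qb) * (f (act (σ i) y) - (σ i ϖ / ϖ) * f y) := by
    simp only [Finset.sum_sub_distrib, mul_sub, Finset.sum_mul]
    have : ∀ i, (n i : Qb) * (σ i ϖ / ϖ * f y) = (n i : Qb) * (σ i ϖ / ϖ) * f y :=
      fun i => by ring
    simp only [this]
    ring
  rw [this]
  exact (hA.add hB).add hC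

/-- a relation between the values of the tame character gives a relation on the points -/
theorem UniformOrd.sum_act_eq_zero [Finite X] {s : ℚ} (hu : M.UniformOrd s) (hs : 0 < s)
    {ϖ : Qb} (hϖ : 𝔓.v.Is ϖ s) {ι : Type*} (t : Finset ι) (σ : ι → GQ)
    (hσ : ∀ i ∈ t, σ i ∈ 𝔓.I) (n : ι → ℤ)
    (h : 𝔓.v.Gt (∑ i ∈ t, (n i : Qb) * (σ i ϖ / ϖ)) 0) (y : X) :
    ∑ i ∈ t, n i • act (σ i) y = 0 := by
  by_cases hy : y = 0
  · simp [hy]
  refine hu.eq_zero (fun f hf hf0 => ?_)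
  have h1 := jet_congr hs hϖ t σ hσ n (hu y hy).1 (⟨hf, hf0⟩ : f ∈ M.aug)
  have h2 := h.mul_ge ((hu y hy).1 f hf hf0)
  rw [zero_add] at h2
  have := h1.add h2
  rwa [sub_add_cancel] at this

/-- a relation on a non-zero point gives a relation between the values of the tame character -/
theorem UniformOrd.jet_gt_of_sum_act_eq_zero [Finite X] {s : ℚ} (hu : M.UniformOrd s)
    (hs : 0 < s) {ϖ : Qb} (hϖ : 𝔓.v.Is ϖ s) {ι : Type*} (t : Finset ι) (σ : ι → GQ)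
    (hσ : ∀ i ∈ t, σ i ∈ 𝔓.I) (n : ι → ℤ) {y : X} (hy : y ≠ 0)
    (h : ∑ i ∈ t, n i • act (σ i) y = 0) :
    𝔓.v.Gt (∑ i ∈ t, (n i : Qb) * (σ i ϖ / ϖ)) 0 := by
  obtain ⟨hge, f, hf, hfy⟩ := hu y hy
  have h1 := jet_congr hs hϖ t σ hσ n hge hf
  rw [h, hf.2, zero_sub] at h1
  have h2 := h1.neg
  rw [neg_neg] at h2
  set c := ∑ i ∈ t, (n i : Qb) * (σ i ϖ / ϖ) with hc
  by_cases hc0 : c = 0
  · exact Or.inl hc0
  · right
    rcases h2 with h2 | h2
    · exact absurd h2 (mul_ne_zero hc0 hfy.1)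
    · have := ((QVal.is_ord hc0).mul hfy).2
      rw [this] at h2
      linarith

end FFModel

end Fermat.Agent.TW
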