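/-
P10 / G7 (leaf for WP-E/WP-F, helper7): change of the residual basis for dual-number lifts.

A lift `r` of `ρbar` written in the basis `b` is conjugate (by a constant matrix) to a lift `r'`
of `ρbar` written in the basis `b'`, with the same tangent class.
-/
import Fermat.Agent.Lib.TW.Tangent
import Fermat.Agent.Lib.S53.MatInterface

set_option autoImplicit false

open Fermat.Agent.S53Lib IsLocalRing groupCohomology Matrix

namespace Fermat.Agent.TW

noncomputable section

variable {k : Type} [Field k]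

/-- the constant matrix `X` over `k[ε]` -/
def tbcConst (X : Matrix (Fin 2) (Fin 2) k) : Matrix (Fin 2) (Fin 2) (DualNumber k) :=
  X.map (TrivSqZeroExt.inl : k → DualNumber k)

@[simp] lemma mFst_tbcConst (X : Matrix (Fin 2) (Fin 2) k) : mFst (tbcConst X) = X := by
  ext i j; simp [mFst, tbcConst]

@[simp] lemma mSnd_tbcConst (X : Matrix (Fin 2) (Fin 2) k) : mSnd (tbcConst X) = 0 := by
  ext i j; simp [mSnd, tbcConst]

lemma tbcConst_mul (X Y : Matrix (Fin 2) (Fin 2) k) :
    tbcConst (X * Y) = tbcConst X * tbcConst Y := by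
  refine mat_ext_fst_snd ?_ ?_
  · rw [mFst_mul, mFst_tbcConst, mFst_tbcConst, mFst_tbcConst]
  · rw [mSnd_mul, mSnd_tbcConst, mSnd_tbcConst, mSnd_tbcConst, mul_zero, zero_mul, add_zero]

lemma tbcConst_one : tbcConst (1 : Matrix (Fin 2) (Fin 2) k) = 1 := by
  refine mat_ext_fst_snd ?_ ?_
  · rw [mFst_tbcConst, mFst_one]
  · rw [mSnd_tbcConst, mSnd_one]

/-- the constant unit attached to a pair of mutually inverse matrices -/
def tbcUnit (Q Q' : Matrix (Fin 2) (Fin 2) k) (h1 : Q * Q' = 1) (h2 : Q' * Q = 1) :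
    (Matrix (Fin 2) (Fin 2) (DualNumber k))ˣ :=
  ⟨tbcConst Q, tbcConst Q', by rw [← tbcConst_mul, h1, tbcConst_one],
    by rw [← tbcConst_mul, h2, tbcConst_one]⟩

variable {ρbar : ResidualGaloisRep k}

/-- **Basis change.** -/
theorem tw_exists_conj_lift (b b' : Module.Basis (Fin 2) k ρbar.V)
    (r : GQ →* Matrix (Fin 2) (Fin 2) (DualNumber k)) (h : MatCts (DualNumber k) r)
    (hr : IsDualLift ρbar b r) (hdet : HasResidualDet r) :
    ∃ (r' : GQ →* Matrix (Fin 2) (Fin 2) (DualNumber k)) (h' : MatCts (DualNumber k) r')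
      (hr' : IsDualLift ρbar b' r') (hdet' : HasResidualDet r'),
      (ofMat r h).IsEquiv (ofMat r' h') ∧ tangentClass r' hr' hdet' = tangentClass r hr hdet := by
  classical
  set Q : Matrix (Fin 2) (Fin 2) k := b'.toMatrix b with hQ
  set Q' : Matrix (Fin 2) (Fin 2) k := b.toMatrix b' with hQ'
  have h1 : Q * Q' = 1 := Module.Basis.toMatrix_mul_toMatrix_flip b' b
  have h2 : Q' * Q = 1 := Module.Basis.toMatrix_mul_toMatrix_flip b b'
  -- change of basis for endomorphisms
  have hconj : ∀ f : Module.End k ρbar.V,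
      LinearMap.toMatrix b' b' f = Q * LinearMap.toMatrix b b f * Q' :=
    fun f => (basis_toMatrix_mul_linearMap_toMatrix_mul_basis_toMatrix b' b b' b f).symm
  set u := tbcUnit Q Q' h1 h2 with hu
  have hucoe : (u : Matrix (Fin 2) (Fin 2) (DualNumber k)) = tbcConst Q := rfl
  have huinv : ((u⁻¹ : (Matrix (Fin 2) (Fin 2) (DualNumber k))ˣ) :
      Matrix (Fin 2) (Fin 2) (DualNumber k)) = tbcConst Q' := rfl
  have huu : ((u⁻¹ : (Matrix (Fin 2) (Fin 2) (DualNumber k))ˣ) :
      Matrix (Fin 2) (Fin 2) (DualNumber k)) * u = 1 := Units.inv_mul u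
  let r' : GQ →* Matrix (Fin 2) (Fin 2) (DualNumber k) :=
    { toFun := fun σ => (u : Matrix (Fin 2) (Fin 2) (DualNumber k)) * r σ *
        ((u⁻¹ : (Matrix (Fin 2) (Fin 2) (DualNumber k))ˣ) :
          Matrix (Fin 2) (Fin 2) (DualNumber k))
      map_one' := by rw [map_one, mul_one, Units.mul_inv]
      map_mul' := fun σ τ => by
        rw [map_mul]
        calc (u : Matrix (Fin 2) (Fin 2) (DualNumber k)) * (r σ * r τ) * ↑u⁻¹
            = ↑u * r σ * (↑u⁻¹ * ↑u) * r τ * ↑u⁻¹ := by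
              rw [huu, mul_one]; simp only [mul_assoc]
          _ = ↑u * r σ * ↑u⁻¹ * (↑u * r τ * ↑u⁻¹) := by simp only [mul_assoc] }
  have hr'σ : ∀ σ, r' σ = (u : Matrix (Fin 2) (Fin 2) (DualNumber k)) * r σ *
      ((u⁻¹ : (Matrix (Fin 2) (Fin 2) (DualNumber k))ˣ) :
        Matrix (Fin 2) (Fin 2) (DualNumber k)) := fun σ => rfl
  have h' : MatCts (DualNumber k) r' := h.conj u r' (fun σ => rfl)
  have hfst : ∀ σ, mFst (r' σ) = Q * mFst (r σ) * Q' := by
    intro σ
    rw [hr'σ, mFst_mul, mFst_mul, hucoe, huinv, mFst_tbcConst, mFst_tbcConst]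
  have hsnd : ∀ σ, mSnd (r' σ) = Q * mSnd (r σ) * Q' := by
    intro σ
    rw [hr'σ, mSnd_mul, mFst_mul, mSnd_mul, hucoe, huinv, mFst_tbcConst, mSnd_tbcConst,
      mSnd_tbcConst, mFst_tbcConst, mul_zero, zero_mul, add_zero, zero_add]
  have hr' : IsDualLift ρbar b' r' := by
    intro σ
    rw [hfst, hr σ]
    exact (hconj _).symm
  have hdet' : HasResidualDet r' := by
    intro σ
    rw [hr'σ, Matrix.det_units_conj]
    exact hdet σ
  refine ⟨r', h', hr', hdet', isEquiv_ofMat_of_conj h h' u (fun σ => rfl), ?_⟩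
  have hcoc : tangentCocycle r' hr' hdet' = tangentCocycle r hr hdet := by
    apply Subtype.ext
    funext σ
    apply ad0Val_injective ρbar
    show tangentEnd (ρbar := ρbar) (b := b') r' σ = tangentEnd (ρbar := ρbar) (b := b) r σ
    unfold tangentEnd tangentMat
    rw [hsnd]
    have e1 : rbarMat ρbar b' σ⁻¹ = Q * rbarMat ρbar b σ⁻¹ * Q' := hconj _
    rw [e1]
    have e2 : Q * mSnd (r σ) * Q' * (Q * rbarMat ρbar b σ⁻¹ * Q') =
        Q * (mSnd (r σ) * rbarMat ρbar b σ⁻¹) * Q' := by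
      calc Q * mSnd (r σ) * Q' * (Q * rbarMat ρbar b σ⁻¹ * Q')
          = Q * mSnd (r σ) * (Q' * Q) * rbarMat ρbar b σ⁻¹ * Q' := by simp only [mul_assoc]
        _ = Q * (mSnd (r σ) * rbarMat ρbar b σ⁻¹) * Q' := by
            rw [h2, mul_one]; simp only [mul_assoc]
    rw [e2]
    have e3 := hconj (Matrix.toLin b b (mSnd (r σ) * rbarMat ρbar b σ⁻¹))
    rw [LinearMap.toMatrix_toLin] at e3
    rw [← e3, Matrix.toLin_toMatrix]
  unfold tangentClass
  rw [hcoc]

end

end Fermat.Agent.TW
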