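/-
P10 / G7 (helper2): function-model orders generated by a set of functions.

`FFModel.ofGenerators`: the `W`-algebra generated by a set `S` of `I`-equivariant functions which
separates points, is closed under comultiplication (inside the generated algebra) and is spanned
by finitely many integral elements, is a model.  Used for the compositum of the translates of a
model under a finite monoid of endomorphisms (`FFModel.sup`) and for the model attached to the
Hopf algebra of the Prelude's `IsFlatAt` (`Lib/TW/Flat/FromFlat.lean`).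
-/
import Fermat.Agent.Lib.TW.Flat.Char

set_option autoImplicit false

namespace Fermat.Agent.TW

open ValuationSubring Polynomial
open Fermat.Agent.S05Lib

local notation "Qb" => AlgebraicClosure ℚ
local notation "GQ" => (AlgebraicClosure ℚ ≃ₐ[ℚ] AlgebraicClosure ℚ)

section Comul

variable {𝔓 : FFPlace} {X : Type*} [AddCommGroup X]

/-- `f (x + y)` decomposes inside the subalgebra `S` -/
def FFComulIn (S : Subalgebra 𝔓.W (X → Qb)) (f : X → Qb) : Prop :=
  ∃ (n : ℕ) (g h : Fin n → (X → Qb)), (∀ i, g i ∈ S) ∧ (∀ i, h i ∈ S) ∧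
    ∀ x y, f (x + y) = ∑ i, g i x * h i y

lemma ffComulIn_of_fintype {S : Subalgebra 𝔓.W (X → Qb)} {f : X → Qb} {ι : Type*} [Fintype ι]
    (g h : ι → (X → Qb)) (hg : ∀ i, g i ∈ S) (hh : ∀ i, h i ∈ S)
    (hf : ∀ x y, f (x + y) = ∑ i, g i x * h i y) : FFComulIn S f := by
  classical
  let e := Fintype.equivFin ι
  refine ⟨Fintype.card ι, fun i => g (e.symm i), fun i => h (e.symm i), fun i => hg _,
    fun i => hh _, fun x y => ?_⟩
  rw [hf]
  exact Fintype.sum_equiv e (fun i => g i x * h i y)
    (fun j => g (e.symm j) x * h (e.symm j) y) (fun i => by rw [Equiv.symm_apply_apply])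

lemma FFComulIn.mono {S T : Subalgebra 𝔓.W (X → Qb)} (hST : S ≤ T) {f : X → Qb}
    (h : FFComulIn S f) : FFComulIn T f := by
  obtain ⟨n, g, k, hg, hk, hgk⟩ := h
  exact ⟨n, g, k, fun i => hST (hg i), fun i => hST (hk i), hgk⟩

/-- the functions whose comultiplication lies in `S ⊗ S` form a subalgebra -/
noncomputable def ffComulSub (S : Subalgebra 𝔓.W (X → Qb)) : Subalgebra 𝔓.W (X → Qb) where
  carrier := {f | FFComulIn S f}
  mul_mem' := by
    rintro f f' ⟨n, g, h, hg, hh, hgh⟩ ⟨n', g', h', hg', hh', hgh'⟩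
    refine ffComulIn_of_fintype (ι := Fin n × Fin n') (fun ij => g ij.1 * g' ij.2)
      (fun ij => h ij.1 * h' ij.2) (fun ij => S.mul_mem (hg _) (hg' _))
      (fun ij => S.mul_mem (hh _) (hh' _)) (fun x y => ?_)
    rw [Pi.mul_apply, hgh, hgh', Finset.sum_mul_sum, Fintype.sum_prod_type]
    refine Finset.sum_congr rfl (fun i _ => Finset.sum_congr rfl (fun j _ => ?_))
    simp only [Pi.mul_apply]
    ring
  add_mem' := by
    rintro f f' ⟨n, g, h, hg, hh, hgh⟩ ⟨n', g', h', hg', hh', hgh'⟩
    refine ffComulIn_of_fintype (ι := Fin n ⊕ Fin n') (Sum.elim g g') (Sum.elim h h')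
      (fun i => by rcases i with i | i <;> simp [hg, hg'])
      (fun i => by rcases i with i | i <;> simp [hh, hh']) (fun x y => ?_)
    rw [Pi.add_apply, hgh, hgh', Fintype.sum_sum_type]
    simp
  algebraMap_mem' := by
    intro w
    refine ffComulIn_of_fintype (ι := Unit) (fun _ => algebraMap 𝔓.W (X → Qb) w) (fun _ => 1)
      (fun _ => S.algebraMap_mem w) (fun _ => S.one_mem) (fun x y => ?_)
    simp [Algebra.algebraMap_eq_smul_one]

lemma mem_ffComulSub {S : Subalgebra 𝔓.W (X → Qb)} {f : X → Qb} :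
    f ∈ ffComulSub S ↔ FFComulIn S f := Iff.rfl

/-- the `I`-equivariant functions form a subalgebra -/
noncomputable def ffEquivSub (𝔓 : FFPlace) {X : Type*} (act : GQ → X → X) :
    Subalgebra 𝔓.W (X → Qb) where
  carrier := {f | ∀ σ ∈ 𝔓.I, ∀ x, f (act σ x) = σ (f x)}
  mul_mem' := by
    intro f g hf hg σ hσ x
    rw [Pi.mul_apply, Pi.mul_apply, hf σ hσ, hg σ hσ, map_mul]
  add_mem' := by
    intro f g hf hg σ hσ x
    rw [Pi.add_apply, Pi.add_apply, hf σ hσ, hg σ hσ, map_add]
  algebraMap_mem' := by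
    intro w σ hσ x
    have hw := ((𝔓.mem_W_iff _).mp w.2).2 σ hσ
    simp only [Algebra.algebraMap_eq_smul_one, Pi.smul_apply, Pi.one_apply, Subring.smul_def,
      smul_eq_mul, mul_one]
    exact hw.symm

end Comul

namespace FFModel

variable {𝔓 : FFPlace} {X : Type*} [AddCommGroup X] {act : GQ → X →+ X}

/-- the model generated by a set of functions -/
noncomputable def ofGenerators (S : Set (X → Qb))
    (heq : ∀ f ∈ S, ∀ σ ∈ 𝔓.I, ∀ x, f (act σ x) = σ (f x))
    (T : Finset (X → Qb)) (hTS : (T : Set (X → Qb)) ⊆ S)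
    (hST : S ⊆ Submodule.span 𝔓.W (T : Set (X → Qb))) (hint : ∀ t ∈ T, IsIntegral 𝔓.W t)
    (hsep : ∀ x y : X, x ≠ y → ∃ f ∈ S, f x ≠ f y)
    (hcomul : ∀ f ∈ S, FFComulIn (Algebra.adjoin 𝔓.W S) f) : FFModel 𝔓 X act where
  carrier := Algebra.adjoin 𝔓.W S
  equivariant := by
    intro f hf
    have : Algebra.adjoin 𝔓.W S ≤ ffEquivSub 𝔓 (fun σ => act σ) :=
      Algebra.adjoin_le (fun f hf => heq f hf)
    exact this hf
  fg := by
    have h1 : Algebra.adjoin 𝔓.W S = Algebra.adjoin 𝔓.W (T : Set (X → Qb)) := by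
      apply le_antisymm
      · refine Algebra.adjoin_le (fun f hf => ?_)
        have := hST hf
        exact Algebra.span_le_adjoin 𝔓.W _ this
      · exact Algebra.adjoin_mono hTS
    rw [h1]
    exact fg_adjoin_of_finite T.finite_toSet hint
  separates := by
    intro x y hxy
    obtain ⟨f, hf, hne⟩ := hsep x y hxy
    exact ⟨f, Algebra.subset_adjoin hf, hne⟩
  comul := by
    intro f hf
    have : Algebra.adjoin 𝔓.W S ≤ ffComulSub (Algebra.adjoin 𝔓.W S) :=
      Algebra.adjoin_le (fun f hf => hcomul f hf)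
    exact this hf

lemma ofGenerators_carrier (S : Set (X → Qb)) heq T hTS hST hint hsep hcomul :
    (ofGenerators (𝔓 := 𝔓) (act := act) S heq T hTS hST hint hsep hcomul).carrier =
      Algebra.adjoin 𝔓.W S := rfl

end FFModel

end Fermat.Agent.TW
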