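/-
P10 / G7 (helper2): stability of function-model orders under the decomposition group and under
finite monoids of endomorphisms.

* `FFModel.DStable`: `g ∈ M ⇒ σ⁻¹ ∘ g ∘ act σ ∈ M` for `σ ∈ D` (the models coming from a Galois
  representation of `G_ℚ` are `D`-stable); then orders are `D`-invariant;
* `FFModel.sup`: the compositum of the translates of a model under a finite monoid `Φ` of
  endomorphisms commuting with inertia ("the smallest `Φ`-stable model containing `M`").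
-/
import Fermat.Agent.Lib.TW.Flat.Gen

set_option autoImplicit false

namespace Fermat.Agent.TW

open ValuationSubring Polynomial
open Fermat.Agent.S05Lib

local notation "Qb" => AlgebraicClosure ℚ
local notation "GQ" => (AlgebraicClosure ℚ ≃ₐ[ℚ] AlgebraicClosure ℚ)

namespace FFPlace

variable (𝔓 : FFPlace)

/-- the inertia group is normal in the decomposition group -/
lemma conj_mem_I {σ τ : GQ} (hσ : σ ∈ 𝔓.D) (hτ : τ ∈ 𝔓.I) : σ * τ * σ⁻¹ ∈ 𝔓.I := by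
  obtain ⟨t, ht, rfl⟩ := Subgroup.mem_map.mp hτ
  have hn : (𝔓.P.inertiaSubgroup ℚ).Normal := by
    unfold ValuationSubring.inertiaSubgroup
    exact MonoidHom.normal_ker _
  have := hn.conj_mem t ht ⟨σ, hσ⟩
  exact Subgroup.mem_map.mpr ⟨_, this, rfl⟩

lemma conj_mem_I' {σ τ : GQ} (hσ : σ ∈ 𝔓.D) (hτ : τ ∈ 𝔓.I) : σ⁻¹ * τ * σ ∈ 𝔓.I := by
  have := 𝔓.conj_mem_I (𝔓.D.inv_mem hσ) hτ
  rwa [inv_inv] at this

/-- `W` is stable under the decomposition group -/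
lemma map_mem_W {σ : GQ} (hσ : σ ∈ 𝔓.D) {w : Qb} (hw : w ∈ 𝔓.W) : σ w ∈ 𝔓.W := by
  rw [mem_W_iff] at hw ⊢
  refine ⟨𝔓.ge_D hσ hw.1, fun τ hτ => ?_⟩
  have h1 := hw.2 _ (𝔓.conj_mem_I' hσ hτ)
  have h2 : τ (σ w) = σ ((σ⁻¹ * τ * σ) w) := by
    have : σ * (σ⁻¹ * τ * σ) = τ * σ := by group
    rw [← AlgEquiv.mul_apply σ, this, AlgEquiv.mul_apply]
  rw [h2, h1]

end FFPlace

namespace FFModel

variable {𝔓 : FFPlace} {X : Type*} [AddCommGroup X] {act : GQ → X →+ X} (M : FFModel 𝔓 X act)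

/-- stability under the decomposition group -/
def DStable : Prop :=
  ∀ σ ∈ 𝔓.D, ∀ g ∈ M.carrier, (fun x => σ⁻¹ (g (act σ x))) ∈ M.carrier

variable {M}

lemma DStable.ordGE (hM : M.DStable) {σ : GQ} (hσ : σ ∈ 𝔓.D) {y : X} {s : ℚ}
    (hy : M.OrdGE y s) : M.OrdGE (act σ y) s := by
  intro g hg hg0
  have h1 := hy _ (hM σ hσ g hg) (by simp [hg0])
  have h2 := 𝔓.ge_D hσ h1
  have h3 : σ (σ⁻¹ (g (act σ y))) = g (act σ y) := by
    rw [← AlgEquiv.mul_apply, mul_inv_cancel, AlgEquiv.one_apply]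
  rwa [h3] at h2

lemma DStable.ordGT (hM : M.DStable) {σ : GQ} (hσ : σ ∈ 𝔓.D) {y : X} {s : ℚ}
    (hy : M.OrdGT y s) : M.OrdGT (act σ y) s := by
  intro g hg hg0
  have h1 := hy _ (hM σ hσ g hg) (by simp [hg0])
  have h2 := 𝔓.gt_D hσ h1
  have h3 : σ (σ⁻¹ (g (act σ y))) = g (act σ y) := by
    rw [← AlgEquiv.mul_apply, mul_inv_cancel, AlgEquiv.one_apply]
  rwa [h3] at h2

variable {Y : Type*} [AddCommGroup Y] {actY : GQ → Y →+ Y}

lemma DStable.comap (hM : M.DStable) (ι : Y →+ X) (hι : Function.Injective ι)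
    (hact : ∀ σ ∈ 𝔓.I, ∀ y, ι (actY σ y) = act σ (ι y))
    (hactD : ∀ σ ∈ 𝔓.D, ∀ y, ι (actY σ y) = act σ (ι y)) : (M.comap ι hι hact).DStable := by
  rintro σ hσ _ ⟨g, hg, rfl⟩
  refine ⟨_, hM σ hσ g hg, ?_⟩
  funext y
  change σ⁻¹ (g (act σ (ι y))) = σ⁻¹ (g (ι (actY σ y)))
  rw [hactD σ hσ]

lemma DStable.quot (hM : M.DStable) (hU : 𝔓.Unr) [Finite X] (π : X →+ Y)
    (hπ : Function.Surjective π) (hact : ∀ σ ∈ 𝔓.I, ∀ x, π (act σ x) = actY σ (π x))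
    (hactD : ∀ σ ∈ 𝔓.D, ∀ x, π (act σ x) = actY σ (π x)) : (M.quot hU π hπ hact).DStable := by
  intro σ hσ g hg
  rw [mem_quot_carrier] at hg ⊢
  have := hM σ hσ _ hg
  have h2 : (fun x => σ⁻¹ (g (actY σ (π x)))) = fun x => σ⁻¹ (g (π (act σ x))) := by
    funext x
    rw [hactD σ hσ]
  rw [h2]
  exact this

variable (M)

/-- the generators of the compositum -/
def supGen (Φ : Set (X →+ X)) : Set (X → Qb) :=
  {g | ∃ φ ∈ Φ, ∃ f ∈ M.carrier, g = fun x => f (φ x)}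

lemma comp_mem_supGen {Φ : Set (X →+ X)} {φ : X →+ X} (hφ : φ ∈ Φ) {f : X → Qb}
    (hf : f ∈ M.carrier) : (fun x => f (φ x)) ∈ M.supGen Φ := ⟨φ, hφ, f, hf, rfl⟩

/-- the compositum of the translates of `M` under a finite set `Φ` of endomorphisms commuting with
inertia -/
noncomputable def sup [Finite X] (Φ : Set (X →+ X)) (hid : AddMonoidHom.id X ∈ Φ)
    (hcomm : ∀ φ ∈ Φ, ∀ σ ∈ 𝔓.I, ∀ x, φ (act σ x) = act σ (φ x)) : FFModel 𝔓 X act := by
  classical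
  have : Finite (X →+ X) := Finite.of_injective (fun f => (f : X → X)) DFunLike.coe_injective
  have hfinΦ : Φ.Finite := Set.toFinite Φ
  let F₀ := M.fg.choose
  have hF₀ : Submodule.span 𝔓.W (F₀ : Set (X → Qb)) = M.carrier.toSubmodule := M.fg.choose_spec
  have hF₀mem : ∀ f ∈ F₀, f ∈ M.carrier := fun f hf => by
    have : f ∈ Submodule.span 𝔓.W (F₀ : Set (X → Qb)) := Submodule.subset_span hf
    rw [hF₀] at this
    exact this
  let T : Finset (X → Qb) :=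
    (hfinΦ.toFinset ×ˢ F₀).image (fun φf => fun x => φf.2 (φf.1 x))
  refine ofGenerators (M.supGen Φ) ?_ T ?_ ?_ ?_ ?_ ?_
  · rintro _ ⟨φ, hφ, f, hf, rfl⟩ σ hσ x
    change f (φ (act σ x)) = σ (f (φ x))
    rw [hcomm φ hφ σ hσ, M.equivariant f hf σ hσ]
  · intro g hg
    obtain ⟨⟨φ, f⟩, hφf, rfl⟩ := Finset.mem_image.mp (Finset.mem_coe.mp hg)
    rw [Finset.mem_product] at hφf
    exact M.comp_mem_supGen (hfinΦ.mem_toFinset.mp hφf.1) (hF₀mem f hφf.2)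
  · rintro _ ⟨φ, hφ, f, hf, rfl⟩
    have hf' : f ∈ Submodule.span 𝔓.W (F₀ : Set (X → Qb)) := by rw [hF₀]; exact hf
    have h1 : (fun x => f (φ x)) ∈
        (Submodule.span 𝔓.W (F₀ : Set (X → Qb))).map (ffPull 𝔓 (X := X) φ).toLinearMap :=
      ⟨f, hf', rfl⟩
    rw [Submodule.map_span] at h1
    refine Submodule.span_mono ?_ h1
    rintro _ ⟨f₀, hf₀, rfl⟩
    refine Finset.mem_coe.mpr (Finset.mem_image.mpr ⟨(φ, f₀), ?_, rfl⟩)
    exact Finset.mem_product.mpr ⟨hfinΦ.mem_toFinset.mpr hφ, hf₀⟩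
  · intro t ht
    obtain ⟨⟨φ, f⟩, hφf, rfl⟩ := Finset.mem_image.mp ht
    rw [Finset.mem_product] at hφf
    have h1 : IsIntegral 𝔓.W f := IsIntegral.of_mem_of_fg M.carrier M.fg f (hF₀mem f hφf.2)
    exact h1.map (ffPull 𝔓 (X := X) φ)
  · intro x y hxy
    obtain ⟨f, hf, hne⟩ := M.separates x y hxy
    exact ⟨f, M.comp_mem_supGen hid hf, hne⟩
  · rintro _ ⟨φ, hφ, f, hf, rfl⟩
    obtain ⟨n, g, h, hg, hh, hgh⟩ := M.comul f hf
    refine ⟨n, fun i x => g i (φ x), fun i x => h i (φ x),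
      fun i => Algebra.subset_adjoin (M.comp_mem_supGen hφ (hg i)),
      fun i => Algebra.subset_adjoin (M.comp_mem_supGen hφ (hh i)), fun x y => ?_⟩
    change f (φ (x + y)) = _
    rw [map_add, hgh]

lemma sup_carrier [Finite X] (Φ : Set (X →+ X)) (hid : AddMonoidHom.id X ∈ Φ)
    (hcomm : ∀ φ ∈ Φ, ∀ σ ∈ 𝔓.I, ∀ x, φ (act σ x) = act σ (φ x)) :
    (M.sup Φ hid hcomm).carrier = Algebra.adjoin 𝔓.W (M.supGen Φ) := rfl

lemma le_sup [Finite X] (Φ : Set (X →+ X)) (hid : AddMonoidHom.id X ∈ Φ)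
    (hcomm : ∀ φ ∈ Φ, ∀ σ ∈ 𝔓.I, ∀ x, φ (act σ x) = act σ (φ x)) :
    M.carrier ≤ (M.sup Φ hid hcomm).carrier := by
  intro f hf
  rw [sup_carrier]
  exact Algebra.subset_adjoin (M.comp_mem_supGen hid hf)

/-- the compositum is stable under `Φ` -/
lemma sup_stable [Finite X] (Φ : Set (X →+ X)) (hid : AddMonoidHom.id X ∈ Φ)
    (hcomm : ∀ φ ∈ Φ, ∀ σ ∈ 𝔓.I, ∀ x, φ (act σ x) = act σ (φ x))
    (hmul : ∀ φ ∈ Φ, ∀ ψ ∈ Φ, φ.comp ψ ∈ Φ) {ψ : X →+ X} (hψ : ψ ∈ Φ) {g : X → Qb}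
    (hg : g ∈ (M.sup Φ hid hcomm).carrier) :
    (fun x => g (ψ x)) ∈ (M.sup Φ hid hcomm).carrier := by
  rw [sup_carrier] at hg ⊢
  have : Algebra.adjoin 𝔓.W (M.supGen Φ) ≤
      (Algebra.adjoin 𝔓.W (M.supGen Φ)).comap (ffPull 𝔓 (X := X) ψ) := by
    refine Algebra.adjoin_le ?_
    rintro _ ⟨φ, hφ, f, hf, rfl⟩
    exact Algebra.subset_adjoin (M.comp_mem_supGen (hmul φ hφ ψ hψ) hf)
  exact this hg

variable {M}

/-- the compositum of a `D`-stable model is `D`-stable -/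
lemma DStable.sup [Finite X] (hM : M.DStable) (Φ : Set (X →+ X)) (hid : AddMonoidHom.id X ∈ Φ)
    (hcomm : ∀ φ ∈ Φ, ∀ σ ∈ 𝔓.I, ∀ x, φ (act σ x) = act σ (φ x))
    (hcommD : ∀ φ ∈ Φ, ∀ σ ∈ 𝔓.D, ∀ x, φ (act σ x) = act σ (φ x)) :
    (M.sup Φ hid hcomm).DStable := by
  intro σ hσ g hg
  rw [sup_carrier] at hg ⊢
  induction hg using Algebra.adjoin_induction with
  | mem g hg =>
    obtain ⟨φ, hφ, f, hf, rfl⟩ := hg
    refine Algebra.subset_adjoin ⟨φ, hφ, _, hM σ hσ f hf, ?_⟩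
    funext x
    change σ⁻¹ (f (φ (act σ x))) = σ⁻¹ (f (act σ (φ x)))
    rw [hcommD φ hφ σ hσ]
  | algebraMap w =>
    have hw : σ⁻¹ (w : Qb) ∈ 𝔓.W := 𝔓.map_mem_W (𝔓.D.inv_mem hσ) w.2
    have : (fun x : X => σ⁻¹ ((algebraMap 𝔓.W (X → Qb) w) (act σ x))) =
        algebraMap 𝔓.W (X → Qb) ⟨σ⁻¹ (w : Qb), hw⟩ := by
      funext x
      simp [Algebra.algebraMap_eq_smul_one, Subring.smul_def]
    rw [this]
    exact Subalgebra.algebraMap_mem _ _
  | add f g _ _ hf hg =>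
    have : (fun x => σ⁻¹ ((f + g) (act σ x))) =
        (fun x => σ⁻¹ (f (act σ x))) + fun x => σ⁻¹ (g (act σ x)) := by
      funext x; simp
    rw [this]
    exact Subalgebra.add_mem _ hf hg
  | mul f g _ _ hf hg =>
    have : (fun x => σ⁻¹ ((f * g) (act σ x))) =
        (fun x => σ⁻¹ (f (act σ x))) * fun x => σ⁻¹ (g (act σ x)) := by
      funext x; simp
    rw [this]
    exact Subalgebra.mul_mem _ hf hg

/-- orders with respect to a bigger model are orders with respect to the smaller one -/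
lemma OrdGE.of_le {M' : FFModel 𝔓 X act} (h : M.carrier ≤ M'.carrier) {y : X} {s : ℚ}
    (hy : M'.OrdGE y s) : M.OrdGE y s := fun f hf hf0 => hy f (h hf) hf0

lemma OrdGT.of_le {M' : FFModel 𝔓 X act} (h : M.carrier ≤ M'.carrier) {y : X} {s : ℚ}
    (hy : M'.OrdGT y s) : M.OrdGT y s := fun f hf hf0 => hy f (h hf) hf0

end FFModel

end Fermat.Agent.TW
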