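import Fermat.Agent.Lib.TW.Flat.Place
import Fermat.Agent.Lib.TW.Flat.Stable
import Fermat.Agent.Lib.S53.MatInterface

/-!
# P10 / G7: the dictionary theorem (boundary between the Prelude's `IsFlatAt` and the function
models of `Lib/TW/Flat`)

For a matrix lift `r : G_ℚ → GL₂(k[ε])` (`k` finite) such that `ofMat r h` is flat at `p`, the group
`X = k[ε]²` with the action `σ ↦ r σ` has a `D`-stable function model over the place
`ffPlaceAt p`, which is moreover stable under all scalars `u ∈ k[ε]ˣ`: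
`ff_exists_model_of_flat`.
-/

set_option autoImplicit false
set_option linter.style.haveILetI false

namespace Fermat.Agent.TW

open Fermat.Agent.S53Lib

local notation "Qb" => AlgebraicClosure ℚ
local notation "GQ" => (AlgebraicClosure ℚ ≃ₐ[ℚ] AlgebraicClosure ℚ)

noncomputable section

variable {k : Type} [Field k]

/-- the points of a lift to the dual numbers -/
abbrev DualPts (k : Type) [Field k] : Type := Fin 2 → DualNumber k

/-- the Galois action on the points of a matrix lift -/
def dualAct (r : GQ →* Matrix (Fin 2) (Fin 2) (DualNumber k)) (σ : GQ) :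
    DualPts k →+ DualPts k :=
  (Matrix.mulVecLin (r σ)).toAddMonoidHom

@[simp] lemma dualAct_apply (r : GQ →* Matrix (Fin 2) (Fin 2) (DualNumber k)) (σ : GQ)
    (x : DualPts k) : dualAct r σ x = (r σ).mulVec x := rfl

/-- multiplication by a unit of `k[ε]` on the points -/
def dualScal (u : (DualNumber k)ˣ) : DualPts k →+ DualPts k :=
  DistribSMul.toAddMonoidHom (DualPts k) (u : DualNumber k)

@[simp] lemma dualScal_apply (u : (DualNumber k)ˣ) (x : DualPts k) :
    dualScal u x = (u : DualNumber k) • x := rfl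

lemma dualScal_dualAct (r : GQ →* Matrix (Fin 2) (Fin 2) (DualNumber k)) (u : (DualNumber k)ˣ)
    (σ : GQ) (x : DualPts k) : dualScal u (dualAct r σ x) = dualAct r σ (dualScal u x) := by
  rw [dualScal_apply, dualScal_apply, dualAct_apply, dualAct_apply, Matrix.mulVec_smul]

instance ff_finite_dualNumber [Finite k] : Finite (DualNumber k) :=
  Finite.of_equiv (k × k) (Equiv.refl _)

/-- **The dictionary theorem.** -/
theorem ff_exists_model_of_flat [Finite k] (p : ℕ) [Fact p.Prime]
    (r : GQ →* Matrix (Fin 2) (Fin 2) (DualNumber k)) (h : MatCts (DualNumber k) r)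
    (hfl : (ofMat r h).IsFlatAt p) :
    ∃ M : FFModel (ffPlaceAt p) (DualPts k) (dualAct r), M.DStable ∧
      ∀ u : (DualNumber k)ˣ, ∀ f ∈ M.carrier, (fun x => f (u • x)) ∈ M.carrier := by
  haveI : Finite (DualNumber k ⧸ (⊥ : Ideal (DualNumber k))) := Quotient.finite _
  obtain ⟨M₀, hM₀⟩ := ff_exists_model_of_isFlatAt p (ofMat r h) hfl ⊥
  -- transport along `V ≃ V ⧸ (⊥ • ⊤)`
  let Q : Submodule (DualNumber k) (ofMat r h).V :=
    (⊥ : Ideal (DualNumber k)) • (⊤ : Submodule (DualNumber k) (ofMat r h).V)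
  have hQ : Q = ⊥ := Submodule.bot_smul _
  let e : DualPts k →+ (ofMat r h).V := AddMonoidHom.id (Fin 2 → DualNumber k)
  have heinj : Function.Injective e := fun a b hab => hab
  let ι : DualPts k →+ (ofMat r h).V ⧸ Q := (Submodule.mkQ Q).toAddMonoidHom.comp e
  have hι : Function.Injective ι := by
    intro x y hxy
    apply heinj
    have h1 : Submodule.mkQ Q (e x - e y) = 0 := by
      rw [map_sub, sub_eq_zero]
      exact hxy
    rw [Submodule.mkQ_apply, Submodule.Quotient.mk_eq_zero, hQ, Submodule.mem_bot,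
      sub_eq_zero] at h1
    exact h1
  have hactAll : ∀ (σ : GQ) (y : DualPts k),
      ι (dualAct r σ y) = ((ofMat r h).levelAction ⊥ σ).toAddMonoidHom (ι y) := by
    intro σ y
    rfl
  let M₁ : FFModel (ffPlaceAt p) (DualPts k) (dualAct r) :=
    M₀.comap ι hι (fun σ _ y => hactAll σ y)
  have hM₁ : M₁.DStable := hM₀.comap ι hι (fun σ _ y => hactAll σ y) (fun σ _ y => hactAll σ y)
  -- the compositum over the scalars
  let Φ : Set (DualPts k →+ DualPts k) := Set.range (dualScal (k := k))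
  have hid : AddMonoidHom.id (DualPts k) ∈ Φ := by
    refine ⟨1, DFunLike.ext _ _ (fun x => ?_)⟩
    rw [dualScal_apply, Units.val_one, one_smul]
    rfl
  have hcommAll : ∀ φ ∈ Φ, ∀ (σ : GQ) (x : DualPts k),
      φ (dualAct r σ x) = dualAct r σ (φ x) := by
    rintro _ ⟨u, rfl⟩ σ x
    exact dualScal_dualAct r u σ x
  have hmul : ∀ φ ∈ Φ, ∀ ψ ∈ Φ, φ.comp ψ ∈ Φ := by
    rintro _ ⟨u, rfl⟩ _ ⟨u', rfl⟩
    refine ⟨u * u', DFunLike.ext _ _ (fun x => ?_)⟩
    rw [AddMonoidHom.comp_apply, dualScal_apply, dualScal_apply, dualScal_apply, Units.val_mul,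
      mul_smul]
  refine ⟨M₁.sup Φ hid (fun φ hφ σ _ x => hcommAll φ hφ σ x),
    hM₁.sup Φ hid (fun φ hφ σ _ x => hcommAll φ hφ σ x) (fun φ hφ σ _ x => hcommAll φ hφ σ x),
    fun u f hf => ?_⟩
  exact M₁.sup_stable Φ hid (fun φ hφ σ _ x => hcommAll φ hφ σ x) hmul ⟨u, rfl⟩ hf

end

end Fermat.Agent.TW
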