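/-
P10 / G7 (helper2): the bridge from the Prelude's `GaloisRepAdic.IsFlatAt` to function-model
orders.

If `ρ` is flat at `p`, then for every ideal `J` of finite index the finite Galois module
`ρ.V ⧸ J • ⊤` carries a `D`-stable model `M : FFModel 𝔓 _ _` (for every place `𝔓` of `Qb` over
`p`): the `W`-algebra generated by the image of the Hopf algebra `H` in the functions on
`H(Qb) ≃ ρ.V ⧸ J • ⊤`.  The Hopf-algebra axioms of `H` are never used again.
-/
import Fermat.Agent.Lib.TW.Flat.Stable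
import Fermat.Prelude.Def_GaloisRep_Flat

set_option autoImplicit false

namespace Fermat.Agent.TW

open ValuationSubring Polynomial
open Fermat.Agent.S05Lib

local notation "Qb" => AlgebraicClosure ℚ
local notation "GQ" => (AlgebraicClosure ℚ ≃ₐ[ℚ] AlgebraicClosure ℚ)

namespace FFPlace

variable (𝔓 : FFPlace)

/-- rationals with denominator prime to `p` lie in `W` -/
lemma ratLoc_mem_W (r : GaloisRep.ratLocalizedAt 𝔓.p) :
    algebraMap (GaloisRep.ratLocalizedAt 𝔓.p) Qb r ∈ 𝔓.W := by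
  rw [mem_W_iff]
  refine ⟨?_, fun σ _ => ?_⟩
  · rw [← mem_P_iff]
    change algebraMap ℚ Qb (r : ℚ) ∈ 𝔓.P
    have hr : (r : ℚ).den.Coprime 𝔓.p := r.2
    have hnd : ¬ ((𝔓.p : ℤ) ∣ ((r : ℚ).den : ℤ)) := by
      intro h
      have h' : 𝔓.p ∣ (r : ℚ).den := by exact_mod_cast h
      have := Nat.Coprime.eq_one_of_dvd hr.symm h'
      exact 𝔓.hp.one_lt.ne' this
    have h1 := qv_valuation_intCast_eq_one 𝔓.P 𝔓.hp 𝔓.hP hnd
    rw [← ValuationSubring.valuation_le_one_iff]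
    have h2 : algebraMap ℚ Qb (r : ℚ) =
        (((r : ℚ).num : ℤ) : Qb) / ((((r : ℚ).den : ℕ) : ℤ) : Qb) := by
      conv_lhs => rw [← Rat.num_div_den (r : ℚ)]
      rw [map_div₀]
      simp
    rw [h2, map_div₀, h1, div_one]
    exact qv_valuation_intCast_le_one 𝔓.P _
  · change σ (algebraMap ℚ Qb (r : ℚ)) = algebraMap ℚ Qb (r : ℚ)
    exact σ.commutes _

/-- the ring homomorphism `ℤ_(p) → W` -/
noncomputable def ratLocToW : GaloisRep.ratLocalizedAt 𝔓.p →+* 𝔓.W :=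
  (algebraMap (GaloisRep.ratLocalizedAt 𝔓.p) Qb).codRestrict 𝔓.W 𝔓.ratLoc_mem_W

lemma coe_ratLocToW (r : GaloisRep.ratLocalizedAt 𝔓.p) :
    (𝔓.ratLocToW r : Qb) = algebraMap (GaloisRep.ratLocalizedAt 𝔓.p) Qb r := rfl

end FFPlace

namespace FFModel

variable {𝔓 : FFPlace} {X : Type*} [AddCommGroup X] {act : GQ → X →+ X}

/-- `D`-stability of a generated model can be checked on generators -/
lemma ofGenerators_dstable (S : Set (X → Qb)) heq T hTS hST hint hsep hcomul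
    (h : ∀ σ ∈ 𝔓.D, ∀ g ∈ S, (fun x => σ⁻¹ (g (act σ x))) ∈ Algebra.adjoin 𝔓.W S) :
    (ofGenerators (𝔓 := 𝔓) (act := act) S heq T hTS hST hint hsep hcomul).DStable := by
  intro σ hσ g hg
  rw [ofGenerators_carrier] at hg ⊢
  induction hg using Algebra.adjoin_induction with
  | mem g hg => exact h σ hσ g hg
  | algebraMap w =>
    have hw : σ⁻¹ (w : Qb) ∈ 𝔓.W := 𝔓.map_mem_W (𝔓.D.inv_mem hσ) w.2
    have : (fun x : X => σ⁻¹ ((algebraMap 𝔓.W (X → Qb) w) (act σ x))) =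
        algebraMap 𝔓.W (X → Qb) ⟨σ⁻¹ (w : Qb), hw⟩ := by
      funext x
      simp [Algebra.algebraMap_eq_smul_one, Subring.smul_def]
    rw [this]
    exact Subalgebra.algebraMap_mem _ _
  | add f g _ _ hf hg =>
    have : (fun x => σ⁻¹ ((f + g) (act σ x))) =
        (fun x => σ⁻¹ (f (act σ x))) + fun x => σ⁻¹ (g (act σ x)) := by
      funext x; simp
    rw [this]
    exact Subalgebra.add_mem _ hf hg
  | mul f g _ _ hf hg =>
    have : (fun x => σ⁻¹ ((f * g) (act σ x))) =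
        (fun x => σ⁻¹ (f (act σ x))) * fun x => σ⁻¹ (g (act σ x)) := by
      funext x; simp
    rw [this]
    exact Subalgebra.mul_mem _ hf hg

end FFModel

section Hopf

variable (𝔓 : FFPlace) {H : Type} [CommRing H] [HopfAlgebra (GaloisRep.ratLocalizedAt 𝔓.p) H]
  {X : Type*}

local notation "Rp" => GaloisRep.ratLocalizedAt 𝔓.p

/-- a Galois automorphism as a `ℤ_(p)`-algebra homomorphism -/
noncomputable def ffGalHom (σ : GQ) : Qb →ₐ[Rp] Qb :=
  { (σ : Qb →+* Qb) with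
    commutes' := fun r => σ.commutes (r : ℚ) }

@[simp] lemma ffGalHom_apply (σ : GQ) (x : Qb) : ffGalHom 𝔓 σ x = σ x := rfl

/-- evaluation of the Hopf algebra on its `Qb`-points -/
noncomputable def ffEval (e : WithConv (H →ₐ[Rp] Qb) ≃ X) : H →ₐ[Rp] (X → Qb) :=
  AlgHom.pi (fun x => (e.symm x).ofConv)

@[simp] lemma ffEval_apply (e : WithConv (H →ₐ[Rp] Qb) ≃ X) (h : H) (x : X) :
    ffEval 𝔓 e h x = (e.symm x).ofConv h := rfl

lemma ffEval_smul (e : WithConv (H →ₐ[Rp] Qb) ≃ X) (r : Rp) (h : H) :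
    ffEval 𝔓 e (r • h) = 𝔓.ratLocToW r • ffEval 𝔓 e h := by
  funext x
  rw [map_smul]
  simp only [Pi.smul_apply, Algebra.smul_def]
  rfl

variable {𝔓} [AddCommGroup X]

lemma ffEval_add_apply (e : WithConv (H →ₐ[Rp] Qb) ≃ X)
    (hmul : ∀ f g : WithConv (H →ₐ[Rp] Qb), e (f * g) = e f + e g) (h : H) (x y : X) :
    ffEval 𝔓 e h (x + y) =
      ∑ i : (Coalgebra.Repr.arbitrary Rp h).index,
        ffEval 𝔓 e ((Coalgebra.Repr.arbitrary Rp h).left i) x *
          ffEval 𝔓 e ((Coalgebra.Repr.arbitrary Rp h).right i) y := by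
  have h1 : e.symm (x + y) = e.symm x * e.symm y := by
    apply e.injective
    rw [hmul, Equiv.apply_symm_apply, Equiv.apply_symm_apply, Equiv.apply_symm_apply]
  rw [ffEval_apply, h1]
  change (e.symm x * e.symm y) h = _
  rw [AlgHom.convMul_apply]
  conv_lhs => rw [← (Coalgebra.Repr.arbitrary Rp h).eq]
  rw [map_sum, ← Finset.sum_coe_sort]
  simp

lemma ffEval_act (e : WithConv (H →ₐ[Rp] Qb) ≃ X) (act : GQ → X →+ X)
    (hgal : ∀ (σ : GQ) (f g : WithConv (H →ₐ[Rp] Qb)), (∀ h : H, g h = σ (f h)) →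
      e g = act σ (e f)) (σ : GQ) (h : H) (x : X) :
    ffEval 𝔓 e h (act σ x) = σ (ffEval 𝔓 e h x) := by
  have h1 : e (WithConv.toConv ((ffGalHom 𝔓 σ).comp (e.symm x).ofConv)) = act σ x := by
    have := hgal σ (e.symm x) (WithConv.toConv ((ffGalHom 𝔓 σ).comp (e.symm x).ofConv))
      (fun h => rfl)
    rw [this, Equiv.apply_symm_apply]
  rw [ffEval_apply, ← h1, Equiv.symm_apply_apply]
  rfl

/-- the model attached to a finite Hopf algebra over `ℤ_(p)` whose `Qb`-points are `X` -/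
theorem ffModel_of_hopf [Module.Finite Rp H] (e : WithConv (H →ₐ[Rp] Qb) ≃ X) (act : GQ → X →+ X)
    (hmul : ∀ f g : WithConv (H →ₐ[Rp] Qb), e (f * g) = e f + e g)
    (hgal : ∀ (σ : GQ) (f g : WithConv (H →ₐ[Rp] Qb)), (∀ h : H, g h = σ (f h)) →
      e g = act σ (e f)) :
    ∃ M : FFModel 𝔓 X act, M.DStable ∧
      M.carrier = Algebra.adjoin 𝔓.W (Set.range (ffEval 𝔓 e)) := by
  classical
  obtain ⟨s, hs⟩ := (Module.Finite.fg_top : (⊤ : Submodule Rp H).FG)
  have hST : Set.range (ffEval 𝔓 e) ⊆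
      Submodule.span 𝔓.W ((s.image (ffEval 𝔓 e) : Finset (X → Qb)) : Set (X → Qb)) := by
    rintro _ ⟨h, rfl⟩
    have hh : h ∈ Submodule.span Rp (s : Set H) := by rw [hs]; trivial
    induction hh using Submodule.span_induction with
    | mem h hh =>
      exact Submodule.subset_span (Finset.mem_coe.mpr (Finset.mem_image_of_mem _ hh))
    | zero => rw [map_zero]; exact Submodule.zero_mem _
    | add a b _ _ ha hb => rw [map_add]; exact Submodule.add_mem _ ha hb
    | smul r a _ ha => rw [ffEval_smul]; exact Submodule.smul_mem _ _ ha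
  refine ⟨FFModel.ofGenerators (Set.range (ffEval 𝔓 e)) ?_ (s.image (ffEval 𝔓 e)) ?_ hST ?_ ?_ ?_,
    ?_, rfl⟩
  · rintro _ ⟨h, rfl⟩ σ _ x
    exact ffEval_act e act hgal σ h x
  · intro t ht
    obtain ⟨h, -, rfl⟩ := Finset.mem_image.mp (Finset.mem_coe.mp ht)
    exact ⟨h, rfl⟩
  · intro t ht
    obtain ⟨h, -, rfl⟩ := Finset.mem_image.mp ht
    have h1 : IsIntegral Rp h := Algebra.IsIntegral.isIntegral h
    have h2 : IsIntegral Rp (ffEval 𝔓 e h) := h1.map (ffEval 𝔓 e)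
    refine IsIntegral.map_of_comp_eq (𝔓.ratLocToW) (RingHom.id (X → Qb)) ?_ h2
    ext r x
    rfl
  · intro x y hxy
    have h1 : e.symm x ≠ e.symm y := fun h => hxy (e.symm.injective h)
    have h2 : ∃ h : H, (e.symm x).ofConv h ≠ (e.symm y).ofConv h := by
      by_contra hcon
      push Not at hcon
      apply h1
      apply WithConv.ofConv_injective
      exact AlgHom.ext hcon
    obtain ⟨h, hh⟩ := h2
    exact ⟨ffEval 𝔓 e h, ⟨h, rfl⟩, hh⟩
  · rintro _ ⟨h, rfl⟩
    exact ffComulIn_of_fintype _ _ (fun i => Algebra.subset_adjoin ⟨_, rfl⟩)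
      (fun i => Algebra.subset_adjoin ⟨_, rfl⟩) (fun x y => ffEval_add_apply e hmul h x y)
  · apply FFModel.ofGenerators_dstable
    rintro σ _ _ ⟨h, rfl⟩
    have : (fun x => σ⁻¹ (ffEval 𝔓 e h (act σ x))) = ffEval 𝔓 e h := by
      funext x
      rw [ffEval_act e act hgal σ h x, ← AlgEquiv.mul_apply, inv_mul_cancel, AlgEquiv.one_apply]
    rw [this]
    exact Algebra.subset_adjoin ⟨h, rfl⟩

end Hopf

namespace FFModel

variable (𝔓 : FFPlace) {A : Type} [CommRing A] [IsLocalRing A]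

/-- **Bridge.** A representation flat at `p` has `D`-stable function models at every finite
level. -/
theorem exists_of_isFlatAt (ρ : GaloisRepAdic A) (hfl : ρ.IsFlatAt 𝔓.p) (J : Ideal A)
    [Finite (A ⧸ J)] :
    ∃ M : FFModel 𝔓 (ρ.V ⧸ J • (⊤ : Submodule A ρ.V))
      (fun σ => (ρ.levelAction J σ).toAddMonoidHom), M.DStable := by
  obtain ⟨H, _, _, hfin, -, -, e, hmul, hgal⟩ := hfl.2 J inferInstance
  obtain ⟨M, hM, -⟩ := ffModel_of_hopf (𝔓 := 𝔓) e
    (fun σ => (ρ.levelAction J σ).toAddMonoidHom) hmul hgal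
  exact ⟨M, hM⟩

end FFModel

end Fermat.Agent.TW
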