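/-
P10 / G7 (helper2): the place of `Qb` over `p` used by the flat local condition, as an `FFPlace`,
and the specialisation of the bridge `FFModel.exists_of_isFlatAt` to it.
-/
import Fermat.Agent.Lib.TW.Flat.FromFlat
import Fermat.Agent.Lib.TW.Local.Unramified
import Fermat.Agent.Lib.TW.LF.Unr

set_option autoImplicit false

open ExtCitation

namespace Fermat.Agent.TW

local notation "Qb" => AlgebraicClosure ℚ
local notation "GQ" => (AlgebraicClosure ℚ ≃ₐ[ℚ] AlgebraicClosure ℚ)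

/-- the place `primeLocalPlace p` as an `FFPlace` -/
noncomputable def ffPlaceAt (p : ℕ) [Fact p.Prime] : FFPlace :=
  ⟨primeLocalPlace (pPrime p), p, Fact.out, tw_primeLocalPlace_liesOver (pPrime p)⟩

@[simp] lemma ffPlaceAt_p (p : ℕ) [Fact p.Prime] : (ffPlaceAt p).p = p := rfl

@[simp] lemma ffPlaceAt_P (p : ℕ) [Fact p.Prime] :
    (ffPlaceAt p).P = primeLocalPlace (pPrime p) := rfl

lemma ffPlaceAt_I (p : ℕ) [Fact p.Prime] :
    (ffPlaceAt p).I = (primeLocalPlace (pPrime p)).inertiaSubgroupIn ℚ := rfl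

lemma ffPlaceAt_D (p : ℕ) [Fact p.Prime] :
    (ffPlaceAt p).D = (primeLocalPlace (pPrime p)).decompositionSubgroup ℚ := rfl

/-- the inertia field of `ffPlaceAt p` is unramified -/
theorem ffPlaceAt_unr (p : ℕ) [Fact p.Prime] : (ffPlaceAt p).Unr := (ffPlaceAt p).lf_unr

/-- the bridge at the place `ffPlaceAt p` -/
theorem ff_exists_model_of_isFlatAt (p : ℕ) [Fact p.Prime] {A : Type} [CommRing A]
    [IsLocalRing A] (ρ : GaloisRepAdic A) (hfl : ρ.IsFlatAt p) (J : Ideal A) [Finite (A ⧸ J)] :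
    ∃ M : FFModel (ffPlaceAt p) (ρ.V ⧸ J • (⊤ : Submodule A ρ.V))
      (fun σ => (ρ.levelAction J σ).toAddMonoidHom), M.DStable :=
  FFModel.exists_of_isFlatAt (ffPlaceAt p) ρ hfl J

end Fermat.Agent.TW
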