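/-
P10 / G7 (helper2): function-model orders ("finite flat group schemes over `W`").

For a finite abelian group `X` with an action `act` of the inertia group, a MODEL is a
`W`-subalgebra of the ring of all functions `X → ℚ̄` which is finitely generated as a `W`-module,
consists of `I`-equivariant functions, separates the points of `X` and is stable under the
comultiplication `f ↦ ((x, y) ↦ f (x + y))`.  (The Hopf algebra `H` of the Prelude's `IsFlatAt`
gives such a model: the image of `H` in `Map(H(ℚ̄), ℚ̄)`.)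
This file: the structure, integrality of the values, the augmentation ideal, the order predicates
`OrdGE`/`OrdGT`, closure (restriction to a subgroup), the connected part and the Galois criterion.
-/
import Fermat.Agent.Lib.TW.Flat.BaseRing

set_option autoImplicit false

namespace Fermat.Agent.TW

open ValuationSubring Polynomial
open Fermat.Agent.S05Lib

local notation "Qb" => AlgebraicClosure ℚ
local notation "GQ" => (AlgebraicClosure ℚ ≃ₐ[ℚ] AlgebraicClosure ℚ)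

namespace FFPlace

variable (𝔓 : FFPlace)

lemma gt_sum {ι : Type*} (s : Finset ι) (f : ι → Qb) {c : ℚ} (h : ∀ i ∈ s, 𝔓.v.Gt (f i) c) :
    𝔓.v.Gt (∑ i ∈ s, f i) c := by
  classical
  induction s using Finset.induction_on with
  | empty => simpa using QVal.gt_zero'
  | insert a s ha ih =>
    rw [Finset.sum_insert ha]
    exact (h a (Finset.mem_insert_self a s)).add (ih (fun i hi => h i (Finset.mem_insert_of_mem hi)))

/-- elements integral over `W` are integral at `P` -/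
theorem ge_zero_of_isIntegral_W {y : Qb} (h : IsIntegral 𝔓.W y) : 𝔓.v.Ge y 0 := by
  classical
  obtain ⟨g, hmon, hg⟩ := h
  rcases 𝔓.v.lt_or_ge y 0 with hlt | hge
  swap
  · exact hge
  exfalso
  have hy0 : y ≠ 0 := hlt.1
  set n := g.natDegree with hn
  rw [eval₂_eq_sum_range, Finset.sum_range_succ, ← hn] at hg
  have hlead : algebraMap 𝔓.W Qb (g.coeff n) = 1 := by
    rw [hn, ← Polynomial.leadingCoeff, hmon.leadingCoeff, map_one]
  rw [hlead, one_mul] at hg
  have htop : 𝔓.v.Is (y ^ n) (n * 𝔓.v.ord y) := (QVal.is_ord hy0).pow n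
  have hrest : 𝔓.v.Gt (∑ i ∈ Finset.range n, algebraMap 𝔓.W Qb (g.coeff i) * y ^ i)
      (n * 𝔓.v.ord y) := by
    have hall : ∀ i ∈ Finset.range n,
        𝔓.v.Gt (algebraMap 𝔓.W Qb (g.coeff i) * y ^ i) (n * 𝔓.v.ord y) := by
      intro i hi
      have hi' : i < n := Finset.mem_range.mp hi
      have hc : 𝔓.v.Ge (algebraMap 𝔓.W Qb (g.coeff i)) 0 :=
        ((𝔓.mem_W_iff _).mp (g.coeff i).2).1
      have hyi : 𝔓.v.Is (y ^ i) (i * 𝔓.v.ord y) := (QVal.is_ord hy0).pow i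
      have h1 := hc.mul hyi.ge
      rw [zero_add] at h1
      refine h1.gt ?_
      have hneg : 𝔓.v.ord y < 0 := hlt.2
      have : (i : ℚ) < n := by exact_mod_cast hi'
      nlinarith
    exact 𝔓.gt_sum _ _ hall
  have := htop.add_gt' hrest
  rw [hg] at this
  exact this.1 rfl

end FFPlace

/-- a function-model order on `X`: "a finite flat commutative group scheme over `W` with generic
fibre the `I`-module `X`" -/
structure FFModel (𝔓 : FFPlace) (X : Type*) [AddCommGroup X] (act : GQ → X →+ X) where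
  /-- the order -/
  carrier : Subalgebra 𝔓.W (X → Qb)
  equivariant : ∀ f ∈ carrier, ∀ σ ∈ 𝔓.I, ∀ x, f (act σ x) = σ (f x)
  fg : carrier.toSubmodule.FG
  separates : ∀ x y : X, x ≠ y → ∃ f ∈ carrier, f x ≠ f y
  comul : ∀ f ∈ carrier, ∃ (n : ℕ) (g h : Fin n → (X → Qb)), (∀ i, g i ∈ carrier) ∧
    (∀ i, h i ∈ carrier) ∧ ∀ x y, f (x + y) = ∑ i, g i x * h i y

namespace FFModel

variable {𝔓 : FFPlace} {X : Type*} [AddCommGroup X] {act : GQ → X →+ X} (M : FFModel 𝔓 X act)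

/-- values of the functions of a model are integral -/
theorem ge_zero {f : X → Qb} (hf : f ∈ M.carrier) (x : X) : 𝔓.v.Ge (f x) 0 := by
  have h1 : IsIntegral 𝔓.W f := IsIntegral.of_mem_of_fg M.carrier M.fg f hf
  have h2 : IsIntegral 𝔓.W (Pi.evalAlgHom 𝔓.W (fun _ : X => Qb) x f) := h1.map _
  exact 𝔓.ge_zero_of_isIntegral_W h2

/-- constants from `W` -/
lemma const_mem {w : Qb} (hw : w ∈ 𝔓.W) : (fun _ : X => w) ∈ M.carrier := by
  have := M.carrier.algebraMap_mem ⟨w, hw⟩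
  exact this

/-- the value at `0` lies in `W` -/
lemma eval_zero_mem_W {f : X → Qb} (hf : f ∈ M.carrier) : f 0 ∈ 𝔓.W := by
  rw [FFPlace.mem_W_iff]
  refine ⟨M.ge_zero hf 0, fun σ hσ => ?_⟩
  rw [← M.equivariant f hf σ hσ 0, map_zero]

/-- subtracting the value at `0` -/
lemma sub_eval_zero_mem {f : X → Qb} (hf : f ∈ M.carrier) : (fun x => f x - f 0) ∈ M.carrier := by
  have := M.carrier.sub_mem hf (M.const_mem (M.eval_zero_mem_W hf))
  exact this

/-- comultiplication on the augmentation ideal -/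
theorem comul_aug {f : X → Qb} (hf : f ∈ M.carrier) (hf0 : f 0 = 0) :
    ∃ (n : ℕ) (g h : Fin n → (X → Qb)), (∀ i, g i ∈ M.carrier ∧ g i 0 = 0) ∧
      (∀ i, h i ∈ M.carrier ∧ h i 0 = 0) ∧
      ∀ x y, f (x + y) = f x + f y + ∑ i, g i x * h i y := by
  obtain ⟨n, g, h, hg, hh, hgh⟩ := M.comul f hf
  refine ⟨n, fun i x => g i x - g i 0, fun i x => h i x - h i 0,
    fun i => ⟨M.sub_eval_zero_mem (hg i), sub_self _⟩,
    fun i => ⟨M.sub_eval_zero_mem (hh i), sub_self _⟩, fun x y => ?_⟩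
  have hx := hgh x 0
  have hy := hgh 0 y
  have h0 := hgh 0 0
  rw [add_zero] at hx h0
  rw [zero_add] at hy
  rw [hgh x y, hx, hy]
  rw [hf0] at h0
  simp only [sub_mul, mul_sub, Finset.sum_sub_distrib]
  rw [← h0]; ring

/-- `ord y ≥ s` in the model -/
def OrdGE (y : X) (s : ℚ) : Prop := ∀ f ∈ M.carrier, f 0 = 0 → 𝔓.v.Ge (f y) s

/-- `ord y > s` in the model -/
def OrdGT (y : X) (s : ℚ) : Prop := ∀ f ∈ M.carrier, f 0 = 0 → 𝔓.v.Gt (f y) s

variable {M}

lemma OrdGT.ge {y : X} {s : ℚ} (h : M.OrdGT y s) : M.OrdGE y s := fun f hf hf0 => (h f hf hf0).ge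

lemma OrdGE.mono {y : X} {s t : ℚ} (h : M.OrdGE y s) (hts : t ≤ s) : M.OrdGE y t :=
  fun f hf hf0 => (h f hf hf0).mono hts

lemma OrdGE.gt {y : X} {s t : ℚ} (h : M.OrdGE y s) (hts : t < s) : M.OrdGT y t :=
  fun f hf hf0 => (h f hf hf0).gt hts

lemma ordGE_zero_right (y : X) : M.OrdGE y 0 := fun _ hf _ => M.ge_zero hf y

lemma ordGE_zero (s : ℚ) : M.OrdGE (0 : X) s := fun _ _ hf0 => Or.inl hf0

lemma ordGT_zero (s : ℚ) : M.OrdGT (0 : X) s := fun _ _ hf0 => Or.inl hf0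

/-- a point all of whose coordinates vanish is `0` -/
lemma eq_zero_of_forall {y : X} (h : ∀ f ∈ M.carrier, f 0 = 0 → f y = 0) : y = 0 := by
  by_contra hy
  obtain ⟨f, hf, hne⟩ := M.separates y 0 hy
  have := h _ (M.sub_eval_zero_mem hf) (sub_self _)
  exact hne (sub_eq_zero.mp this)

/-- additivity of the leading terms ("jets") -/
theorem jet_add {y y' : X} {s : ℚ} (hy : M.OrdGE y s) (hy' : M.OrdGE y' s) {f : X → Qb}
    (hf : f ∈ M.carrier) (hf0 : f 0 = 0) : 𝔓.v.Ge (f (y + y') - f y - f y') (2 * s) := by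
  obtain ⟨n, g, h, hg, hh, hgh⟩ := M.comul_aug hf hf0
  rw [hgh y y']
  have : f y + f y' + ∑ i, g i y * h i y' - f y - f y' = ∑ i, g i y * h i y' := by ring
  rw [this]
  refine 𝔓.ge_zero_sum _ _ (fun i _ => ?_)
  have := (hy _ (hg i).1 (hg i).2).mul (hy' _ (hh i).1 (hh i).2)
  rwa [← two_mul] at this

lemma OrdGE.add {y y' : X} {s : ℚ} (hs : 0 ≤ s) (hy : M.OrdGE y s) (hy' : M.OrdGE y' s) :
    M.OrdGE (y + y') s := by
  intro f hf hf0
  have h1 := jet_add hy hy' hf hf0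
  have h2 : f (y + y') = (f (y + y') - f y - f y') + (f y + f y') := by ring
  rw [h2]
  exact (h1.mono (by linarith)).add ((hy f hf hf0).add (hy' f hf hf0))

lemma OrdGT.add {y y' : X} {s : ℚ} (hy : M.OrdGT y s) (hy' : M.OrdGT y' s) :
    M.OrdGT (y + y') s := by
  intro f hf hf0
  obtain ⟨n, g, h, hg, hh, hgh⟩ := M.comul_aug hf hf0
  rw [hgh y y']
  refine ((hy f hf hf0).add (hy' f hf hf0)).add ?_
  -- the cross terms
  have : ∀ i ∈ (Finset.univ : Finset (Fin n)), 𝔓.v.Gt (g i y * h i y') s := by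
    intro i _
    have := (hy _ (hg i).1 (hg i).2).mul_ge (M.ge_zero (hh i).1 y')
    rwa [add_zero] at this
  exact 𝔓.gt_sum _ _ this

lemma OrdGE.act_mem {y : X} {s : ℚ} (hy : M.OrdGE y s) {σ : GQ} (hσ : σ ∈ 𝔓.I) :
    M.OrdGE (act σ y) s := by
  intro f hf hf0
  rw [M.equivariant f hf σ hσ]
  exact 𝔓.ge_D (𝔓.I_le_D hσ) (hy f hf hf0)

lemma OrdGT.act_mem {y : X} {s : ℚ} (hy : M.OrdGT y s) {σ : GQ} (hσ : σ ∈ 𝔓.I) :
    M.OrdGT (act σ y) s := by
  intro f hf hf0
  rw [M.equivariant f hf σ hσ]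
  exact 𝔓.gt_D (𝔓.I_le_D hσ) (hy f hf hf0)

/-- **Galois criterion.** If `τ ∈ I` moves all coordinates of `y` by at least `c`, then
`ord (τ y - y) ≥ c`. -/
theorem ordGE_act_sub {y : X} {τ : GQ} (hτ : τ ∈ 𝔓.I) {c : ℚ}
    (h : ∀ f ∈ M.carrier, 𝔓.v.Ge (τ (f y) - f y) c) : M.OrdGE (act τ y - y) c := by
  intro f hf hf0
  obtain ⟨n, g, k, hg, hk, hgk⟩ := M.comul f hf
  have h1 := hgk (act τ y) (-y)
  have h2 := hgk y (-y)
  rw [add_neg_cancel, hf0] at h2
  rw [sub_eq_add_neg, h1]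
  have : ∑ i, g i (act τ y) * k i (-y) = ∑ i, (τ (g i y) - g i y) * k i (-y) := by
    rw [← sub_zero (∑ i, g i (act τ y) * k i (-y)), h2, ← Finset.sum_sub_distrib]
    refine Finset.sum_congr rfl (fun i _ => ?_)
    rw [M.equivariant _ (hg i) τ hτ]; ring
  rw [this]
  refine 𝔓.ge_zero_sum _ _ (fun i _ => ?_)
  have := (h _ (hg i)).mul (M.ge_zero (hk i) (-y))
  rwa [add_zero] at this

/-- inertia acts trivially modulo the connected part -/
theorem ordGT_act_sub (y : X) {τ : GQ} (hτ : τ ∈ 𝔓.I) : M.OrdGT (act τ y - y) 0 := by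
  intro f hf hf0
  obtain ⟨n, g, k, hg, hk, hgk⟩ := M.comul f hf
  have h1 := hgk (act τ y) (-y)
  have h2 := hgk y (-y)
  rw [add_neg_cancel, hf0] at h2
  rw [sub_eq_add_neg, h1]
  have : ∑ i, g i (act τ y) * k i (-y) = ∑ i, (τ (g i y) - g i y) * k i (-y) := by
    rw [← sub_zero (∑ i, g i (act τ y) * k i (-y)), h2, ← Finset.sum_sub_distrib]
    refine Finset.sum_congr rfl (fun i _ => ?_)
    rw [M.equivariant _ (hg i) τ hτ]; ring
  rw [this]
  have hall : ∀ i ∈ (Finset.univ : Finset (Fin n)),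
      𝔓.v.Gt ((τ (g i y) - g i y) * k i (-y)) 0 := by
    intro i _
    have := (𝔓.gt_I_sub hτ (M.ge_zero (hg i) y)).mul_ge (M.ge_zero (hk i) (-y))
    rwa [add_zero] at this
  exact 𝔓.gt_sum _ _ hall

/-! ### Consequences of separation -/

lemma act_act_inv (M : FFModel 𝔓 X act) {σ : GQ} (hσ : σ ∈ 𝔓.I) (x : X) :
    act σ (act σ⁻¹ x) = x := by
  by_contra hne
  obtain ⟨f, hf, hfne⟩ := M.separates _ _ hne
  apply hfne
  rw [M.equivariant f hf σ hσ, M.equivariant f hf σ⁻¹ (𝔓.I.inv_mem hσ)]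
  simp

lemma act_inv_act (M : FFModel 𝔓 X act) {σ : GQ} (hσ : σ ∈ 𝔓.I) (x : X) :
    act σ⁻¹ (act σ x) = x := by
  have := M.act_act_inv (𝔓.I.inv_mem hσ) x
  rwa [inv_inv] at this

/-! ### Closure: restriction along an injective equivariant homomorphism -/

/-- pull-back of functions as an algebra homomorphism -/
noncomputable def ffPull (𝔓 : FFPlace) {X Y : Type*} (ι : Y → X) : (X → Qb) →ₐ[𝔓.W] (Y → Qb) where
  toFun f := f ∘ ι
  map_one' := rfl
  map_mul' _ _ := rfl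
  map_zero' := rfl
  map_add' _ _ := rfl
  commutes' _ := rfl

@[simp] lemma ffPull_apply (𝔓 : FFPlace) {X Y : Type*} (ι : Y → X) (f : X → Qb) (y : Y) :
    ffPull 𝔓 ι f y = f (ι y) := rfl

variable (M) in
/-- the closure of a subgroup (more generally: restriction along an injective equivariant
homomorphism) -/
noncomputable def comap {Y : Type*} [AddCommGroup Y] {actY : GQ → Y →+ Y} (ι : Y →+ X)
    (hι : Function.Injective ι) (hact : ∀ σ ∈ 𝔓.I, ∀ y, ι (actY σ y) = act σ (ι y)) :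
    FFModel 𝔓 Y actY where
  carrier := M.carrier.map (ffPull 𝔓 ι)
  equivariant := by
    rintro _ ⟨f, hf, rfl⟩ σ hσ y
    change f (ι (actY σ y)) = σ (f (ι y))
    rw [hact σ hσ, M.equivariant f hf σ hσ]
  fg := by
    have := M.fg.map (ffPull 𝔓 (X := X) ι).toLinearMap
    exact this
  separates := by
    intro x y hxy
    obtain ⟨f, hf, hne⟩ := M.separates (ι x) (ι y) (fun h => hxy (hι h))
    exact ⟨ffPull 𝔓 ι f, ⟨f, hf, rfl⟩, hne⟩
  comul := by
    rintro _ ⟨f, hf, rfl⟩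
    obtain ⟨n, g, h, hg, hh, hgh⟩ := M.comul f hf
    refine ⟨n, fun i => ffPull 𝔓 ι (g i), fun i => ffPull 𝔓 ι (h i),
      fun i => ⟨g i, hg i, rfl⟩, fun i => ⟨h i, hh i, rfl⟩, fun x y => ?_⟩
    change f (ι (x + y)) = _
    rw [map_add, hgh]
    rfl

lemma mem_comap_carrier {Y : Type*} [AddCommGroup Y] {actY : GQ → Y →+ Y} (ι : Y →+ X)
    (hι : Function.Injective ι) (hact : ∀ σ ∈ 𝔓.I, ∀ y, ι (actY σ y) = act σ (ι y))
    (f' : Y → Qb) :
    f' ∈ (M.comap ι hι hact).carrier ↔ ∃ f ∈ M.carrier, f ∘ ι = f' := Iff.rfl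

/-- the order of a point does not change in a closure -/
lemma ordGE_comap_iff {Y : Type*} [AddCommGroup Y] {actY : GQ → Y →+ Y} (ι : Y →+ X)
    (hι : Function.Injective ι) (hact : ∀ σ ∈ 𝔓.I, ∀ y, ι (actY σ y) = act σ (ι y))
    (y : Y) (s : ℚ) : (M.comap ι hι hact).OrdGE y s ↔ M.OrdGE (ι y) s := by
  constructor
  · intro h f hf hf0
    exact h (f ∘ ι) ⟨f, hf, rfl⟩ (by simp [hf0])
  · rintro h _ ⟨f, hf, rfl⟩ hf0
    have hf0' : f 0 = 0 := by simpa using hf0
    exact h f hf hf0'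

lemma ordGT_comap_iff {Y : Type*} [AddCommGroup Y] {actY : GQ → Y →+ Y} (ι : Y →+ X)
    (hι : Function.Injective ι) (hact : ∀ σ ∈ 𝔓.I, ∀ y, ι (actY σ y) = act σ (ι y))
    (y : Y) (s : ℚ) : (M.comap ι hι hact).OrdGT y s ↔ M.OrdGT (ι y) s := by
  constructor
  · intro h f hf hf0
    exact h (f ∘ ι) ⟨f, hf, rfl⟩ (by simp [hf0])
  · rintro h _ ⟨f, hf, rfl⟩ hf0
    have hf0' : f 0 = 0 := by simpa using hf0
    exact h f hf hf0'

end FFModel

end Fermat.Agent.TW
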