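/-
P10 / G7 (helper2): function-model orders are free `W`-modules; Galois descent:
`W`-linearly independent `I`-equivariant functions are `ℚ̄`-linearly independent; independence
of products on `X × X` and on `X^m`; the descent lemma (`ℚ̄`-integral combinations of elements
of an order which are equivariant belong to the order).
-/
import Fermat.Agent.Lib.TW.Flat.Model

set_option autoImplicit false

namespace Fermat.Agent.TW

open ValuationSubring Polynomial
open Fermat.Agent.S05Lib

local notation "Qb" => AlgebraicClosure ℚ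
local notation "GQ" => (AlgebraicClosure ℚ ≃ₐ[ℚ] AlgebraicClosure ℚ)

namespace FFPlace

variable (𝔓 : FFPlace)

/-- clearing the denominator of an element of `K0` -/
lemma exists_pow_mul_mem_W {x : Qb} (hx : x ∈ 𝔓.K0) :
    ∃ m : ℕ, ∀ k : ℕ, m ≤ k → (𝔓.p : Qb) ^ k * x ∈ 𝔓.W := by
  by_cases hx0 : x = 0
  · exact ⟨0, fun k _ => by rw [hx0, mul_zero]; exact 𝔓.W.zero_mem⟩
  obtain ⟨m, hm⟩ : ∃ m : ℕ, -𝔓.v.ord x ≤ m := exists_nat_ge _
  refine ⟨m, fun k hk => ?_⟩
  rw [mem_W_iff]
  refine ⟨?_, fun σ hσ => ?_⟩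
  · have h1 := (𝔓.is_p_pow k).mul (QVal.is_ord (v := 𝔓.v) hx0)
    refine h1.ge' ?_
    have : (m : ℚ) ≤ k := by exact_mod_cast hk
    linarith
  · rw [map_mul, map_pow, map_natCast, (𝔓.mem_K0_iff x).mp hx σ hσ]

/-- clearing the denominators of finitely many elements of `K0` -/
lemma exists_pow_mul_mem_W_finset {ι : Type*} (s : Finset ι) (c : ι → Qb)
    (hc : ∀ i ∈ s, c i ∈ 𝔓.K0) : ∃ m : ℕ, ∀ i ∈ s, (𝔓.p : Qb) ^ m * c i ∈ 𝔓.W := by
  classical
  induction s using Finset.induction_on with
  | empty => exact ⟨0, fun i hi => absurd hi (Finset.notMem_empty i)⟩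
  | insert a s ha ih =>
    obtain ⟨m₁, h₁⟩ := ih (fun i hi => hc i (Finset.mem_insert_of_mem hi))
    obtain ⟨m₂, h₂⟩ := 𝔓.exists_pow_mul_mem_W (hc a (Finset.mem_insert_self a s))
    refine ⟨m₁ + m₂, fun i hi => ?_⟩
    rcases Finset.mem_insert.mp hi with rfl | hi
    · exact h₂ _ (Nat.le_add_left _ _)
    · have := 𝔓.W.mul_mem (𝔓.W.pow_mem (𝔓.natCast_mem_W 𝔓.p) m₂) (h₁ i hi)
      rwa [← mul_assoc, ← pow_add, add_comm] at this

/-- **Galois descent.** `W`-linearly independent `I`-equivariant functions are linearly independent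
over `ℚ̄`. -/
theorem linearIndependent_of_equivariant {X : Type*} (act : GQ → X → X) {ι : Type*}
    (f : ι → X → Qb) (hf : ∀ i, ∀ σ ∈ 𝔓.I, ∀ x, f i (act σ x) = σ (f i x))
    (hind : LinearIndependent 𝔓.W f) : LinearIndependent Qb f := by
  classical
  rw [linearIndependent_iff']
  -- strong induction on the size of the support
  suffices H : ∀ n : ℕ, ∀ s : Finset ι, s.card = n → ∀ g : ι → Qb,
      ∑ i ∈ s, g i • f i = 0 → ∀ i ∈ s, g i = 0 from fun s g hg => H s.card s rfl g hg
  intro n
  induction n using Nat.strong_induction_on with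
  | _ n IH =>
  intro s hs g hg
  by_contra hcon
  push Not at hcon
  obtain ⟨i₀, hi₀, hgi₀⟩ := hcon
  -- normalise
  set c : ι → Qb := fun i => g i / g i₀ with hc
  have hci₀ : c i₀ = 1 := div_self hgi₀
  have hcsum : ∑ i ∈ s, c i • f i = 0 := by
    have : ∑ i ∈ s, c i • f i = (g i₀)⁻¹ • ∑ i ∈ s, g i • f i := by
      rw [Finset.smul_sum]
      refine Finset.sum_congr rfl (fun i _ => ?_)
      rw [smul_smul, hc]; congr 1; field_simp
    rw [this, hg, smul_zero]
  -- the conjugate relation
  have hconj : ∀ τ ∈ 𝔓.I, ∑ i ∈ s, τ (c i) • f i = 0 := by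
    intro τ hτ
    funext x
    have h1 := congrFun hcsum (act τ⁻¹ x)
    simp only [Finset.sum_apply, Pi.smul_apply, smul_eq_mul, Pi.zero_apply] at h1 ⊢
    have h2 : ∑ i ∈ s, c i * τ⁻¹ (f i x) = 0 := by
      rw [← h1]
      refine Finset.sum_congr rfl (fun i _ => ?_)
      rw [hf i τ⁻¹ (𝔓.I.inv_mem hτ)]
    have h3 := congrArg τ h2
    rw [map_sum, map_zero] at h3
    rw [← h3]
    refine Finset.sum_congr rfl (fun i _ => ?_)
    rw [map_mul]
    congr 1
    rw [← AlgEquiv.mul_apply, mul_inv_cancel, AlgEquiv.one_apply]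
  -- the coefficients are fixed by inertia
  have hfix : ∀ i ∈ s, c i ∈ 𝔓.K0 := by
    intro i hi
    rw [mem_K0_iff]
    intro τ hτ
    have hdiff : ∑ j ∈ s.erase i₀, (τ (c j) - c j) • f j = 0 := by
      have h1 : ∑ j ∈ s, (τ (c j) - c j) • f j = 0 := by
        simp only [sub_smul, Finset.sum_sub_distrib, hconj τ hτ, hcsum, sub_self]
      rw [← Finset.add_sum_erase s _ hi₀] at h1
      rw [hci₀, map_one, sub_self, zero_smul, zero_add] at h1
      exact h1
    have hcard : (s.erase i₀).card < n := by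
      rw [Finset.card_erase_of_mem hi₀, hs]
      exact Nat.sub_lt (hs ▸ Finset.card_pos.mpr ⟨i₀, hi₀⟩) one_pos
    have hz := IH _ hcard (s.erase i₀) rfl (fun j => τ (c j) - c j) hdiff
    by_cases hii : i = i₀
    · rw [hii, hci₀, map_one]
    · exact sub_eq_zero.mp (hz i (Finset.mem_erase.mpr ⟨hii, hi⟩))
  obtain ⟨m, hm⟩ := 𝔓.exists_pow_mul_mem_W_finset s c hfix
  have hW := linearIndependent_iff'.mp hind s
    (fun i => if h : i ∈ s then ⟨(𝔓.p : Qb) ^ m * c i, hm i h⟩ else 0) (by
      have : ∑ i ∈ s, ((𝔓.p : Qb) ^ m * c i) • f i = 0 := by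
        have : ∑ i ∈ s, ((𝔓.p : Qb) ^ m * c i) • f i = (𝔓.p : Qb) ^ m • ∑ i ∈ s, c i • f i := by
          rw [Finset.smul_sum]
          exact Finset.sum_congr rfl (fun i _ => by rw [smul_smul])
        rw [this, hcsum, smul_zero]
      rw [← this]
      refine Finset.sum_congr rfl (fun i hi => ?_)
      rw [dif_pos hi]
      rfl) i₀ hi₀
  rw [dif_pos hi₀] at hW
  have : (𝔓.p : Qb) ^ m * c i₀ = 0 := congrArg Subtype.val hW
  rw [hci₀, mul_one] at this
  exact pow_ne_zero m 𝔓.p_ne_zero this

/-- finitely generated `W`-modules of functions are free -/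
theorem Unr.exists_basis_of_fg (hU : 𝔓.Unr) {X : Type*} (N : Submodule 𝔓.W (X → Qb))
    (hN : N.FG) : ∃ (n : ℕ) (e : Fin n → X → Qb), (∀ i, e i ∈ N) ∧ LinearIndependent 𝔓.W e ∧
      Submodule.span 𝔓.W (Set.range e) = N := by
  have := hU.isPrincipalIdealRing
  have : Module.Finite 𝔓.W N := Module.Finite.iff_fg.mpr hN
  have : Module.Free 𝔓.W N := Module.free_of_finite_type_torsion_free'
  let b := Module.Free.chooseBasis 𝔓.W N
  have : Fintype (Module.Free.ChooseBasisIndex 𝔓.W N) := Module.Free.ChooseBasisIndex.fintype _ _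
  let eqv := Fintype.equivFin (Module.Free.ChooseBasisIndex 𝔓.W N)
  let b' := b.reindex eqv
  refine ⟨_, fun i => (b' i : X → Qb), fun i => (b' i).2, ?_, ?_⟩
  · have := b'.linearIndependent.map' N.subtype (Submodule.ker_subtype N)
    exact this
  · have h1 : Set.range (fun i => (b' i : X → Qb)) = N.subtype '' Set.range b' := by
      rw [← Set.range_comp]; rfl
    rw [h1, Submodule.span_image, b'.span_eq, Submodule.map_top, Submodule.range_subtype]

end FFPlace

/-- products of independent functions are independent -/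
theorem ff_indep_pi {K : Type*} [Field K] {X ι : Type*} [Fintype ι] (e : ι → X → K)
    (he : LinearIndependent K e) : ∀ (m : ℕ) (g : (Fin m → ι) → K),
      (∀ x : Fin m → X, ∑ J : Fin m → ι, g J * ∏ k, e (J k) (x k) = 0) → ∀ J, g J = 0 := by
  classical
  intro m
  induction m with
  | zero =>
    intro g hg J
    have := hg (fun k => k.elim0)
    rw [Fintype.sum_eq_single J (fun J' hJ' => absurd (Subsingleton.elim _ _) hJ')] at this
    simpa using this
  | succ m ih =>
    intro g hg J₀
    have key : ∀ j : ι, ∀ x' : Fin m → X,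
        ∑ J' : Fin m → ι, g (Fin.cons j J') * ∏ k, e (J' k) (x' k) = 0 := by
      intro j x'
      have hlin := Fintype.linearIndependent_iff.mp he
        (fun j => ∑ J' : Fin m → ι, g (Fin.cons j J') * ∏ k, e (J' k) (x' k)) ?_ j
      · exact hlin
      funext x₀
      have h1 := hg (Fin.cons x₀ x')
      rw [← (Fin.consEquiv (fun _ => ι)).sum_comp, Fintype.sum_prod_type] at h1
      simp only [Finset.sum_apply, Pi.smul_apply, smul_eq_mul, Pi.zero_apply]
      rw [← h1]
      refine Finset.sum_congr rfl (fun j _ => ?_)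
      rw [Finset.sum_mul]
      refine Finset.sum_congr rfl (fun J' _ => ?_)
      have hce : (Fin.consEquiv fun _ => ι) (j, J') = Fin.cons j J' := by
        funext i; rw [Fin.consEquiv_apply]
      rw [hce, Fin.prod_univ_succ]
      simp only [Fin.cons_zero, Fin.cons_succ]
      ring
    have := ih (fun J' => g (Fin.cons (J₀ 0) J')) (key (J₀ 0)) (Fin.tail J₀)
    rwa [Fin.cons_self_tail] at this

/-- two-variable version -/
theorem ff_indep_two {K : Type*} [Field K] {X ι : Type*} [Fintype ι] (e : ι → X → K)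
    (he : LinearIndependent K e) (g : ι → ι → K)
    (hg : ∀ x y : X, ∑ i, ∑ j, g i j * (e i x * e j y) = 0) : ∀ i j, g i j = 0 := by
  classical
  intro i j
  have h1 : ∀ y : X, ∀ i, ∑ j, g i j * e j y = 0 := by
    intro y
    refine Fintype.linearIndependent_iff.mp he (fun i => ∑ j, g i j * e j y) ?_
    funext x
    simp only [Finset.sum_apply, Pi.smul_apply, smul_eq_mul, Pi.zero_apply]
    rw [← hg x y]
    refine Finset.sum_congr rfl (fun i _ => ?_)
    rw [Finset.sum_mul]
    exact Finset.sum_congr rfl (fun j _ => by ring)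
  refine Fintype.linearIndependent_iff.mp he (fun j => g i j) ?_ j
  funext y
  simp only [Finset.sum_apply, Pi.smul_apply, smul_eq_mul, Pi.zero_apply]
  exact h1 y i

/-- the augmented family `(1, u₁, …, u_r)` -/
noncomputable def ffAugFam {X : Type*} {r : ℕ} (u : Fin r → X → Qb) :
    Option (Fin r) → X → Qb :=
  fun j => j.elim 1 u

@[simp] lemma ffAugFam_none {X : Type*} {r : ℕ} (u : Fin r → X → Qb) :
    ffAugFam u none = 1 := rfl

@[simp] lemma ffAugFam_some {X : Type*} {r : ℕ} (u : Fin r → X → Qb) (i : Fin r) :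
    ffAugFam u (some i) = u i := rfl

namespace FFModel

variable {𝔓 : FFPlace} {X : Type*} [AddCommGroup X] {act : GQ → X →+ X} (M : FFModel 𝔓 X act)

/-- the augmentation ideal, as a `W`-submodule of the module of all functions -/
def aug : Submodule 𝔓.W (X → Qb) where
  carrier := {f | f ∈ M.carrier ∧ f 0 = 0}
  add_mem' := by
    rintro f g ⟨hf, hf0⟩ ⟨hg, hg0⟩
    exact ⟨M.carrier.add_mem hf hg, by simp [hf0, hg0]⟩
  zero_mem' := ⟨M.carrier.zero_mem, rfl⟩
  smul_mem' := by
    rintro c f ⟨hf, hf0⟩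
    refine ⟨M.carrier.smul_mem hf c, ?_⟩
    rw [Pi.smul_apply, hf0, smul_zero]

lemma mem_aug {f : X → Qb} : f ∈ M.aug ↔ f ∈ M.carrier ∧ f 0 = 0 := Iff.rfl

/-- `f ↦ f - f(0)` -/
noncomputable def ffSubZero (𝔓 : FFPlace) (X : Type*) [AddCommGroup X] :
    (X → Qb) →ₗ[𝔓.W] (X → Qb) where
  toFun f := fun x => f x - f 0
  map_add' f g := by funext x; simp only [Pi.add_apply]; ring
  map_smul' c f := by
    funext x
    simp only [Pi.smul_apply, RingHom.id_apply, smul_sub]

lemma aug_eq_map : M.aug = M.carrier.toSubmodule.map (ffSubZero 𝔓 X) := by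
  ext f
  constructor
  · rintro ⟨hf, hf0⟩
    refine ⟨f, hf, ?_⟩
    funext x
    change f x - f 0 = f x
    rw [hf0, sub_zero]
  · rintro ⟨g, hg, rfl⟩
    exact ⟨M.sub_eval_zero_mem hg, sub_self _⟩

lemma aug_fg : M.aug.FG := by
  rw [aug_eq_map]
  exact M.fg.map _

/-- an augmented basis of a model: a `W`-basis `u` of the augmentation ideal; together with `1`
it is a `W`-basis of the model, and it is linearly independent over `ℚ̄`. -/
structure AugBasis (r : ℕ) (u : Fin r → X → Qb) : Prop where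
  mem : ∀ i, u i ∈ M.carrier
  zero : ∀ i, u i 0 = 0
  indep : LinearIndependent Qb (ffAugFam u)
  span : ∀ f ∈ M.carrier, ∃ c : Option (Fin r) → Qb, (∀ j, c j ∈ 𝔓.W) ∧
    f = ∑ j, c j • ffAugFam u j

theorem exists_augBasis (hU : 𝔓.Unr) : ∃ (r : ℕ) (u : Fin r → X → Qb), M.AugBasis r u := by
  classical
  obtain ⟨r, u, hu, hind, hspan⟩ := FFPlace.Unr.exists_basis_of_fg 𝔓 hU M.aug M.aug_fg
  refine ⟨r, u, fun i => (hu i).1, fun i => (hu i).2, ?_, ?_⟩
  · refine 𝔓.linearIndependent_of_equivariant (fun σ => act σ) (ffAugFam u) ?_ ?_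
    · rintro (_ | i) σ hσ x
      · simp
      · exact M.equivariant _ (hu i).1 σ hσ x
    · rw [Fintype.linearIndependent_iff]
      intro g hg
      rw [Fintype.sum_option] at hg
      have h0 : g none = 0 := by
        have := congrFun hg 0
        simp only [ffAugFam_none, ffAugFam_some, Pi.add_apply, Pi.smul_apply, Pi.one_apply,
          Finset.sum_apply, Pi.zero_apply, (hu _).2, smul_zero, Finset.sum_const_zero,
          add_zero] at this
        have h2 : ((g none : 𝔓.W) : Qb) * 1 = 0 := this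
        rw [mul_one] at h2
        exact Subtype.ext h2
      rw [h0, zero_smul, zero_add] at hg
      have h1 := Fintype.linearIndependent_iff.mp hind (fun i => g (some i)) hg
      rintro (_ | i)
      · exact h0
      · exact h1 i
  · intro f hf
    have hmem : (fun x => f x - f 0) ∈ M.aug := ⟨M.sub_eval_zero_mem hf, sub_self _⟩
    rw [← hspan, Submodule.mem_span_range_iff_exists_fun] at hmem
    obtain ⟨c, hc⟩ := hmem
    refine ⟨fun j => j.elim (f 0) (fun i => (c i : Qb)), ?_, ?_⟩
    · rintro (_ | i)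
      · exact M.eval_zero_mem_W hf
      · exact (c i).2
    · rw [Fintype.sum_option]
      funext x
      have := congrFun hc x
      simp only [Finset.sum_apply, Pi.smul_apply] at this
      simp only [Option.elim_none, Option.elim_some, ffAugFam_none, ffAugFam_some, Pi.add_apply,
        Pi.smul_apply, Pi.one_apply, Finset.sum_apply, smul_eq_mul, mul_one]
      have h3 : ∑ i, (c i : Qb) * u i x = f x - f 0 := by
        rw [← this]
        exact Finset.sum_congr rfl (fun i _ => rfl)
      rw [h3]; ring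

/-- the `m`-fold comultiplication in coordinates -/
theorem exists_expansion {ι : Type*} [Fintype ι] (E : ι → X → Qb)
    (hspan : ∀ f ∈ M.carrier, ∃ c : ι → Qb, (∀ j, c j ∈ 𝔓.W) ∧ f = ∑ j, c j • E j) :
    ∀ (m : ℕ), ∀ f ∈ M.carrier, ∃ c : (Fin m → ι) → Qb, (∀ J, c J ∈ 𝔓.W) ∧
      ∀ x : Fin m → X, f (∑ k, x k) = ∑ J, c J * ∏ k, E (J k) (x k) := by
  classical
  intro m
  induction m with
  | zero =>
    intro f hf
    refine ⟨fun _ => f 0, fun _ => M.eval_zero_mem_W hf, fun x => ?_⟩
    simp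
  | succ m ih =>
    intro f hf
    obtain ⟨n, g, h, hg, hh, hgh⟩ := M.comul f hf
    choose a ha hga using fun i => hspan (g i) (hg i)
    choose c hc hhc using fun i => ih (h i) (hh i)
    refine ⟨fun J => ∑ i, a i (J 0) * c i (Fin.tail J), fun J => ?_, fun x => ?_⟩
    · exact 𝔓.W.sum_mem (fun i _ => 𝔓.W.mul_mem (ha i _) (hc i _))
    · rw [Fin.sum_univ_succ, hgh]
      rw [← (Fin.consEquiv (fun _ => ι)).sum_comp, Fintype.sum_prod_type]
      have h1 : ∀ i, g i (x 0) = ∑ j, a i j * E j (x 0) := by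
        intro i
        have := congrFun (hga i) (x 0)
        simpa using this
      simp_rw [h1, hhc, Finset.sum_mul, Finset.mul_sum]
      rw [Finset.sum_comm]
      refine Finset.sum_congr rfl (fun j _ => ?_)
      rw [Finset.sum_comm]
      refine Finset.sum_congr rfl (fun J' _ => ?_)
      have hce : (Fin.consEquiv fun _ => ι) (j, J') = Fin.cons j J' := by
        funext i; rw [Fin.consEquiv_apply]
      rw [hce, Fin.prod_univ_succ]
      refine Finset.sum_congr rfl (fun i _ => ?_)
      simp only [Fin.cons_zero, Fin.cons_succ, Fin.tail_cons]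
      ring

/-- the `P`-algebra generated by a model ("base change to the valuation ring of `ℚ̄`") -/
noncomputable def intHull : Subalgebra 𝔓.P.toSubring (X → Qb) :=
  Algebra.adjoin 𝔓.P.toSubring (M.carrier : Set (X → Qb))

lemma mem_intHull_of_mem {f : X → Qb} (hf : f ∈ M.carrier) : f ∈ M.intHull :=
  Algebra.subset_adjoin hf

lemma smul_mem_intHull {c : Qb} (hc : 𝔓.v.Ge c 0) {f : X → Qb} (hf : f ∈ M.intHull) :
    c • f ∈ M.intHull := by
  have hcP : c ∈ 𝔓.P.toSubring := (𝔓.mem_P_iff c).mpr hc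
  exact M.intHull.smul_mem hf (⟨c, hcP⟩ : 𝔓.P.toSubring)

/-- translates of elements of the model are in the integral hull -/
lemma translate_mem_intHull {f : X → Qb} (hf : f ∈ M.carrier) (n : X) :
    (fun x => f (x + n)) ∈ M.intHull := by
  obtain ⟨m, g, h, hg, hh, hgh⟩ := M.comul f hf
  have : (fun x => f (x + n)) = ∑ i, h i n • g i := by
    funext x
    rw [hgh x n]
    simp only [Finset.sum_apply, Pi.smul_apply, smul_eq_mul]
    exact Finset.sum_congr rfl (fun i _ => mul_comm _ _)
  rw [this]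
  exact M.intHull.sum_mem (fun i _ =>
    M.smul_mem_intHull (M.ge_zero (hh i) n) (M.mem_intHull_of_mem (hg i)))

variable {M}

/-- coordinates of elements of the integral hull -/
lemma AugBasis.coords_of_mem_intHull {r : ℕ} {u : Fin r → X → Qb} (B : M.AugBasis r u)
    {F : X → Qb} (hF : F ∈ M.intHull) :
    ∃ d : Option (Fin r) → Qb, (∀ j, 𝔓.v.Ge (d j) 0) ∧ F = ∑ j, d j • ffAugFam u j := by
  classical
  induction hF using Algebra.adjoin_induction with
  | mem f hf =>
    obtain ⟨c, hc, hfc⟩ := B.span f hf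
    exact ⟨c, fun j => ((𝔓.mem_W_iff _).mp (hc j)).1, hfc⟩
  | algebraMap c =>
    refine ⟨fun j => j.elim (c : Qb) (fun _ => 0), ?_, ?_⟩
    · rintro (_ | i)
      · exact (𝔓.mem_P_iff _).mp c.2
      · exact QVal.ge_zero'
    · rw [Fintype.sum_option]
      funext x
      simp [Algebra.algebraMap_eq_smul_one, Subring.smul_def]
  | add F G _ _ hF hG =>
    obtain ⟨d, hd, rfl⟩ := hF
    obtain ⟨d', hd', rfl⟩ := hG
    refine ⟨fun j => d j + d' j, fun j => (hd j).add (hd' j), ?_⟩
    simp only [add_smul, Finset.sum_add_distrib]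
  | mul F G _ _ hF hG =>
    obtain ⟨d, hd, rfl⟩ := hF
    obtain ⟨d', hd', rfl⟩ := hG
    have hmem : ∀ j k, ffAugFam u j * ffAugFam u k ∈ M.carrier := by
      have h1 : ∀ j, ffAugFam u j ∈ M.carrier := by
        rintro (_ | i)
        · exact M.carrier.one_mem
        · exact B.mem i
      exact fun j k => M.carrier.mul_mem (h1 j) (h1 k)
    choose w hw hwe using fun j k => B.span _ (hmem j k)
    refine ⟨fun l => ∑ j, ∑ k, d j * d' k * w j k l, fun l => ?_, ?_⟩
    · refine 𝔓.ge_zero_sum _ _ (fun j _ => 𝔓.ge_zero_sum _ _ (fun k _ => ?_))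
      have := ((hd j).mul (hd' k)).mul ((𝔓.mem_W_iff _).mp (hw j k l)).1
      simpa using this
    · rw [Finset.sum_mul_sum]
      have hjk : ∀ j k, (d j • ffAugFam u j) * (d' k • ffAugFam u k) =
          ∑ l, (d j * d' k * w j k l) • ffAugFam u l := by
        intro j k
        rw [smul_mul_smul_comm, hwe, Finset.smul_sum]
        exact Finset.sum_congr rfl (fun l _ => by rw [smul_smul])
      simp_rw [hjk, Finset.sum_smul]
      conv_rhs => rw [Finset.sum_comm]
      refine Finset.sum_congr rfl (fun j _ => ?_)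
      rw [Finset.sum_comm]

/-- **descent**: an equivariant element of the integral hull lies in the model -/
theorem mem_of_mem_intHull (hU : 𝔓.Unr) {F : X → Qb} (hF : F ∈ M.intHull)
    (heq : ∀ σ ∈ 𝔓.I, ∀ x, F (act σ x) = σ (F x)) : F ∈ M.carrier := by
  classical
  obtain ⟨r, u, B⟩ := M.exists_augBasis hU
  obtain ⟨d, hd, hFd⟩ := B.coords_of_mem_intHull hF
  have hE : ∀ j, ∀ σ ∈ 𝔓.I, ∀ x, ffAugFam u j (act σ x) = σ (ffAugFam u j x) := by
    rintro (_ | i) σ hσ x
    · simp
    · exact M.equivariant _ (B.mem i) σ hσ x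
  have hfix : ∀ j, d j ∈ 𝔓.K0 := by
    intro j
    rw [FFPlace.mem_K0_iff]
    intro τ hτ
    have hz : ∑ j, (τ (d j) - d j) • ffAugFam u j = 0 := by
      funext x
      have h1 := heq τ⁻¹ (𝔓.I.inv_mem hτ) x
      rw [hFd] at h1
      simp only [Finset.sum_apply, Pi.smul_apply, smul_eq_mul, Pi.zero_apply] at h1 ⊢
      have h2 := congrArg τ h1
      rw [map_sum] at h2
      have h3 : τ (τ⁻¹ (∑ j, d j * ffAugFam u j x)) = ∑ j, d j * ffAugFam u j x := by
        rw [← AlgEquiv.mul_apply, mul_inv_cancel, AlgEquiv.one_apply]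
      rw [h3] at h2
      simp only [sub_mul, Finset.sum_sub_distrib]
      rw [← h2, sub_eq_zero]
      refine Finset.sum_congr rfl (fun j _ => ?_)
      rw [map_mul, hE j τ⁻¹ (𝔓.I.inv_mem hτ)]
      congr 1
      rw [← AlgEquiv.mul_apply, mul_inv_cancel, AlgEquiv.one_apply]
    have := Fintype.linearIndependent_iff.mp B.indep _ hz j
    exact sub_eq_zero.mp this
  rw [hFd]
  refine M.carrier.sum_mem (fun j _ => ?_)
  have hdW : d j ∈ 𝔓.W := by
    rw [FFPlace.mem_W_iff]
    exact ⟨hd j, (𝔓.mem_K0_iff _).mp (hfix j)⟩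
  have hj : ffAugFam u j ∈ M.carrier := by
    rcases j with _ | i
    · exact M.carrier.one_mem
    · exact B.mem i
  exact M.carrier.smul_mem hj (⟨d j, hdW⟩ : 𝔓.W)

end FFModel

end Fermat.Agent.TW
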