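/-
P10 / G7 (helper2): quotients of function-model orders.

For a surjective `I`-equivariant homomorphism `π : X → Y` of finite groups and a model `M` of `X`
the functions `g` on `Y` with `g ∘ π ∈ M` form a model of `Y` ("the quotient of a finite flat
group scheme by the closure of a subgroup of the generic fibre").
Separation of points: norms `∏_{n ∈ ker π} h(x + n)`; comultiplication: bases + Galois descent.
-/
import Fermat.Agent.Lib.TW.Flat.ModelFree

set_option autoImplicit false

namespace Fermat.Agent.TW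

open ValuationSubring Polynomial
open Fermat.Agent.S05Lib
open scoped Pointwise

local notation "Qb" => AlgebraicClosure ℚ
local notation "GQ" => (AlgebraicClosure ℚ ≃ₐ[ℚ] AlgebraicClosure ℚ)

/-- functions invariant under the kernel factor through a surjection -/
lemma ff_exists_factor {X Y : Type*} [AddCommGroup X] [AddCommGroup Y] (π : X →+ Y)
    (hπ : Function.Surjective π) {F : X → Qb}
    (hF : ∀ x n, π n = 0 → F (x + n) = F x) : ∃ g : Y → Qb, ∀ x, g (π x) = F x := by
  refine ⟨fun y => F (Function.surjInv hπ y), fun x => ?_⟩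
  have h1 : π (x - Function.surjInv hπ (π x)) = 0 := by
    rw [map_sub, Function.surjInv_eq hπ, sub_self]
  have := hF (Function.surjInv hπ (π x)) _ h1
  change F (Function.surjInv hπ (π x)) = F x
  rw [← this]
  congr 1
  abel

namespace FFModel

variable {𝔓 : FFPlace} {X : Type*} [AddCommGroup X] {act : GQ → X →+ X} (M : FFModel 𝔓 X act)

/-- norms along an `I`-stable finite subset belong to the model -/
theorem norm_mem (hU : 𝔓.Unr) (N : Finset X) (hN : ∀ σ ∈ 𝔓.I, ∀ n ∈ N, act σ n ∈ N)
    {h : X → Qb} (hh : h ∈ M.carrier) : (fun x => ∏ n ∈ N, h (x + n)) ∈ M.carrier := by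
  classical
  refine mem_of_mem_intHull hU ?_ ?_
  · have : (fun x => ∏ n ∈ N, h (x + n)) = ∏ n ∈ N, (fun x => h (x + n)) := by
      funext x
      rw [Finset.prod_apply]
    rw [this]
    exact M.intHull.prod_mem (fun n _ => M.translate_mem_intHull hh n)
  · intro σ hσ x
    rw [map_prod]
    refine Finset.prod_nbij' (fun n => act σ⁻¹ n) (fun n => act σ n)
      (fun n hn => hN _ (𝔓.I.inv_mem hσ) n hn) (fun n hn => hN σ hσ n hn)
      (fun n _ => M.act_act_inv hσ n) (fun n _ => M.act_inv_act hσ n) (fun n _ => ?_)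
    rw [← M.equivariant h hh σ hσ, map_add, M.act_act_inv hσ]

variable {Y : Type*} [AddCommGroup Y] {actY : GQ → Y →+ Y}

/-- the underlying algebra of the quotient model -/
noncomputable def quotCarrier (π : X →+ Y) : Subalgebra 𝔓.W (Y → Qb) :=
  M.carrier.comap (ffPull 𝔓 π)

lemma mem_quotCarrier (π : X →+ Y) (g : Y → Qb) :
    g ∈ M.quotCarrier π ↔ (fun x => g (π x)) ∈ M.carrier := Iff.rfl

lemma quotCarrier_fg (hU : 𝔓.Unr) (π : X →+ Y) (hπ : Function.Surjective π) :
    (M.quotCarrier π).toSubmodule.FG := by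
  have := hU.isPrincipalIdealRing
  have hnoeth : IsNoetherian 𝔓.W M.carrier.toSubmodule :=
    isNoetherian_of_fg_of_noetherian _ M.fg
  have hinj : Function.Injective (ffPull 𝔓 (X := Y) π).toLinearMap := by
    intro g g' hgg
    funext y
    obtain ⟨x, rfl⟩ := hπ y
    exact congrFun hgg x
  refine Submodule.fg_of_fg_map_injective _ hinj ?_
  refine isNoetherian_submodule.mp hnoeth _ ?_
  rintro _ ⟨g, hg, rfl⟩
  exact hg

/-- an element of the model invariant under the kernel descends -/
lemma exists_mem_quotCarrier (π : X →+ Y) (hπ : Function.Surjective π) {F : X → Qb}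
    (hF : F ∈ M.carrier) (hinv : ∀ x n, π n = 0 → F (x + n) = F x) :
    ∃ g ∈ M.quotCarrier π, ∀ x, g (π x) = F x := by
  obtain ⟨g, hg⟩ := ff_exists_factor π hπ hinv
  refine ⟨g, ?_, hg⟩
  rw [mem_quotCarrier]
  have : (fun x => g (π x)) = F := funext hg
  rwa [this]

/-- separation of points in the quotient -/
theorem quotCarrier_separates (hU : 𝔓.Unr) [Finite X] (π : X →+ Y)
    (hπ : Function.Surjective π) (hact : ∀ σ ∈ 𝔓.I, ∀ x, π (act σ x) = actY σ (π x))
    (y y' : Y) (hyy : y ≠ y') : ∃ g ∈ M.quotCarrier π, g y ≠ g y' := by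
  classical
  have := Fintype.ofFinite X
  obtain ⟨x, rfl⟩ := hπ y
  obtain ⟨x', rfl⟩ := hπ y'
  by_contra hcon
  push Not at hcon
  set N : Finset X := Finset.univ.filter (fun n => π n = 0) with hNdef
  have hN0 : (0 : X) ∈ N := by simp [hNdef]
  have hmemN : ∀ n, n ∈ N ↔ π n = 0 := fun n => by simp [hNdef]
  have hNstab : ∀ σ ∈ 𝔓.I, ∀ n ∈ N, act σ n ∈ N := by
    intro σ hσ n hn
    rw [hmemN] at hn ⊢
    rw [hact σ hσ, hn, map_zero]
  -- norms agree
  have hnorm : ∀ h ∈ M.carrier, ∏ n ∈ N, h (x + n) = ∏ n ∈ N, h (x' + n) := by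
    intro h hh
    have h1 := M.norm_mem hU N hNstab hh
    obtain ⟨g, hg, hgF⟩ := M.exists_mem_quotCarrier π hπ h1 (by
      intro z n₀ hn₀
      refine Finset.prod_nbij' (fun n => n₀ + n) (fun n => -n₀ + n) ?_ ?_ ?_ ?_ ?_
      · intro n hn; rw [hmemN] at hn ⊢; rw [map_add, hn₀, hn, add_zero]
      · intro n hn; rw [hmemN] at hn ⊢; rw [map_add, map_neg, hn₀, hn, neg_zero, add_zero]
      · intro n _; abel
      · intro n _; abel
      · intro n _; congr 1; abel)
    have := hcon g hg
    rwa [hgF, hgF] at this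
  -- hence every `h` takes at `x` a value which it takes on `x' + N`
  have hval : ∀ h ∈ M.carrier, ∃ n ∈ N, h x = h (x' + n) := by
    intro h hh
    have hpoly : (∏ n ∈ N, (Polynomial.X - Polynomial.C (h (x + n))) : Qb[X]) =
        ∏ n ∈ N, (Polynomial.X - Polynomial.C (h (x' + n))) := by
      refine Polynomial.eq_of_infinite_eval_eq _ _ ?_
      refine Set.Infinite.mono ?_ (Set.infinite_range_of_injective
        (Nat.cast_injective (R := Qb)))
      rintro _ ⟨t, rfl⟩
      simp only [Set.mem_ofPred_eq, Polynomial.eval_prod, Polynomial.eval_sub, Polynomial.eval_X,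
        Polynomial.eval_C]
      have hmem : (fun z => (t : Qb) - h z) ∈ M.carrier :=
        M.carrier.sub_mem (M.const_mem (𝔓.natCast_mem_W t)) hh
      exact hnorm _ hmem
    have h1 := congrArg (Polynomial.eval (h x)) hpoly
    simp only [Polynomial.eval_prod, Polynomial.eval_sub, Polynomial.eval_X,
      Polynomial.eval_C] at h1
    have h2 : ∏ n ∈ N, (h x - h (x + n)) = 0 :=
      Finset.prod_eq_zero hN0 (by rw [add_zero, sub_self])
    rw [h2] at h1
    obtain ⟨n, hn, hz⟩ := Finset.prod_eq_zero_iff.mp h1.symm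
    exact ⟨n, hn, sub_eq_zero.mp hz⟩
  -- covering by subgroups
  let G := M.carrier.toSubmodule
  let H : X → AddSubgroup G := fun n =>
    { carrier := {h | (h : X → Qb) x = (h : X → Qb) (x' + n)}
      add_mem' := by
        intro a b ha hb
        simp only [Set.mem_ofPred_eq] at ha hb ⊢
        change (a : X → Qb) x + (b : X → Qb) x = (a : X → Qb) (x' + n) + (b : X → Qb) (x' + n)
        rw [ha, hb]
      zero_mem' := rfl
      neg_mem' := by
        intro a ha
        simp only [Set.mem_ofPred_eq] at ha ⊢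
        change -((a : X → Qb) x) = -((a : X → Qb) (x' + n))
        rw [ha] }
  have hcover : ⋃ n ∈ N, ((0 : G) +ᵥ (H n : Set G)) = Set.univ := by
    rw [Set.eq_univ_iff_forall]
    intro h
    obtain ⟨n, hn, hx⟩ := hval h.1 h.2
    simp only [Set.mem_iUnion]
    refine ⟨n, hn, ?_⟩
    rw [zero_vadd]
    exact hx
  obtain ⟨n, hn, hfin⟩ := AddSubgroup.exists_finiteIndex_of_leftCoset_cover hcover
  have hall : ∀ h ∈ M.carrier, h x = h (x' + n) := by
    intro h hh
    obtain ⟨k, hk, -, hkm⟩ :=
      AddSubgroup.exists_nsmul_mem_of_index_ne_zero hfin.index_ne_zero (⟨h, hh⟩ : G)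
    have h3 : (k : Qb) * h x = (k : Qb) * h (x' + n) := by
      have : ((k • (⟨h, hh⟩ : G) : G) : X → Qb) x = ((k • (⟨h, hh⟩ : G) : G) : X → Qb) (x' + n) :=
        hkm
      simpa using this
    exact mul_left_cancel₀ (by exact_mod_cast hk.ne') h3
  have hxx : x = x' + n := by
    by_contra hne
    obtain ⟨f, hf, hfne⟩ := M.separates _ _ hne
    exact hfne (hall f hf)
  apply hyy
  rw [hxx, map_add, (hmemN n).mp hn, add_zero]

/-- comultiplication in the quotient -/
theorem quotCarrier_comul (hU : 𝔓.Unr) (π : X →+ Y) (hπ : Function.Surjective π)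
    {g : Y → Qb} (hg : g ∈ M.quotCarrier π) :
    ∃ (n : ℕ) (a b : Fin n → (Y → Qb)), (∀ i, a i ∈ M.quotCarrier π) ∧
      (∀ i, b i ∈ M.quotCarrier π) ∧ ∀ y y', g (y + y') = ∑ i, a i y * b i y' := by
  classical
  set f : X → Qb := fun x => g (π x) with hf
  have hfM : f ∈ M.carrier := hg
  have hfinv : ∀ x n, π n = 0 → f (x + n) = f x := by
    intro x n hn
    simp only [hf, map_add, hn, add_zero]
  obtain ⟨r, u, B⟩ := M.exists_augBasis hU
  have hEmem : ∀ j, ffAugFam u j ∈ M.carrier := by
    rintro (_ | i)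
    · exact M.carrier.one_mem
    · exact B.mem i
  -- first expansion
  obtain ⟨m, g₁, h₁, hg₁, hh₁, hgh⟩ := M.comul f hfM
  choose c hc hce using fun i => B.span (h₁ i) (hh₁ i)
  set G : Option (Fin r) → X → Qb := fun k => ∑ i, c i k • g₁ i with hG
  have hGM : ∀ k, G k ∈ M.carrier := fun k =>
    M.carrier.sum_mem (fun i _ => M.carrier.smul_mem (hg₁ i) (⟨c i k, hc i k⟩ : 𝔓.W))
  have hexp1 : ∀ x y, f (x + y) = ∑ k, G k x * ffAugFam u k y := by
    intro x y
    rw [hgh]
    have h1 : ∀ i, h₁ i y = ∑ k, c i k * ffAugFam u k y := by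
      intro i
      have := congrFun (hce i) y
      simpa using this
    simp_rw [h1, Finset.mul_sum]
    rw [Finset.sum_comm]
    refine Finset.sum_congr rfl (fun k _ => ?_)
    simp only [hG, Finset.sum_apply, Pi.smul_apply, smul_eq_mul, Finset.sum_mul]
    exact Finset.sum_congr rfl (fun i _ => by ring)
  have hGinv : ∀ k x n, π n = 0 → G k (x + n) = G k x := by
    intro k x n hn
    have hz : ∑ k, (G k (x + n) - G k x) • ffAugFam u k = 0 := by
      funext y
      simp only [Finset.sum_apply, Pi.smul_apply, smul_eq_mul, Pi.zero_apply, sub_mul,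
        Finset.sum_sub_distrib]
      rw [← hexp1, ← hexp1, sub_eq_zero]
      have : x + n + y = x + y + n := by abel
      rw [this, hfinv _ _ hn]
    exact sub_eq_zero.mp (Fintype.linearIndependent_iff.mp B.indep _ hz k)
  -- a basis of the invariant part
  set Ninv : Submodule 𝔓.W (X → Qb) :=
    (M.quotCarrier π).toSubmodule.map (ffPull 𝔓 (X := Y) π).toLinearMap with hNinv
  have hNfg : Ninv.FG := (M.quotCarrier_fg hU π hπ).map _
  have hNmem : ∀ F : X → Qb, F ∈ Ninv ↔ ∃ g' ∈ M.quotCarrier π, ∀ x, g' (π x) = F x := by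
    intro F
    constructor
    · rintro ⟨g', hg', rfl⟩
      exact ⟨g', hg', fun x => rfl⟩
    · rintro ⟨g', hg', hF⟩
      exact ⟨g', hg', funext hF⟩
  obtain ⟨s, u', hu', hind', hspan'⟩ := FFPlace.Unr.exists_basis_of_fg 𝔓 hU Ninv hNfg
  choose ut hut hutu using fun a => (hNmem (u' a)).mp (hu' a)
  have hu'M : ∀ a, u' a ∈ M.carrier := by
    intro a
    have : (fun x => ut a (π x)) = u' a := funext (hutu a)
    rw [← this]
    exact hut a
  have hindQ : LinearIndependent Qb u' :=
    𝔓.linearIndependent_of_equivariant (fun σ => act σ) u'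
      (fun a σ hσ x => M.equivariant _ (hu'M a) σ hσ x) hind'
  have hGN : ∀ k, G k ∈ Ninv := by
    intro k
    obtain ⟨g', hg', hgG⟩ := M.exists_mem_quotCarrier π hπ (hGM k) (hGinv k)
    exact (hNmem _).mpr ⟨g', hg', hgG⟩
  have hGspan : ∀ k, ∃ d : Fin s → 𝔓.W, ∑ a, d a • u' a = G k := by
    intro k
    have := hGN k
    rw [← hspan', Submodule.mem_span_range_iff_exists_fun] at this
    exact this
  choose d hd using hGspan
  set K : Fin s → X → Qb := fun a => ∑ k, (d k a : Qb) • ffAugFam u k with hK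
  have hKM : ∀ a, K a ∈ M.carrier := fun a =>
    M.carrier.sum_mem (fun k _ => M.carrier.smul_mem (hEmem k) (d k a))
  have hexp2 : ∀ x y, f (x + y) = ∑ a, u' a x * K a y := by
    intro x y
    rw [hexp1]
    have h1 : ∀ k, G k x = ∑ a, (d k a : Qb) * u' a x := by
      intro k
      have := congrFun (hd k) x
      rw [← this]
      simp only [Finset.sum_apply, Pi.smul_apply]
      rfl
    simp_rw [h1, Finset.sum_mul]
    rw [Finset.sum_comm]
    refine Finset.sum_congr rfl (fun a _ => ?_)
    simp only [hK, Finset.sum_apply, Pi.smul_apply, smul_eq_mul, Finset.mul_sum]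
    exact Finset.sum_congr rfl (fun k _ => by ring)
  have hKinv : ∀ a y n, π n = 0 → K a (y + n) = K a y := by
    intro a y n hn
    have hz : ∑ a, (K a (y + n) - K a y) • u' a = 0 := by
      funext x
      simp only [Finset.sum_apply, Pi.smul_apply, smul_eq_mul, Pi.zero_apply, sub_mul,
        Finset.sum_sub_distrib]
      have e1 : ∑ a, K a (y + n) * u' a x = f (x + (y + n)) := by
        rw [hexp2]; exact Finset.sum_congr rfl (fun a _ => mul_comm _ _)
      have e2 : ∑ a, K a y * u' a x = f (x + y) := by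
        rw [hexp2]; exact Finset.sum_congr rfl (fun a _ => mul_comm _ _)
      rw [e1, e2, sub_eq_zero, ← add_assoc, hfinv _ _ hn]
    exact sub_eq_zero.mp (Fintype.linearIndependent_iff.mp hindQ _ hz a)
  choose Kt hKt hKtK using fun a => M.exists_mem_quotCarrier π hπ (hKM a) (hKinv a)
  refine ⟨s, ut, Kt, hut, hKt, fun y y' => ?_⟩
  obtain ⟨x, rfl⟩ := hπ y
  obtain ⟨x', rfl⟩ := hπ y'
  rw [← map_add]
  change f (x + x') = _
  rw [hexp2]
  exact Finset.sum_congr rfl (fun a _ => by rw [hutu, hKtK])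

/-- the quotient model -/
noncomputable def quot (hU : 𝔓.Unr) [Finite X] (π : X →+ Y) (hπ : Function.Surjective π)
    (hact : ∀ σ ∈ 𝔓.I, ∀ x, π (act σ x) = actY σ (π x)) : FFModel 𝔓 Y actY where
  carrier := M.quotCarrier π
  equivariant := by
    intro g hg σ hσ y
    obtain ⟨x, rfl⟩ := hπ y
    rw [← hact σ hσ]
    exact M.equivariant _ hg σ hσ x
  fg := M.quotCarrier_fg hU π hπ
  separates := M.quotCarrier_separates hU π hπ hact
  comul := fun _ hg => M.quotCarrier_comul hU π hπ hg

lemma mem_quot_carrier (hU : 𝔓.Unr) [Finite X] (π : X →+ Y) (hπ : Function.Surjective π)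
    (hact : ∀ σ ∈ 𝔓.I, ∀ x, π (act σ x) = actY σ (π x)) (g : Y → Qb) :
    g ∈ (M.quot hU π hπ hact).carrier ↔ (fun x => g (π x)) ∈ M.carrier := Iff.rfl

/-- orders do not decrease in a quotient -/
lemma OrdGE.quot (hU : 𝔓.Unr) [Finite X] (π : X →+ Y) (hπ : Function.Surjective π)
    (hact : ∀ σ ∈ 𝔓.I, ∀ x, π (act σ x) = actY σ (π x)) {x : X} {s : ℚ}
    (h : M.OrdGE x s) : (M.quot hU π hπ hact).OrdGE (π x) s := by
  intro g hg hg0
  exact h _ hg (by simpa using hg0)

lemma OrdGT.quot (hU : 𝔓.Unr) [Finite X] (π : X →+ Y) (hπ : Function.Surjective π)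
    (hact : ∀ σ ∈ 𝔓.I, ∀ x, π (act σ x) = actY σ (π x)) {x : X} {s : ℚ}
    (h : M.OrdGT x s) : (M.quot hU π hπ hact).OrdGT (π x) s := by
  intro g hg hg0
  exact h _ hg (by simpa using hg0)

end FFModel

end Fermat.Agent.TW
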